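/-
S55lib / Cpx / Basic  (helper7) — shared hub of the Poitou–Tate sprint.

Hand-rolled cochain complexes of `k`-modules in degrees `≥ 0`, with *explicit* cohomology
`H n = Z n ⧸ B n` (so that classes are `Cpx.cl x hx` for an honest cochain `x`), morphisms, the long
exact cohomology sequence of a degreewise short exact sequence (connecting map `IsSES.δ`, computed by
`IsSES.δ_cl`), exactness at the three spots and naturality of `δ`.

No category theory: everything is stated with `→ₗ[k]` and elements.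
-/
import Mathlib

set_option autoImplicit false

noncomputable section

namespace Fermat.Agent.S55lib

universe u

/-- A cochain complex of `k`-modules concentrated in degrees `≥ 0`. -/
structure Cpx (k : Type u) [CommRing k] where
  /-- the cochains -/
  X : ℕ → Type u
  [acg : ∀ n, AddCommGroup (X n)]
  [mod : ∀ n, Module k (X n)]
  /-- the differential -/
  d : ∀ n, X n →ₗ[k] X (n + 1)
  d_d : ∀ n (x : X n), d (n + 1) (d n x) = 0

namespace Cpx

attribute [instance] Cpx.acg Cpx.mod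

variable {k : Type u} [CommRing k]

section basic

variable (K : Cpx k)

/-- cocycles -/
def Z (n : ℕ) : Submodule k (K.X n) := LinearMap.ker (K.d n)

/-- coboundaries (`B 0 = ⊥`) -/
def B : ∀ n : ℕ, Submodule k (K.X n)
  | 0 => ⊥
  | n + 1 => LinearMap.range (K.d n)

@[simp] lemma mem_Z {n : ℕ} {x : K.X n} : x ∈ K.Z n ↔ K.d n x = 0 := LinearMap.mem_ker

@[simp] lemma mem_B_zero {x : K.X 0} : x ∈ K.B 0 ↔ x = 0 := Submodule.mem_bot k

@[simp] lemma mem_B_succ {n : ℕ} {x : K.X (n + 1)} : x ∈ K.B (n + 1) ↔ ∃ y, K.d n y = x :=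
  LinearMap.mem_range

lemma B_le_Z (n : ℕ) : K.B n ≤ K.Z n := by
  cases n with
  | zero =>
    intro x hx
    rw [mem_B_zero] at hx
    rw [mem_Z, hx, map_zero]
  | succ n =>
    intro x hx
    obtain ⟨y, rfl⟩ := (K.mem_B_succ).1 hx
    rw [mem_Z, K.d_d]

lemma d_mem_B {n : ℕ} (y : K.X n) : K.d n y ∈ K.B (n + 1) := K.mem_B_succ.2 ⟨y, rfl⟩

/-- cohomology, as an explicit quotient -/
abbrev H (n : ℕ) : Type u := K.Z n ⧸ (K.B n).comap (K.Z n).subtype

/-- the class of a cocycle, as a linear map -/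
def cls (n : ℕ) : K.Z n →ₗ[k] K.H n := Submodule.mkQ _

/-- the class of a cocycle -/
def cl {n : ℕ} (x : K.X n) (hx : K.d n x = 0) : K.H n := K.cls n ⟨x, K.mem_Z.2 hx⟩

lemma cls_apply {n : ℕ} (z : K.Z n) : K.cls n z = K.cl z.1 (K.mem_Z.1 z.2) := rfl

lemma exists_rep {n : ℕ} (h : K.H n) : ∃ (x : K.X n) (hx : K.d n x = 0), K.cl x hx = h := by
  obtain ⟨⟨x, hx⟩, rfl⟩ := Submodule.mkQ_surjective _ h
  exact ⟨x, K.mem_Z.1 hx, rfl⟩

variable {K} in
lemma cl_eq_zero_iff {n : ℕ} {x : K.X n} {hx : K.d n x = 0} : K.cl x hx = 0 ↔ x ∈ K.B n := by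
  unfold cl cls
  rw [Submodule.mkQ_apply, Submodule.Quotient.mk_eq_zero]
  rfl

variable {K} in
lemma cl_eq_cl_iff {n : ℕ} {x y : K.X n} {hx : K.d n x = 0} {hy : K.d n y = 0} :
    K.cl x hx = K.cl y hy ↔ x - y ∈ K.B n := by
  unfold cl cls
  rw [Submodule.mkQ_apply, Submodule.mkQ_apply, Submodule.Quotient.eq]
  rfl

variable {K} in
lemma cl_add {n : ℕ} {x y : K.X n} (hx : K.d n x = 0) (hy : K.d n y = 0) :
    K.cl (x + y) (by rw [map_add, hx, hy, add_zero]) = K.cl x hx + K.cl y hy := rfl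

variable {K} in
lemma cl_smul {n : ℕ} (c : k) {x : K.X n} (hx : K.d n x = 0) :
    K.cl (c • x) (by rw [map_smul, hx, smul_zero]) = c • K.cl x hx := rfl

variable {K} in
lemma cl_neg {n : ℕ} {x : K.X n} (hx : K.d n x = 0) :
    K.cl (-x) (by rw [map_neg, hx, neg_zero]) = - K.cl x hx := rfl

variable {K} in
lemma cl_sub {n : ℕ} {x y : K.X n} (hx : K.d n x = 0) (hy : K.d n y = 0) :
    K.cl (x - y) (by rw [map_sub, hx, hy, sub_zero]) = K.cl x hx - K.cl y hy := rfl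

lemma cl_zero {n : ℕ} : K.cl (0 : K.X n) (map_zero _) = 0 := rfl

lemma cl_congr {n : ℕ} {x y : K.X n} (h : x = y) (hx : K.d n x = 0) :
    K.cl x hx = K.cl y (h ▸ hx) := by subst h; rfl

variable {K} in
/-- In degree `0`, a class vanishes iff its representative does. -/
lemma cl_zero_eq_zero_iff {x : K.X 0} {hx : K.d 0 x = 0} : K.cl x hx = 0 ↔ x = 0 := by
  rw [cl_eq_zero_iff, mem_B_zero]

variable {K} in
lemma cl_succ_eq_zero_iff {n : ℕ} {x : K.X (n + 1)} {hx : K.d (n + 1) x = 0} :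
    K.cl x hx = 0 ↔ ∃ y, K.d n y = x := by
  rw [cl_eq_zero_iff, mem_B_succ]

end basic

/-! ### Morphisms -/

/-- A morphism of complexes. -/
@[ext] structure Hom (K L : Cpx k) where
  /-- the components -/
  f : ∀ n, K.X n →ₗ[k] L.X n
  comm : ∀ n (x : K.X n), f (n + 1) (K.d n x) = L.d n (f n x)

namespace Hom

variable {K L M : Cpx k}

/-- identity -/
def id (K : Cpx k) : Hom K K := ⟨fun _ => LinearMap.id, fun _ _ => rfl⟩

/-- composition (`φ` then `ψ`) -/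
def comp (ψ : Hom L M) (φ : Hom K L) : Hom K M :=
  ⟨fun n => (ψ.f n).comp (φ.f n), fun n x => by
    simp only [LinearMap.comp_apply]; rw [φ.comm, ψ.comm]⟩

/-- zero morphism -/
instance : Zero (Hom K L) := ⟨⟨fun _ => 0, fun _ _ => by simp⟩⟩

@[simp] lemma zero_f (n : ℕ) : (0 : Hom K L).f n = 0 := rfl
@[simp] lemma id_f (n : ℕ) : (Hom.id K).f n = LinearMap.id := rfl
@[simp] lemma comp_f (ψ : Hom L M) (φ : Hom K L) (n : ℕ) :
    (ψ.comp φ).f n = (ψ.f n).comp (φ.f n) := rfl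

variable (φ : Hom K L)

lemma map_Z (n : ℕ) {x : K.X n} (hx : K.d n x = 0) : L.d n (φ.f n x) = 0 := by
  rw [← φ.comm, hx, map_zero]

lemma map_B (n : ℕ) {x : K.X n} (hx : x ∈ K.B n) : φ.f n x ∈ L.B n := by
  cases n with
  | zero =>
    rw [mem_B_zero] at hx
    rw [mem_B_zero, hx, map_zero]
  | succ n =>
    obtain ⟨y, rfl⟩ := (K.mem_B_succ).1 hx
    rw [φ.comm]
    exact L.d_mem_B _

/-- induced map on cocycles -/
def mapZ (n : ℕ) : K.Z n →ₗ[k] L.Z n :=
  (φ.f n).restrict (p := K.Z n) (q := L.Z n) fun _ hx => L.mem_Z.2 (φ.map_Z n (K.mem_Z.1 hx))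

/-- induced map on cohomology -/
def mapH (n : ℕ) : K.H n →ₗ[k] L.H n :=
  Submodule.mapQ _ _ (φ.mapZ n) fun _ hx => φ.map_B n hx

@[simp] lemma mapH_cl {n : ℕ} (x : K.X n) (hx : K.d n x = 0) :
    φ.mapH n (K.cl x hx) = L.cl (φ.f n x) (φ.map_Z n hx) := rfl

lemma mapH_id (n : ℕ) (h : K.H n) : (Hom.id K).mapH n h = h := by
  obtain ⟨x, hx, rfl⟩ := K.exists_rep h
  rfl

lemma mapH_comp (ψ : Hom L M) (n : ℕ) (h : K.H n) :
    (ψ.comp φ).mapH n h = ψ.mapH n (φ.mapH n h) := by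
  obtain ⟨x, hx, rfl⟩ := K.exists_rep h
  rfl

lemma mapH_zero (n : ℕ) (h : K.H n) : (0 : Hom K L).mapH n h = 0 := by
  obtain ⟨x, hx, rfl⟩ := K.exists_rep h
  rfl

end Hom

/-! ### Short exact sequences and the long exact sequence -/

/-- Degreewise short exactness of `0 → K → L → M → 0`. -/
structure IsSES {K L M : Cpx k} (f : Hom K L) (g : Hom L M) : Prop where
  inj : ∀ n, Function.Injective (f.f n)
  surj : ∀ n, Function.Surjective (g.f n)
  exact : ∀ n (y : L.X n), g.f n y = 0 ↔ ∃ x, f.f n x = y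

namespace IsSES

variable {K L M : Cpx k} {f : Hom K L} {g : Hom L M} (S : IsSES f g)

include S

lemma comp_zero (n : ℕ) (x : K.X n) : g.f n (f.f n x) = 0 := (S.exact n _).2 ⟨x, rfl⟩

/-- If `f x = d y` then `x` is a cocycle. -/
lemma d_eq_zero_of_f_eq_d {n : ℕ} {x : K.X (n + 1)} {y : L.X n} (h : f.f (n + 1) x = L.d n y) :
    K.d (n + 1) x = 0 := by
  apply S.inj (n + 2)
  rw [f.comm, h, L.d_d, map_zero]

/-- Every cocycle of `M` has a lift `y` together with `x` such that `f x = d y`. -/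
lemma exists_lift {n : ℕ} (z : M.X n) (hz : M.d n z = 0) :
    ∃ (y : L.X n) (x : K.X (n + 1)), g.f n y = z ∧ f.f (n + 1) x = L.d n y := by
  obtain ⟨y, rfl⟩ := S.surj n z
  have : g.f (n + 1) (L.d n y) = 0 := by rw [g.comm, hz]
  obtain ⟨x, hx⟩ := (S.exact (n + 1) _).1 this
  exact ⟨y, x, rfl, hx⟩

/-- Independence of choices in the construction of the connecting map. -/
lemma δ_aux {n : ℕ} {z z' : M.X n} (hzz' : z - z' ∈ M.B n)
    {y y' : L.X n} (hy : g.f n y = z) (hy' : g.f n y' = z')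
    {x x' : K.X (n + 1)} (hx : f.f (n + 1) x = L.d n y) (hx' : f.f (n + 1) x' = L.d n y') :
    x - x' ∈ K.B (n + 1) := by
  rw [mem_B_succ]
  cases n with
  | zero =>
    rw [mem_B_zero] at hzz'
    have h0 : g.f 0 (y - y') = 0 := by rw [map_sub, hy, hy', hzz']
    obtain ⟨w, hw⟩ := (S.exact 0 _).1 h0
    refine ⟨w, S.inj 1 ?_⟩
    rw [f.comm, hw, map_sub, map_sub, hx, hx']
  | succ n =>
    obtain ⟨u, hu⟩ := (M.mem_B_succ).1 hzz'
    obtain ⟨v, rfl⟩ := S.surj n u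
    have h0 : g.f (n + 1) (y - y' - L.d n v) = 0 := by
      rw [map_sub, map_sub, hy, hy', g.comm, hu, sub_self]
    obtain ⟨w, hw⟩ := (S.exact (n + 1) _).1 h0
    refine ⟨w, S.inj (n + 2) ?_⟩
    rw [f.comm, hw, map_sub, map_sub, map_sub, hx, hx', L.d_d, sub_zero]

/-- The connecting map as a function. -/
def δfun (n : ℕ) (h : M.H n) : K.H (n + 1) :=
  let z := (M.exists_rep h).choose
  let hz := (M.exists_rep h).choose_spec.choose
  let y := (S.exists_lift z hz).choose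
  let x := (S.exists_lift z hz).choose_spec.choose
  K.cl x (S.d_eq_zero_of_f_eq_d (y := y) (S.exists_lift z hz).choose_spec.choose_spec.2)

/-- Computation of the connecting map: if `z` is a cocycle of `M`, `y` lifts `z` and `f x = d y`,
then `δ [z] = [x]`. -/
lemma δfun_cl {n : ℕ} (z : M.X n) (hz : M.d n z = 0) (y : L.X n) (hy : g.f n y = z)
    (x : K.X (n + 1)) (hx : f.f (n + 1) x = L.d n y) :
    S.δfun n (M.cl z hz) = K.cl x (S.d_eq_zero_of_f_eq_d hx) := by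
  unfold δfun
  have h1 := (M.exists_rep (M.cl z hz)).choose_spec.choose_spec
  have h2 := (S.exists_lift _ (M.exists_rep (M.cl z hz)).choose_spec.choose).choose_spec.choose_spec
  rw [cl_eq_cl_iff]
  exact S.δ_aux (cl_eq_cl_iff.1 h1) h2.1 hy h2.2 hx

/-- The connecting homomorphism `Hⁿ(M) → Hⁿ⁺¹(K)`. -/
def δ (n : ℕ) : M.H n →ₗ[k] K.H (n + 1) where
  toFun := S.δfun n
  map_add' a b := by
    obtain ⟨z, hz, rfl⟩ := M.exists_rep a
    obtain ⟨z', hz', rfl⟩ := M.exists_rep b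
    obtain ⟨y, x, hy, hx⟩ := S.exists_lift z hz
    obtain ⟨y', x', hy', hx'⟩ := S.exists_lift z' hz'
    rw [← cl_add, S.δfun_cl z hz y hy x hx, S.δfun_cl z' hz' y' hy' x' hx',
      S.δfun_cl (z + z') _ (y + y') (by rw [map_add, hy, hy']) (x + x')
        (by rw [map_add, map_add, hx, hx']), cl_add]
  map_smul' c a := by
    obtain ⟨z, hz, rfl⟩ := M.exists_rep a
    obtain ⟨y, x, hy, hx⟩ := S.exists_lift z hz
    rw [← cl_smul, S.δfun_cl z hz y hy x hx,
      S.δfun_cl (c • z) _ (c • y) (by rw [map_smul, hy]) (c • x)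
        (by rw [map_smul, map_smul, hx]), cl_smul]
    rfl

/-- Computation of the connecting map: if `z` is a cocycle of `M`, `y` lifts `z` and `f x = d y`,
then `δ [z] = [x]`. -/
lemma δ_cl {n : ℕ} (z : M.X n) (hz : M.d n z = 0) (y : L.X n) (hy : g.f n y = z)
    (x : K.X (n + 1)) (hx : f.f (n + 1) x = L.d n y) :
    S.δ n (M.cl z hz) = K.cl x (S.d_eq_zero_of_f_eq_d hx) :=
  S.δfun_cl z hz y hy x hx

/-- `H⁰(K) → H⁰(L)` is injective. -/
lemma mapH_zero_injective : Function.Injective (f.mapH 0) := by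
  rw [← LinearMap.ker_eq_bot, LinearMap.ker_eq_bot']
  intro h hh
  obtain ⟨x, hx, rfl⟩ := K.exists_rep h
  rw [Hom.mapH_cl, cl_zero_eq_zero_iff] at hh
  rw [cl_zero_eq_zero_iff]
  exact S.inj 0 (by rw [hh, map_zero])

/-- `g_* ∘ f_* = 0`. -/
lemma mapH_comp_mapH (n : ℕ) (h : K.H n) : g.mapH n (f.mapH n h) = 0 := by
  obtain ⟨x, hx, rfl⟩ := K.exists_rep h
  rw [Hom.mapH_cl, Hom.mapH_cl]
  rw [cl_congr M (S.comp_zero n x)]
  exact M.cl_zero

/-- Exactness at `Hⁿ(L)`. -/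
theorem exact_mid (n : ℕ) (h : L.H n) : g.mapH n h = 0 ↔ ∃ h', f.mapH n h' = h := by
  constructor
  · intro hh
    obtain ⟨y, hy, rfl⟩ := L.exists_rep h
    rw [Hom.mapH_cl, cl_eq_zero_iff] at hh
    cases n with
    | zero =>
      rw [mem_B_zero] at hh
      obtain ⟨x, hx⟩ := (S.exact 0 _).1 hh
      have hdx : K.d 0 x = 0 := by
        apply S.inj 1
        rw [f.comm, hx, hy, map_zero]
      exact ⟨K.cl x hdx, by rw [Hom.mapH_cl]; exact cl_congr L hx _⟩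
    | succ n =>
      obtain ⟨u, hu⟩ := (M.mem_B_succ).1 hh
      obtain ⟨v, rfl⟩ := S.surj n u
      have h0 : g.f (n + 1) (y - L.d n v) = 0 := by rw [map_sub, g.comm, hu, sub_self]
      obtain ⟨x, hx⟩ := (S.exact (n + 1) _).1 h0
      have hdx : K.d (n + 1) x = 0 := by
        apply S.inj (n + 2)
        rw [f.comm, hx, map_sub, hy, L.d_d, sub_zero, map_zero]
      refine ⟨K.cl x hdx, ?_⟩
      rw [Hom.mapH_cl, cl_eq_cl_iff, hx, mem_B_succ]
      exact ⟨-v, by rw [map_neg]; abel⟩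
  · rintro ⟨h', rfl⟩
    exact S.mapH_comp_mapH n h'

/-- `δ ∘ g_* = 0`. -/
lemma δ_comp_mapH (n : ℕ) (h : L.H n) : S.δ n (g.mapH n h) = 0 := by
  obtain ⟨y, hy, rfl⟩ := L.exists_rep h
  rw [Hom.mapH_cl, S.δ_cl (g.f n y) _ y rfl 0 (by rw [map_zero, hy])]
  exact K.cl_zero

/-- Exactness at `Hⁿ(M)`. -/
theorem exact_right (n : ℕ) (h : M.H n) : S.δ n h = 0 ↔ ∃ h', g.mapH n h' = h := by
  constructor
  · intro hh
    obtain ⟨z, hz, rfl⟩ := M.exists_rep h
    obtain ⟨y, x, hy, hx⟩ := S.exists_lift z hz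
    rw [S.δ_cl z hz y hy x hx, cl_succ_eq_zero_iff] at hh
    obtain ⟨w, rfl⟩ := hh
    have hd : L.d n (y - f.f n w) = 0 := by rw [map_sub, ← f.comm, hx, sub_self]
    refine ⟨L.cl (y - f.f n w) hd, ?_⟩
    rw [Hom.mapH_cl]
    exact cl_congr M (by rw [map_sub, hy, S.comp_zero, sub_zero]) _
  · rintro ⟨h', rfl⟩
    exact S.δ_comp_mapH n h'

/-- `f_* ∘ δ = 0`. -/
lemma mapH_comp_δ (n : ℕ) (h : M.H n) : f.mapH (n + 1) (S.δ n h) = 0 := by
  obtain ⟨z, hz, rfl⟩ := M.exists_rep h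
  obtain ⟨y, x, hy, hx⟩ := S.exists_lift z hz
  rw [S.δ_cl z hz y hy x hx, Hom.mapH_cl, cl_succ_eq_zero_iff]
  exact ⟨y, hx.symm⟩

/-- Exactness at `Hⁿ⁺¹(K)`. -/
theorem exact_left (n : ℕ) (h : K.H (n + 1)) : f.mapH (n + 1) h = 0 ↔ ∃ h', S.δ n h' = h := by
  constructor
  · intro hh
    obtain ⟨x, hx, rfl⟩ := K.exists_rep h
    rw [Hom.mapH_cl, cl_succ_eq_zero_iff] at hh
    obtain ⟨y, hy⟩ := hh
    have hz : M.d n (g.f n y) = 0 := by rw [← g.comm, hy, S.comp_zero]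
    exact ⟨M.cl (g.f n y) hz, S.δ_cl _ hz y rfl x hy.symm⟩
  · rintro ⟨h', rfl⟩
    exact S.mapH_comp_δ n h'

omit S in
/-- Naturality of the connecting map. -/
theorem δ_naturality {K' L' M' : Cpx k} {f' : Hom K' L'} {g' : Hom L' M'} (S : IsSES f g)
    (S' : IsSES f' g') (a : Hom K K') (b : Hom L L') (c : Hom M M')
    (hab : ∀ n x, b.f n (f.f n x) = f'.f n (a.f n x))
    (hbc : ∀ n y, c.f n (g.f n y) = g'.f n (b.f n y)) (n : ℕ) (h : M.H n) :
    a.mapH (n + 1) (S.δ n h) = S'.δ n (c.mapH n h) := by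
  obtain ⟨z, hz, rfl⟩ := M.exists_rep h
  obtain ⟨y, x, hy, hx⟩ := S.exists_lift z hz
  rw [S.δ_cl z hz y hy x hx, Hom.mapH_cl, Hom.mapH_cl]
  rw [S'.δ_cl (c.f n z) _ (b.f n y) (by rw [← hbc, hy]) (a.f (n + 1) x)
    (by rw [← hab, hx, b.comm])]

end IsSES

end Cpx

end Fermat.Agent.S55lib
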