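/-
S55lib / Cpx / Fib  (helper7) — shared hub of the Poitou–Tate sprint.

The shift `sh L` (`(sh L).X 0 = PUnit`, `(sh L).X (n+1) = L.X n`, differential `-d`) and the
homotopy fibre `Fib φ` of a morphism of complexes `φ : K ⟶ L`:
`(Fib φ).X n = K.X n × (sh L).X n`, i.e. `K.X 0` in degree `0` and `K.X (n+1) × L.X n` in degree
`n+1`, with `d (a, b) = (d a, φ a - d b)`.

* `Fib.incl`, `Fib.proj`, `Fib.isSES`: `0 → sh L → Fib φ → K → 0`;
* the long exact sequence `… Hⁿ(K) → Hⁿ(L) → Hⁿ⁺¹(Fib φ) → Hⁿ⁺¹(K) → Hⁿ⁺¹(L) …`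
  (`Fib.ι`, `Fib.π`, `Fib.exact_ι`, `Fib.exact_π`, `Fib.exact_φ`, `Fib.π_zero_injective`);
* functoriality in commutative squares (`Fib.map`) and short exactness of `Fib.map` for a short exact
  sequence of arrows (`Fib.map_isSES`);
* if `0 → K₀ → K → L → 0` is short exact, `K₀ → Fib φ` is a quasi-isomorphism (`Fib.ofKer_bijective`).
-/
import Fermat.Agent.S55lib.Cpx.Basic

set_option autoImplicit false

noncomputable section

namespace Fermat.Agent.S55lib

universe u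

namespace Cpx

variable {k : Type u} [CommRing k]

/-! ### The shift -/

/-- cochains of the shifted complex -/
@[reducible] def shX (L : Cpx k) : ℕ → Type u
  | 0 => PUnit.{u + 1}
  | n + 1 => L.X n

instance shX.acg (L : Cpx k) : ∀ n, AddCommGroup (shX L n)
  | 0 => inferInstanceAs (AddCommGroup PUnit.{u + 1})
  | n + 1 => L.acg n

instance shX.mod (L : Cpx k) : ∀ n, Module k (shX L n)
  | 0 => inferInstanceAs (Module k PUnit.{u + 1})
  | n + 1 => L.mod n

/-- differential of the shifted complex -/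
@[reducible] def shd (L : Cpx k) : ∀ n, shX L n →ₗ[k] shX L (n + 1)
  | 0 => 0
  | n + 1 => -(L.d n)

/-- The shifted complex `L[-1]`, with differential `-d`. -/
@[reducible] def sh (L : Cpx k) : Cpx k where
  X := shX L
  d := shd L
  d_d := by
    intro n x
    cases n with
    | zero =>
      show (-(L.d 0)) ((0 : PUnit.{u + 1} →ₗ[k] L.X 0) x) = 0
      simp
    | succ n =>
      show (-(L.d (n + 1))) ((-(L.d n)) x) = 0
      simp [L.d_d]

lemma sh_d_succ (L : Cpx k) (n : ℕ) (b : L.X n) :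
    (sh L).d (n + 1) b = -(L.d n b : L.X (n + 1)) := rfl

lemma sh_d_zero (L : Cpx k) (b : (sh L).X 0) : (sh L).d 0 b = 0 := rfl

instance (L : Cpx k) : Subsingleton ((sh L).X 0) := inferInstanceAs (Subsingleton PUnit.{u + 1})

/-- functoriality of the shift -/
def shMap {L L' : Cpx k} (β : Hom L L') : Hom (sh L) (sh L') where
  f := fun n => match n with
    | 0 => 0
    | n + 1 => β.f n
  comm := by
    intro n x
    cases n with
    | zero => show β.f 0 ((0 : PUnit.{u + 1} →ₗ[k] L.X 0) x) = (0 : PUnit.{u + 1} →ₗ[k] L'.X 0) _; simp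
    | succ n =>
      show β.f (n + 1) ((-(L.d n)) x) = (-(L'.d n)) (β.f n x)
      simp [β.comm]

lemma shMap_succ {L L' : Cpx k} (β : Hom L L') (n : ℕ) (b : L.X n) :
    (shMap β).f (n + 1) b = (β.f n b : L'.X n) := rfl

/-- `Hⁿ(L) ≃ Hⁿ⁺¹(L[-1])`. -/
def shH (L : Cpx k) (n : ℕ) : L.H n →ₗ[k] (sh L).H (n + 1) :=
  Submodule.mapQ _ _
    ((LinearMap.id : L.X n →ₗ[k] L.X n).restrict (p := L.Z n) (q := (sh L).Z (n + 1))
      (fun x hx => by
        rw [mem_Z] at hx ⊢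
        show -(L.d n x) = 0
        rw [hx, neg_zero]))
    (by
      intro x hx
      have hx' : (x : L.X n) ∈ L.B n := hx
      show ((x : L.X n) : (sh L).X (n + 1)) ∈ (sh L).B (n + 1)
      rw [mem_B_succ]
      cases n with
      | zero =>
        rw [mem_B_zero] at hx'
        exact ⟨PUnit.unit, by rw [sh_d_zero]; exact hx'.symm⟩
      | succ n =>
        obtain ⟨y, hy⟩ := (L.mem_B_succ).1 hx'
        refine ⟨(-y : L.X n), ?_⟩
        rw [sh_d_succ, map_neg, neg_neg]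
        exact hy)

lemma shH_cl (L : Cpx k) {n : ℕ} (b : L.X n) (hb : L.d n b = 0) :
    shH L n (L.cl b hb) = (sh L).cl (n := n + 1) b (by rw [sh_d_succ, hb, neg_zero]) := rfl

lemma shH_bijective (L : Cpx k) (n : ℕ) : Function.Bijective (shH L n) := by
  constructor
  · rw [← LinearMap.ker_eq_bot, LinearMap.ker_eq_bot']
    intro h hh
    obtain ⟨b, hb, rfl⟩ := L.exists_rep h
    rw [shH_cl, cl_succ_eq_zero_iff] at hh
    obtain ⟨y, hy⟩ := hh
    rw [cl_eq_zero_iff]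
    cases n with
    | zero => rw [mem_B_zero, ← hy, sh_d_zero]
    | succ n =>
      rw [mem_B_succ]
      refine ⟨(-y : L.X n), ?_⟩
      rw [map_neg, ← hy, sh_d_succ]
  · intro h
    obtain ⟨b, hb, rfl⟩ := (sh L).exists_rep h
    have hb' : L.d n b = 0 := by
      have : -(L.d n b) = 0 := hb
      exact neg_eq_zero.1 this
    exact ⟨L.cl b hb', rfl⟩

/-- `Hⁿ(L) ≃ Hⁿ⁺¹(L[-1])` as a linear equivalence. -/
def shHEquiv (L : Cpx k) (n : ℕ) : L.H n ≃ₗ[k] (sh L).H (n + 1) :=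
  LinearEquiv.ofBijective (shH L n) (shH_bijective L n)

lemma sh_H_zero (L : Cpx k) (h : (sh L).H 0) : h = 0 := by
  obtain ⟨b, hb, rfl⟩ := (sh L).exists_rep h
  rw [cl_zero_eq_zero_iff]

/-! ### The fibre -/

variable {K L : Cpx k}

/-- The homotopy fibre of `φ : K ⟶ L`. -/
def Fib (φ : Hom K L) : Cpx k where
  X := fun n => K.X n × (sh L).X n
  d := fun n =>
    ((K.d n).comp (LinearMap.fst k _ _)).prod
      (((φ.f n : K.X n →ₗ[k] (sh L).X (n + 1))).comp (LinearMap.fst k _ _) +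
        ((sh L).d n).comp (LinearMap.snd k _ _))
  d_d := by
    rintro n ⟨a, b⟩
    refine Prod.ext ?_ ?_
    · show K.d (n + 1) (K.d n a) = 0
      exact K.d_d n a
    · show (φ.f (n + 1) (K.d n a) : L.X (n + 1)) +
        (sh L).d (n + 1) ((φ.f n a : L.X n) + (sh L).d n b) = 0
      rw [map_add, (sh L).d_d, add_zero, sh_d_succ, φ.comm, add_neg_cancel]

namespace Fib

variable (φ : Hom K L)

lemma d_apply (n : ℕ) (a : K.X n) (b : (sh L).X n) :
    (Fib φ).d n (a, b) = (K.d n a, (φ.f n a : L.X n) + (sh L).d n b) := rfl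

/-- the differential in positive degrees: `d (a, b) = (d a, φ a - d b)` -/
lemma d_succ (n : ℕ) (a : K.X (n + 1)) (b : L.X n) :
    (Fib φ).d (n + 1) ((a, b) : K.X (n + 1) × L.X n) =
      ((K.d (n + 1) a, φ.f (n + 1) a - L.d n b) : K.X (n + 2) × L.X (n + 1)) := by
  rw [d_apply, sh_d_succ, sub_eq_add_neg]

/-- the differential in degree `0`: `d a = (d a, φ a)` -/
lemma d_zero (a : K.X 0) (b : (sh L).X 0) :
    (Fib φ).d 0 (a, b) = ((K.d 0 a, φ.f 0 a) : K.X 1 × L.X 0) := by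
  rw [d_apply, sh_d_zero, add_zero]

/-- inclusion `L[-1] → Fib φ` -/
def incl : Hom (sh L) (Fib φ) where
  f := fun n => LinearMap.inr k (K.X n) ((sh L).X n)
  comm := by
    intro n b
    show ((0 : K.X (n + 1)), (sh L).d n b) = (Fib φ).d n (0, b)
    rw [d_apply, map_zero, map_zero, zero_add]

/-- projection `Fib φ → K` -/
def proj : Hom (Fib φ) K where
  f := fun n => LinearMap.fst k (K.X n) ((sh L).X n)
  comm := fun _ _ => rfl

lemma isSES : IsSES (incl φ) (proj φ) where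
  inj := fun n => LinearMap.inr_injective
  surj := fun n => LinearMap.fst_surjective
  exact := by
    rintro n ⟨a, b⟩
    constructor
    · intro h
      have ha : a = 0 := h
      exact ⟨b, by subst ha; rfl⟩
    · rintro ⟨x, hx⟩
      have : (0, x) = (a, b) := hx
      show a = 0
      exact (congrArg Prod.fst this).symm

/-- The connecting map of `0 → L[-1] → Fib φ → K → 0` is `φ_*`. -/
lemma δ_eq (n : ℕ) (h : K.H n) : (isSES φ).δ n h = shH L n (φ.mapH n h) := by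
  obtain ⟨a, ha, rfl⟩ := K.exists_rep h
  rw [Hom.mapH_cl, shH_cl]
  rw [(isSES φ).δ_cl a ha (a, 0) rfl (φ.f n a : L.X n)
    (by
      show ((0 : K.X (n + 1)), (φ.f n a : L.X n)) = (Fib φ).d n (a, 0)
      rw [d_apply, ha, map_zero, add_zero])]

/-- `Hⁿ(L) → Hⁿ⁺¹(Fib φ)`, `[b] ↦ [(0, b)]`. -/
def ι (n : ℕ) : L.H n →ₗ[k] (Fib φ).H (n + 1) := ((incl φ).mapH (n + 1)).comp (shH L n)

/-- `Hⁿ(Fib φ) → Hⁿ(K)`, `[(a, b)] ↦ [a]`. -/
def π (n : ℕ) : (Fib φ).H n →ₗ[k] K.H n := (proj φ).mapH n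

lemma ι_cl {n : ℕ} (b : L.X n) (hb : L.d n b = 0) :
    ι φ n (L.cl b hb) = (Fib φ).cl (n := n + 1) ((0, b) : K.X (n + 1) × L.X n)
      (by rw [d_succ, map_zero, map_zero, hb, sub_zero]; rfl) := rfl

lemma π_cl {n : ℕ} (x : (Fib φ).X n) (hx : (Fib φ).d n x = 0) :
    π φ n ((Fib φ).cl x hx) = K.cl x.1 (congrArg Prod.fst hx) := rfl

/-- Exactness at `Hⁿ(L)`: `ι h = 0 ↔ h ∈ im φ_*`. -/
theorem exact_ι (n : ℕ) (h : L.H n) : ι φ n h = 0 ↔ ∃ h', φ.mapH n h' = h := by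
  unfold ι
  rw [LinearMap.comp_apply, (isSES φ).exact_left n]
  constructor
  · rintro ⟨h', hh'⟩
    rw [δ_eq] at hh'
    exact ⟨h', (shH_bijective L n).1 hh'⟩
  · rintro ⟨h', rfl⟩
    exact ⟨h', δ_eq φ n h'⟩

/-- Exactness at `Hⁿ⁺¹(Fib φ)`: `π h = 0 ↔ h ∈ im ι`. -/
theorem exact_π (n : ℕ) (h : (Fib φ).H (n + 1)) : π φ (n + 1) h = 0 ↔ ∃ h', ι φ n h' = h := by
  unfold π ι
  rw [(isSES φ).exact_mid (n + 1)]
  constructor
  · rintro ⟨h', rfl⟩
    obtain ⟨h'', rfl⟩ := (shH_bijective L n).2 h'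
    exact ⟨h'', rfl⟩
  · rintro ⟨h', rfl⟩
    exact ⟨shH L n h', rfl⟩

/-- `H⁰(Fib φ) → H⁰(K)` is injective. -/
theorem π_zero_injective : Function.Injective (π φ 0) := by
  rw [← LinearMap.ker_eq_bot, LinearMap.ker_eq_bot']
  intro h hh
  obtain ⟨h', rfl⟩ := ((isSES φ).exact_mid 0 h).1 hh
  rw [sh_H_zero L h', map_zero]

/-- Exactness at `Hⁿ(K)`: `φ_* h = 0 ↔ h ∈ im π`. -/
theorem exact_φ (n : ℕ) (h : K.H n) : φ.mapH n h = 0 ↔ ∃ h', π φ n h' = h := by
  unfold π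
  rw [← (isSES φ).exact_right n, δ_eq]
  constructor
  · intro hh; rw [hh, map_zero]
  · intro hh
    exact (shH_bijective L n).1 (by rw [hh, map_zero])

/-! ### Functoriality -/

variable {K' L' : Cpx k} {φ} {φ' : Hom K' L'}

/-- The map induced on fibres by a commutative square. -/
def map (α : Hom K K') (β : Hom L L')
    (h : ∀ n x, φ'.f n (α.f n x) = β.f n (φ.f n x)) : Hom (Fib φ) (Fib φ') where
  f := fun n => (α.f n).prodMap ((shMap β).f n)
  comm := by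
    rintro n ⟨a, b⟩
    refine Prod.ext ?_ ?_
    · show α.f (n + 1) (K.d n a) = K'.d n (α.f n a)
      exact α.comm n a
    · show (shMap β).f (n + 1) ((φ.f n a : L.X n) + (sh L).d n b) =
        (φ'.f n (α.f n a) : L'.X n) + (sh L').d n ((shMap β).f n b)
      rw [map_add, (shMap β).comm, h, shMap_succ]

lemma map_f_succ (α : Hom K K') (β : Hom L L')
    (h : ∀ n x, φ'.f n (α.f n x) = β.f n (φ.f n x)) (n : ℕ) (a : K.X (n + 1)) (b : L.X n) :
    (map α β h).f (n + 1) ((a, b) : K.X (n + 1) × L.X n) =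
      ((α.f (n + 1) a, β.f n b) : K'.X (n + 1) × L'.X n) := rfl

lemma map_f_fst (α : Hom K K') (β : Hom L L')
    (h : ∀ n x, φ'.f n (α.f n x) = β.f n (φ.f n x)) (n : ℕ) (x : (Fib φ).X n) :
    ((map α β h).f n x).1 = α.f n x.1 := rfl

lemma shMap_isSES {L L' L'' : Cpx k} {β : Hom L L'} {β' : Hom L' L''} (S : IsSES β β') :
    IsSES (shMap β) (shMap β') where
  inj := by
    intro n
    cases n with
    | zero => intro x y _; exact Subsingleton.elim _ _
    | succ n => exact S.inj n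
  surj := by
    intro n
    cases n with
    | zero => intro x; exact ⟨PUnit.unit, Subsingleton.elim _ _⟩
    | succ n => exact S.surj n
  exact := by
    intro n y
    cases n with
    | zero =>
      constructor
      · intro _; exact ⟨PUnit.unit, Subsingleton.elim _ _⟩
      · intro _; exact Subsingleton.elim _ _
    | succ n => exact S.exact n y

/-- A short exact sequence of arrows induces a short exact sequence of fibres. -/
theorem map_isSES {K'' L'' : Cpx k} {φ'' : Hom K'' L''}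
    {α : Hom K K'} {α' : Hom K' K''} {β : Hom L L'} {β' : Hom L' L''}
    (SK : IsSES α α') (SL : IsSES β β')
    (h : ∀ n x, φ'.f n (α.f n x) = β.f n (φ.f n x))
    (h' : ∀ n x, φ''.f n (α'.f n x) = β'.f n (φ'.f n x)) :
    IsSES (map α β h) (map α' β' h') where
  inj := by
    intro n
    exact Function.Injective.prodMap (SK.inj n) ((shMap_isSES SL).inj n)
  surj := by
    intro n
    exact Function.Surjective.prodMap (SK.surj n) ((shMap_isSES SL).surj n)
  exact := by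
    rintro n ⟨a, b⟩
    constructor
    · intro hh
      have h1 : α'.f n a = 0 := congrArg Prod.fst hh
      have h2 : (shMap β').f n b = 0 := congrArg Prod.snd hh
      obtain ⟨x, hx⟩ := (SK.exact n a).1 h1
      obtain ⟨y, hy⟩ := ((shMap_isSES SL).exact n b).1 h2
      exact ⟨(x, y), Prod.ext hx hy⟩
    · rintro ⟨⟨x, y⟩, hxy⟩
      have h1 : α.f n x = a := congrArg Prod.fst hxy
      have h2 : (shMap β).f n y = b := congrArg Prod.snd hxy
      refine Prod.ext ?_ ?_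
      · show α'.f n a = 0
        rw [← h1]; exact SK.comp_zero n x
      · show (shMap β').f n b = 0
        rw [← h2]; exact (shMap_isSES SL).comp_zero n y

/-- naturality of `π` -/
lemma π_map (α : Hom K K') (β : Hom L L')
    (h : ∀ n x, φ'.f n (α.f n x) = β.f n (φ.f n x)) (n : ℕ) (x : (Fib φ).H n) :
    π φ' n ((map α β h).mapH n x) = α.mapH n (π φ n x) := by
  obtain ⟨y, hy, rfl⟩ := (Fib φ).exists_rep x
  rfl

/-- naturality of `ι` -/
lemma ι_map (α : Hom K K') (β : Hom L L')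
    (h : ∀ n x, φ'.f n (α.f n x) = β.f n (φ.f n x)) (n : ℕ) (x : L.H n) :
    (map α β h).mapH (n + 1) (ι φ n x) = ι φ' n (β.mapH n x) := by
  obtain ⟨b, hb, rfl⟩ := L.exists_rep x
  rw [ι_cl, Hom.mapH_cl, Hom.mapH_cl, ι_cl]
  refine cl_congr _ ?_ _
  rw [map_f_succ, map_zero]

/-! ### The kernel of a degreewise surjection -/

variable {K₀ : Cpx k} {i : Hom K₀ K} (φ)

/-- If `φ ∘ i = 0`, the canonical map `K₀ → Fib φ`, `a ↦ (i a, 0)`. -/
def ofKer (i : Hom K₀ K) (h : ∀ n x, φ.f n (i.f n x) = 0) : Hom K₀ (Fib φ) where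
  f := fun n => (i.f n).prod 0
  comm := by
    intro n a
    show (i.f (n + 1) (K₀.d n a), (0 : (sh L).X (n + 1))) = (Fib φ).d n (i.f n a, 0)
    rw [d_apply, h, map_zero, add_zero, i.comm]

lemma π_ofKer (h : ∀ n x, φ.f n (i.f n x) = 0) (n : ℕ) (x : K₀.H n) :
    π φ n ((ofKer φ i h).mapH n x) = i.mapH n x := by
  obtain ⟨y, hy, rfl⟩ := K₀.exists_rep x
  rfl

/-- For a short exact sequence `0 → K₀ → K → L → 0`, the map `K₀ → Fib φ` is a quasi-isomorphism. -/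
theorem ofKer_bijective (S : IsSES i φ) (n : ℕ) :
    Function.Bijective ((ofKer φ i S.comp_zero).mapH n) := by
  constructor
  · rw [← LinearMap.ker_eq_bot, LinearMap.ker_eq_bot']
    intro x hx
    obtain ⟨a, ha, rfl⟩ := K₀.exists_rep x
    rw [Hom.mapH_cl, cl_eq_zero_iff] at hx
    rw [cl_eq_zero_iff]
    cases n with
    | zero =>
      rw [mem_B_zero] at hx ⊢
      have : i.f 0 a = 0 := congrArg Prod.fst hx
      exact S.inj 0 (by rw [this, map_zero])
    | succ n =>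
      obtain ⟨⟨a', b'⟩, hab⟩ := ((Fib φ).mem_B_succ).1 hx
      rw [d_apply] at hab
      have h1 : K.d n a' = i.f (n + 1) a := congrArg Prod.fst hab
      have h2 : (φ.f n a' : L.X n) + (sh L).d n b' = 0 := congrArg Prod.snd hab
      rw [mem_B_succ]
      cases n with
      | zero =>
        rw [sh_d_zero, add_zero] at h2
        obtain ⟨a₀, ha₀⟩ := (S.exact 0 a').1 h2
        refine ⟨a₀, S.inj 1 ?_⟩
        rw [i.comm, ha₀, h1]
      | succ n =>
        obtain ⟨a'', ha''⟩ := S.surj n (b' : L.X n)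
        have h3 : φ.f (n + 1) (a' - K.d n a'') = 0 := by
          rw [map_sub, φ.comm, ha'']
          have : (φ.f (n + 1) a' : L.X (n + 1)) + -(L.d n b') = 0 := h2
          rw [sub_eq_add_neg]; exact this
        obtain ⟨a₀, ha₀⟩ := (S.exact (n + 1) _).1 h3
        refine ⟨a₀, S.inj (n + 2) ?_⟩
        rw [i.comm, ha₀, map_sub, K.d_d, sub_zero, h1]
  · intro x
    obtain ⟨⟨a, b⟩, hab, rfl⟩ := (Fib φ).exists_rep x
    rw [d_apply] at hab
    have h1 : K.d n a = 0 := congrArg Prod.fst hab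
    have h2 : (φ.f n a : L.X n) + (sh L).d n b = 0 := congrArg Prod.snd hab
    cases n with
    | zero =>
      rw [sh_d_zero, add_zero] at h2
      obtain ⟨a₀, ha₀⟩ := (S.exact 0 a).1 h2
      have hd : K₀.d 0 a₀ = 0 := S.inj 1 (by rw [i.comm, ha₀, h1, map_zero])
      refine ⟨K₀.cl a₀ hd, ?_⟩
      rw [Hom.mapH_cl]
      refine cl_congr _ ?_ _
      exact Prod.ext ha₀ (Subsingleton.elim _ _)
    | succ n =>
      obtain ⟨a'', ha''⟩ := S.surj n (b : L.X n)
      have h3 : φ.f (n + 1) (a - K.d n a'') = 0 := by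
        rw [map_sub, φ.comm, ha'']
        have : (φ.f (n + 1) a : L.X (n + 1)) + -(L.d n b) = 0 := h2
        rw [sub_eq_add_neg]; exact this
      obtain ⟨a₀, ha₀⟩ := (S.exact (n + 1) _).1 h3
      have hd : K₀.d (n + 1) a₀ = 0 :=
        S.inj (n + 2) (by rw [i.comm, ha₀, map_sub, K.d_d, h1, sub_zero, map_zero])
      refine ⟨K₀.cl a₀ hd, ?_⟩
      rw [Hom.mapH_cl, cl_eq_cl_iff, mem_B_succ]
      refine ⟨(-a'', 0), ?_⟩
      rw [d_apply, map_zero, add_zero, map_neg, map_neg]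
      refine Prod.ext ?_ ?_
      · show -(K.d n a'') = i.f (n + 1) a₀ - a
        rw [ha₀]; abel
      · show -(φ.f n a'' : L.X n) = (0 : L.X n) - b
        rw [ha'', zero_sub]

/-! ### Explicit classes in the fibre -/

lemma d_succ_eq_zero_iff (n : ℕ) (a : K.X (n + 1)) (b : L.X n) :
    (Fib φ).d (n + 1) ((a, b) : K.X (n + 1) × L.X n) = 0 ↔
      K.d (n + 1) a = 0 ∧ φ.f (n + 1) a = L.d n b := by
  rw [d_succ]
  constructor
  · intro h
    have h1 : K.d (n + 1) a = 0 := congrArg Prod.fst h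
    have h2 : φ.f (n + 1) a - L.d n b = 0 := congrArg Prod.snd h
    exact ⟨h1, sub_eq_zero.1 h2⟩
  · rintro ⟨h1, h2⟩
    rw [h1, h2, sub_self]
    rfl

lemma d_zero_eq_zero_iff (a : K.X 0) (b : (sh L).X 0) :
    (Fib φ).d 0 (a, b) = 0 ↔ K.d 0 a = 0 ∧ φ.f 0 a = 0 := by
  rw [d_zero]
  constructor
  · intro h
    exact ⟨congrArg Prod.fst h, congrArg Prod.snd h⟩
  · rintro ⟨h1, h2⟩
    rw [h1, h2]
    rfl

/-- The class of `(a, b)`, `d a = 0`, `φ a = d b`, in `Hⁿ⁺¹(Fib φ)`. -/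
def clS {n : ℕ} (a : K.X (n + 1)) (b : L.X n) (ha : K.d (n + 1) a = 0)
    (hab : φ.f (n + 1) a = L.d n b) : (Fib φ).H (n + 1) :=
  (Fib φ).cl (n := n + 1) ((a, b) : K.X (n + 1) × L.X n)
    ((d_succ_eq_zero_iff φ n a b).2 ⟨ha, hab⟩)

/-- The class of `a`, `d a = 0`, `φ a = 0`, in `H⁰(Fib φ)`. -/
def clO (a : K.X 0) (ha : K.d 0 a = 0) (h : φ.f 0 a = 0) : (Fib φ).H 0 :=
  (Fib φ).cl (n := 0) ((a, PUnit.unit) : K.X 0 × (sh L).X 0)
    ((d_zero_eq_zero_iff φ a _).2 ⟨ha, h⟩)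

lemma exists_rep_succ {n : ℕ} (h : (Fib φ).H (n + 1)) :
    ∃ (a : K.X (n + 1)) (b : L.X n) (ha : K.d (n + 1) a = 0) (hab : φ.f (n + 1) a = L.d n b),
      clS φ a b ha hab = h := by
  obtain ⟨⟨a, b⟩, hab, rfl⟩ := (Fib φ).exists_rep h
  have := (d_succ_eq_zero_iff φ n a b).1 hab
  exact ⟨a, b, this.1, this.2, rfl⟩

lemma exists_rep_zero (h : (Fib φ).H 0) :
    ∃ (a : K.X 0) (ha : K.d 0 a = 0) (h0 : φ.f 0 a = 0), clO φ a ha h0 = h := by
  obtain ⟨⟨a, b⟩, hab, rfl⟩ := (Fib φ).exists_rep h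
  have := (d_zero_eq_zero_iff φ a b).1 hab
  exact ⟨a, this.1, this.2, rfl⟩

lemma π_clS {n : ℕ} (a : K.X (n + 1)) (b : L.X n) (ha : K.d (n + 1) a = 0)
    (hab : φ.f (n + 1) a = L.d n b) : π φ (n + 1) (clS φ a b ha hab) = K.cl a ha := rfl

lemma π_clO (a : K.X 0) (ha : K.d 0 a = 0) (h : φ.f 0 a = 0) :
    π φ 0 (clO φ a ha h) = K.cl a ha := rfl

lemma ι_cl' {n : ℕ} (b : L.X n) (hb : L.d n b = 0) :
    ι φ n (L.cl b hb) = clS φ 0 b (map_zero _) (by rw [map_zero, hb]) := rfl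

/-- vanishing of a class in `H¹(Fib φ)` -/
lemma clS_zero_eq_zero_iff (a : K.X 1) (b : L.X 0) (ha : K.d 1 a = 0)
    (hab : φ.f 1 a = L.d 0 b) :
    clS φ a b ha hab = 0 ↔ ∃ a' : K.X 0, K.d 0 a' = a ∧ φ.f 0 a' = b := by
  unfold clS
  rw [cl_succ_eq_zero_iff]
  constructor
  · rintro ⟨⟨a', b'⟩, h⟩
    rw [d_zero] at h
    exact ⟨a', congrArg Prod.fst h, congrArg Prod.snd h⟩
  · rintro ⟨a', h1, h2⟩
    refine ⟨(a', PUnit.unit), ?_⟩
    rw [d_zero, h1, h2]

/-- vanishing of a class in `Hⁿ⁺²(Fib φ)` -/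
lemma clS_succ_eq_zero_iff {n : ℕ} (a : K.X (n + 2)) (b : L.X (n + 1)) (ha : K.d (n + 2) a = 0)
    (hab : φ.f (n + 2) a = L.d (n + 1) b) :
    clS φ a b ha hab = 0 ↔
      ∃ (a' : K.X (n + 1)) (b' : L.X n), K.d (n + 1) a' = a ∧ φ.f (n + 1) a' - L.d n b' = b := by
  unfold clS
  rw [cl_succ_eq_zero_iff]
  constructor
  · rintro ⟨⟨a', b'⟩, h⟩
    have h' := (d_succ φ n a' b').symm.trans h
    exact ⟨a', b', congrArg Prod.fst h', congrArg Prod.snd h'⟩
  · rintro ⟨a', b', h1, h2⟩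
    refine ⟨((a', b') : K.X (n + 1) × L.X n), ?_⟩
    rw [d_succ, h1, h2]

lemma clS_add {n : ℕ} (a a' : K.X (n + 1)) (b b' : L.X n) (ha : K.d (n + 1) a = 0)
    (hab : φ.f (n + 1) a = L.d n b) (ha' : K.d (n + 1) a' = 0)
    (hab' : φ.f (n + 1) a' = L.d n b') :
    clS φ a b ha hab + clS φ a' b' ha' hab' =
      clS φ (a + a') (b + b') (by rw [map_add, ha, ha', add_zero])
        (by rw [map_add, map_add, hab, hab']) := rfl

lemma clS_smul {n : ℕ} (c : k) (a : K.X (n + 1)) (b : L.X n) (ha : K.d (n + 1) a = 0)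
    (hab : φ.f (n + 1) a = L.d n b) :
    c • clS φ a b ha hab =
      clS φ (c • a) (c • b) (by rw [map_smul, ha, smul_zero])
        (by rw [map_smul, map_smul, hab]) := rfl

lemma clS_congr {n : ℕ} {a a' : K.X (n + 1)} {b b' : L.X n} (h1 : a = a') (h2 : b = b')
    (ha : K.d (n + 1) a = 0) (hab : φ.f (n + 1) a = L.d n b) :
    clS φ a b ha hab = clS φ a' b' (h1 ▸ ha) (h1 ▸ h2 ▸ hab) := by
  subst h1; subst h2; rfl

variable {φ} in
lemma map_clS {K' L' : Cpx k} {φ' : Hom K' L'} (α : Hom K K') (β : Hom L L')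
    (h : ∀ n x, φ'.f n (α.f n x) = β.f n (φ.f n x)) {n : ℕ} (a : K.X (n + 1)) (b : L.X n)
    (ha : K.d (n + 1) a = 0) (hab : φ.f (n + 1) a = L.d n b) :
    (map α β h).mapH (n + 1) (clS φ a b ha hab) =
      clS φ' (α.f (n + 1) a) (β.f n b) (α.map_Z _ ha) (by rw [h, hab, β.comm]) := rfl

/-! ### Four-lemma statements for maps of fibres -/

section four

variable {K' L' : Cpx k} {φ} {φ' : Hom K' L'} (α : Hom K K') (β : Hom L L')
  (h : ∀ n x, φ'.f n (α.f n x) = β.f n (φ.f n x))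

include h in
lemma mapH_square (n : ℕ) (w : K.H n) :
    φ'.mapH n (α.mapH n w) = β.mapH n (φ.mapH n w) := by
  obtain ⟨x, hx, rfl⟩ := K.exists_rep w
  rw [Hom.mapH_cl, Hom.mapH_cl, Hom.mapH_cl, Hom.mapH_cl]
  exact cl_congr _ (h n x) _

/-- `H⁰(Fib φ) → H⁰(Fib φ')` is injective if `H⁰(K) → H⁰(K')` is. -/
theorem map_mapH_injective_zero (hα : Function.Injective (α.mapH 0)) :
    Function.Injective ((map α β h).mapH 0) := by
  intro x y hxy
  apply π_zero_injective φ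
  apply hα
  rw [← π_map α β h, ← π_map α β h, hxy]

/-- Four lemma: `Hⁿ⁺¹(Fib φ) → Hⁿ⁺¹(Fib φ')` is injective if `Hⁿ(K) → Hⁿ(K')` is surjective and
`Hⁿ(L) → Hⁿ(L')`, `Hⁿ⁺¹(K) → Hⁿ⁺¹(K')` are injective. -/
theorem map_mapH_injective_succ (n : ℕ) (hα₁ : Function.Surjective (α.mapH n))
    (hβ : Function.Injective (β.mapH n)) (hα₂ : Function.Injective (α.mapH (n + 1))) :
    Function.Injective ((map α β h).mapH (n + 1)) := by
  rw [← LinearMap.ker_eq_bot, LinearMap.ker_eq_bot']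
  intro x hx
  have h1 : π φ (n + 1) x = 0 := by
    apply hα₂
    rw [← π_map α β h, hx, map_zero, map_zero]
  obtain ⟨y, rfl⟩ := (exact_π φ n x).1 h1
  rw [ι_map α β h] at hx
  obtain ⟨w', hw'⟩ := (exact_ι φ' n _).1 hx
  obtain ⟨w, rfl⟩ := hα₁ w'
  rw [mapH_square α β h] at hw'
  have : φ.mapH n w = y := hβ hw'
  exact (exact_ι φ n y).2 ⟨w, this⟩

/-- Four lemma: `Hⁿ⁺¹(Fib φ) → Hⁿ⁺¹(Fib φ')` is surjective if `Hⁿ(L) → Hⁿ(L')` and
`Hⁿ⁺¹(K) → Hⁿ⁺¹(K')` are surjective and `Hⁿ⁺¹(L) → Hⁿ⁺¹(L')` is injective. -/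
theorem map_mapH_surjective_succ (n : ℕ) (hβ₁ : Function.Surjective (β.mapH n))
    (hα : Function.Surjective (α.mapH (n + 1))) (hβ₂ : Function.Injective (β.mapH (n + 1))) :
    Function.Surjective ((map α β h).mapH (n + 1)) := by
  intro x'
  obtain ⟨w, hw⟩ := hα (π φ' (n + 1) x')
  have h1 : φ.mapH (n + 1) w = 0 := by
    apply hβ₂
    rw [← mapH_square α β h, hw, map_zero]
    exact (exact_φ φ' (n + 1) _).2 ⟨x', rfl⟩
  obtain ⟨x₀, hx₀⟩ := (exact_φ φ (n + 1) w).1 h1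
  have h2 : π φ' (n + 1) (x' - (map α β h).mapH (n + 1) x₀) = 0 := by
    rw [map_sub, π_map α β h, hx₀, hw, sub_self]
  obtain ⟨y', hy'⟩ := (exact_π φ' n _).1 h2
  obtain ⟨y, rfl⟩ := hβ₁ y'
  refine ⟨x₀ + ι φ n y, ?_⟩
  rw [map_add, ι_map α β h, hy']
  abel

end four

/-! ### The cokernel of a degreewise injection -/

section coker

variable {M : Cpx k} (q : Hom L M)

/-- If `q ∘ φ = 0`, the canonical map `Fib φ → M[-1]`, `(a, b) ↦ q b`. -/
def toCoker (hq : ∀ n x, q.f n (φ.f n x) = 0) : Hom (Fib φ) (sh M) where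
  f := fun n => ((shMap q).f n).comp (LinearMap.snd k (K.X n) ((sh L).X n))
  comm := by
    rintro n ⟨a, b⟩
    show (shMap q).f (n + 1) ((φ.f n a : L.X n) + (sh L).d n b) = (sh M).d n ((shMap q).f n b)
    rw [map_add, (shMap q).comm, shMap_succ, hq, zero_add]

/-- `Hⁿ⁺¹(Fib φ) → Hⁿ(M)`, `[(a, b)] ↦ [q b]`. -/
def toCokerH (hq : ∀ n x, q.f n (φ.f n x) = 0) (n : ℕ) : (Fib φ).H (n + 1) →ₗ[k] M.H n :=
  (shHEquiv M n).symm.toLinearMap.comp ((toCoker φ q hq).mapH (n + 1))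

lemma toCokerH_clS (hq : ∀ n x, q.f n (φ.f n x) = 0) {n : ℕ} (a : K.X (n + 1)) (b : L.X n)
    (ha : K.d (n + 1) a = 0) (hab : φ.f (n + 1) a = L.d n b) :
    toCokerH φ q hq n (clS φ a b ha hab) =
      M.cl (q.f n b) (by rw [← q.comm, ← hab, hq]) := by
  unfold toCokerH
  rw [LinearMap.comp_apply, LinearEquiv.coe_coe, LinearEquiv.symm_apply_eq]
  rfl

/-- For a short exact sequence `0 → K → L → M → 0`, `Hⁿ⁺¹(Fib φ) ≅ Hⁿ(M)`. -/
theorem toCokerH_bijective (S : IsSES φ q) (n : ℕ) :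
    Function.Bijective (toCokerH φ q S.comp_zero n) := by
  constructor
  · rw [← LinearMap.ker_eq_bot, LinearMap.ker_eq_bot']
    intro x hx
    obtain ⟨a, b, ha, hab, rfl⟩ := exists_rep_succ φ x
    rw [toCokerH_clS, cl_eq_zero_iff] at hx
    cases n with
    | zero =>
      rw [mem_B_zero] at hx
      obtain ⟨a', ha'⟩ := (S.exact 0 b).1 hx
      rw [clS_zero_eq_zero_iff]
      refine ⟨a', S.inj 1 ?_, ha'⟩
      rw [φ.comm, ha', hab]
    | succ n =>
      obtain ⟨m', hm'⟩ := (M.mem_B_succ).1 hx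
      obtain ⟨b', rfl⟩ := S.surj n m'
      have h0 : q.f (n + 1) (b - L.d n b') = 0 := by rw [map_sub, q.comm, hm', sub_self]
      obtain ⟨a', ha'⟩ := (S.exact (n + 1) _).1 h0
      rw [clS_succ_eq_zero_iff]
      refine ⟨a', -b', S.inj (n + 2) ?_, ?_⟩
      · rw [φ.comm, ha', map_sub, L.d_d, sub_zero, hab]
      · rw [ha', map_neg]; abel
  · intro x
    obtain ⟨m, hm, rfl⟩ := M.exists_rep x
    obtain ⟨b, rfl⟩ := S.surj n m
    have h0 : q.f (n + 1) (L.d n b) = 0 := by rw [q.comm, hm]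
    obtain ⟨a, ha⟩ := (S.exact (n + 1) _).1 h0
    have hda : K.d (n + 1) a = 0 := S.inj (n + 2) (by rw [φ.comm, ha, L.d_d, map_zero])
    exact ⟨clS φ a b hda ha, toCokerH_clS φ q S.comp_zero a b hda ha⟩

end coker

end Fib

end Cpx

end Fermat.Agent.S55lib
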