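/-
S55lib / Cpx / Smooth  (helper7) — shared hub of the Poitou–Tate sprint.

Smooth ("level-constant") inhomogeneous cochains of a group `G` equipped with a basis `𝒰` of open
normal subgroups of finite index, as a subcomplex `Csm 𝒰 A` of Mathlib's `inhomogeneousCochains A`:
a cochain `f : Gⁿ → A` is smooth if for some `U ∈ 𝒰` it is right-`U`-invariant in every argument and
all its values are fixed by `U`.  (For a smooth module `A` the second condition is automatic, see
`isSmCochain_of_isInvR`.)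

* `Csm 𝒰 A : Cpx k`, functorial in `A` (`Csm.map`) and in `(G, 𝒰)` (`Csm.mapG`);
* `Csm.map_isSES`: a short exact sequence `0 → A → B → C → 0` with `B` smooth induces a degreewise
  short exact sequence of smooth cochain complexes, hence a long exact sequence (`Cpx.IsSES.δ`).
-/
import Fermat.Agent.S55lib.Cpx.Fib

set_option autoImplicit false

noncomputable section

namespace Fermat.Agent.S55lib

universe u

open groupCohomology

/-- A basis of open normal subgroups of finite index of `G`. -/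
structure OpenBasis (G : Type u) [Group G] where
  /-- the basic open subgroups -/
  sets : Set (Subgroup G)
  nonempty : sets.Nonempty
  directed : ∀ U ∈ sets, ∀ V ∈ sets, ∃ W ∈ sets, W ≤ U ⊓ V
  normal : ∀ U ∈ sets, U.Normal
  finiteIndex : ∀ U ∈ sets, U.FiniteIndex

namespace OpenBasis

variable {G : Type u} [Group G] (𝒰 : OpenBasis G)

/-- open subgroups: those containing a basic one -/
def IsOpen (H : Subgroup G) : Prop := ∃ U ∈ 𝒰.sets, U ≤ H

lemma exists_le_of_finite {ι : Type*} {T : Set ι} (hT : T.Finite) (V : ι → Subgroup G)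
    (hV : ∀ i ∈ T, 𝒰.IsOpen (V i)) : ∃ W ∈ 𝒰.sets, ∀ i ∈ T, W ≤ V i := by
  induction T, hT using Set.Finite.induction_on with
  | empty =>
    obtain ⟨W, hW⟩ := 𝒰.nonempty
    exact ⟨W, hW, fun i hi => absurd hi (Set.notMem_empty i)⟩
  | @insert a T _ _ ih =>
    obtain ⟨W, hW, hWT⟩ := ih fun i hi => hV i (Set.mem_insert_of_mem a hi)
    obtain ⟨U, hU, hUa⟩ := hV a (Set.mem_insert a T)
    obtain ⟨W', hW', hle⟩ := 𝒰.directed W hW U hU
    refine ⟨W', hW', fun i hi => ?_⟩
    rcases Set.mem_insert_iff.1 hi with rfl | hi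
    · exact (hle.trans inf_le_right).trans hUa
    · exact (hle.trans inf_le_left).trans (hWT i hi)

/-- A group homomorphism is continuous for the given bases. -/
def IsCont {G' : Type u} [Group G'] (𝒰' : OpenBasis G') (f : G' →* G) : Prop :=
  ∀ U ∈ 𝒰.sets, ∃ V ∈ 𝒰'.sets, V ≤ U.comap f

lemma isCont_id : 𝒰.IsCont 𝒰 (MonoidHom.id G) := fun U hU => ⟨U, hU, le_rfl⟩

end OpenBasis

/-! ### Invariant cochains -/

section inv

variable {G : Type u} [Group G]

/-- `f : Gⁿ → X` is right-invariant under `U` in every argument. -/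
def IsInvR (U : Subgroup G) {n : ℕ} {X : Type*} (f : (Fin n → G) → X) : Prop :=
  ∀ g s : Fin n → G, (∀ i, s i ∈ U) → f (g * s) = f g

lemma IsInvR.mono {U V : Subgroup G} (h : V ≤ U) {n : ℕ} {X : Type*} {f : (Fin n → G) → X}
    (hf : IsInvR U f) : IsInvR V f := fun g s hs => hf g s fun i => h (hs i)

lemma isInvR_iff {U : Subgroup G} {n : ℕ} {X : Type*} {f : (Fin n → G) → X} :
    IsInvR U f ↔ ∀ g g' : Fin n → G, (∀ i, (g i)⁻¹ * g' i ∈ U) → f g = f g' := by
  constructor
  · intro hf g g' h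
    have : g' = g * fun i => (g i)⁻¹ * g' i := by
      funext i; simp
    rw [this, hf g _ h]
  · intro hf g s hs
    refine (hf g (g * s) fun i => ?_).symm
    simpa using hs i

lemma IsInvR.comp {U : Subgroup G} {n : ℕ} {X Y : Type*} {f : (Fin n → G) → X}
    (hf : IsInvR U f) (φ : X → Y) : IsInvR U (φ ∘ f) := fun g s hs => by
  simp only [Function.comp_apply, hf g s hs]

lemma IsInvR.finite_range {U : Subgroup G} (hU : U.FiniteIndex) {n : ℕ} {X : Type*}
    {f : (Fin n → G) → X} (hf : IsInvR U f) : (Set.range f).Finite := by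
  have : Finite (G ⧸ U) := Subgroup.finite_quotient_of_finiteIndex
  let F : (Fin n → G ⧸ U) → X := fun c => f fun i => (c i).out
  refine (Set.finite_range F).subset ?_
  rintro x ⟨g, rfl⟩
  refine ⟨fun i => (g i : G ⧸ U), ?_⟩
  refine (isInvR_iff.1 hf _ _ fun i => ?_).symm
  have := QuotientGroup.mk_out_eq_mul U (g i)
  obtain ⟨h, hh⟩ := this
  show (g i)⁻¹ * ((g i : G ⧸ U)).out ∈ U
  rw [hh]
  simp

lemma contractNth_congr {U : Subgroup G} (hU : U.Normal) {n : ℕ} (g g' : Fin (n + 1) → G)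
    (h : ∀ i, (g i)⁻¹ * g' i ∈ U) (j : Fin (n + 1)) (i : Fin n) :
    (Fin.contractNth j (· * ·) g i)⁻¹ * Fin.contractNth j (· * ·) g' i ∈ U := by
  rcases lt_trichotomy (i : ℕ) j with hij | hij | hij
  · rw [Fin.contractNth_apply_of_lt _ _ _ _ hij, Fin.contractNth_apply_of_lt _ _ _ _ hij]
    exact h _
  · rw [Fin.contractNth_apply_of_eq _ _ _ _ hij, Fin.contractNth_apply_of_eq _ _ _ _ hij]
    have e : (g i.castSucc * g i.succ)⁻¹ * (g' i.castSucc * g' i.succ) =
        ((g i.succ)⁻¹ * ((g i.castSucc)⁻¹ * g' i.castSucc) * (g i.succ)⁻¹⁻¹) *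
          ((g i.succ)⁻¹ * g' i.succ) := by group
    rw [e]
    exact U.mul_mem (hU.conj_mem _ (h _) _) (h _)
  · rw [Fin.contractNth_apply_of_gt _ _ _ _ hij, Fin.contractNth_apply_of_gt _ _ _ _ hij]
    exact h _

end inv

/-! ### Smooth cochains -/

section smooth

variable {k G : Type u} [CommRing k] [Group G] (𝒰 : OpenBasis G)

/-- `A` is a smooth (discrete) `G`-module: every element is fixed by some open subgroup. -/
def IsSm (A : Rep.{u} k G) : Prop := ∀ a : A, ∃ U ∈ 𝒰.sets, ∀ s ∈ U, A.ρ s a = a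

/-- Smooth cochains: right-invariant under some `U ∈ 𝒰` with values fixed by `U`. -/
def IsSmCochain (A : Rep.{u} k G) {n : ℕ} (f : (Fin n → G) → A) : Prop :=
  ∃ U ∈ 𝒰.sets, IsInvR U f ∧ ∀ g, ∀ s ∈ U, A.ρ s (f g) = f g

variable {𝒰}

lemma IsSmCochain.shrink {A : Rep.{u} k G} {n : ℕ} {f : (Fin n → G) → A} {U V : Subgroup G}
    (hVU : V ≤ U) (h1 : IsInvR U f) (h2 : ∀ g, ∀ s ∈ U, A.ρ s (f g) = f g) :
    IsInvR V f ∧ ∀ g, ∀ s ∈ V, A.ρ s (f g) = f g :=
  ⟨h1.mono hVU, fun g s hs => h2 g s (hVU hs)⟩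

/-- For a smooth module, every right-invariant cochain is smooth. -/
lemma isSmCochain_of_isInvR {A : Rep.{u} k G} (hA : IsSm 𝒰 A) {n : ℕ} {f : (Fin n → G) → A}
    {U : Subgroup G} (hU : U ∈ 𝒰.sets) (hf : IsInvR U f) : IsSmCochain 𝒰 A f := by
  have hfin := hf.finite_range (𝒰.finiteIndex U hU)
  choose V hV hVfix using hA
  obtain ⟨W₀, hW₀, hW₀le⟩ := 𝒰.exists_le_of_finite hfin V (fun a _ => ⟨V a, hV a, le_rfl⟩)
  obtain ⟨W, hW, hle⟩ := 𝒰.directed W₀ hW₀ U hU
  exact ⟨W, hW, hf.mono (hle.trans inf_le_right), fun g s hs =>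
    hVfix (f g) s (hW₀le (f g) ⟨g, rfl⟩ ((hle.trans inf_le_left) hs))⟩

variable (𝒰)

/-- The submodule of smooth `n`-cochains. -/
def smC (A : Rep.{u} k G) (n : ℕ) : Submodule k ((Fin n → G) → A) where
  carrier := {f | IsSmCochain 𝒰 A f}
  add_mem' := by
    rintro f f' ⟨U, hU, h1, h2⟩ ⟨U', hU', h1', h2'⟩
    obtain ⟨W, hW, hle⟩ := 𝒰.directed U hU U' hU'
    refine ⟨W, hW, fun g s hs => ?_, fun g s hs => ?_⟩
    · simp only [Pi.add_apply]
      rw [h1 g s fun i => (hle.trans inf_le_left) (hs i),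
        h1' g s fun i => (hle.trans inf_le_right) (hs i)]
    · simp only [Pi.add_apply, map_add]
      rw [h2 g s ((hle.trans inf_le_left) hs), h2' g s ((hle.trans inf_le_right) hs)]
  zero_mem' := by
    obtain ⟨U, hU⟩ := 𝒰.nonempty
    exact ⟨U, hU, fun _ _ _ => rfl, fun _ _ _ => by simp⟩
  smul_mem' := by
    rintro c f ⟨U, hU, h1, h2⟩
    refine ⟨U, hU, fun g s hs => ?_, fun g s hs => ?_⟩
    · simp only [Pi.smul_apply]; rw [h1 g s hs]
    · simp only [Pi.smul_apply, map_smul]; rw [h2 g s hs]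

lemma mem_smC {A : Rep.{u} k G} {n : ℕ} {f : (Fin n → G) → A} :
    f ∈ smC 𝒰 A n ↔ IsSmCochain 𝒰 A f := Iff.rfl

/-- The differential of Mathlib's inhomogeneous cochains, as a linear map. -/
abbrev dLin (A : Rep.{u} k G) (n : ℕ) : ((Fin n → G) → A) →ₗ[k] ((Fin (n + 1) → G) → A) :=
  (inhomogeneousCochains.d A n).hom

lemma dLin_apply (A : Rep.{u} k G) (n : ℕ) (f : (Fin n → G) → A) (g : Fin (n + 1) → G) :
    dLin A n f g = A.ρ (g 0) (f fun i => g i.succ) +
      Finset.univ.sum fun j : Fin (n + 1) =>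
        (-1 : k) ^ ((j : ℕ) + 1) • f (Fin.contractNth j (· * ·) g) :=
  inhomogeneousCochains.d_hom_apply A n f g

lemma dLin_dLin (A : Rep.{u} k G) (n : ℕ) (f : (Fin n → G) → A) : dLin A (n + 1) (dLin A n f) = 0 := by
  have := groupCohomology.inhomogeneousCochains.d_comp_d n A
  have h := congrArg (fun φ => φ.hom f) this
  simpa using h

variable {𝒰}

/-- The differential preserves smooth cochains (same level). -/
lemma dLin_mem_smC {A : Rep.{u} k G} {n : ℕ} {f : (Fin n → G) → A} (hf : f ∈ smC 𝒰 A n) :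
    dLin A n f ∈ smC 𝒰 A (n + 1) := by
  obtain ⟨U, hU, h1, h2⟩ := hf
  have hN := 𝒰.normal U hU
  refine ⟨U, hU, ?_, ?_⟩
  · rw [isInvR_iff]
    intro g g' h
    rw [dLin_apply, dLin_apply]
    congr 1
    · have e : g' 0 = g 0 * ((g 0)⁻¹ * g' 0) := by group
      rw [e, map_mul, Module.End.mul_apply]
      congr 1
      rw [← isInvR_iff.1 h1 (fun i => g i.succ) (fun i => g' i.succ) fun i => h i.succ]
      exact (h2 _ _ (h 0)).symm
    · refine Finset.sum_congr rfl fun j _ => ?_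
      rw [isInvR_iff.1 h1 _ _ (contractNth_congr hN g g' h j)]
  · intro g s hs
    rw [dLin_apply, map_add, map_sum]
    congr 1
    · rw [← Module.End.mul_apply, ← map_mul]
      have e : s * g 0 = g 0 * ((g 0)⁻¹ * s * (g 0)⁻¹⁻¹) := by group
      rw [e, map_mul, Module.End.mul_apply, h2 _ _ (hN.conj_mem _ hs _)]
    · refine Finset.sum_congr rfl fun j _ => ?_
      rw [map_smul, h2 _ _ hs]

variable (𝒰)

/-- The complex of smooth cochains of `A`. -/
def Csm (A : Rep.{u} k G) : Cpx k where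
  X := fun n => smC 𝒰 A n
  d := fun n => (dLin A n).restrict fun _ hf => dLin_mem_smC hf
  d_d := by
    intro n x
    apply Subtype.ext
    exact dLin_dLin A n x.1

namespace Csm

variable {𝒰}

/-- the underlying function of a smooth cochain -/
lemma d_val (A : Rep.{u} k G) (n : ℕ) (x : (Csm 𝒰 A).X n) :
    ((Csm 𝒰 A).d n x).1 = dLin A n x.1 := rfl

/-- constructor for smooth cochains -/
def mkX {A : Rep.{u} k G} {n : ℕ} (f : (Fin n → G) → A) (hf : IsSmCochain 𝒰 A f) : (Csm 𝒰 A).X n :=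
  ⟨f, hf⟩

variable (𝒰) in
/-- Functoriality in the coefficients. -/
def map {A B : Rep.{u} k G} (φ : A ⟶ B) : Cpx.Hom (Csm 𝒰 A) (Csm 𝒰 B) where
  f := fun n => (φ.hom.toLinearMap.compLeft (Fin n → G)).restrict (p := smC 𝒰 A n)
    (q := smC 𝒰 B n) (by
      rintro f ⟨U, hU, h1, h2⟩
      refine ⟨U, hU, h1.comp _, fun g s hs => ?_⟩
      show B.ρ s (φ.hom (f g)) = φ.hom (f g)
      rw [← Rep.hom_comm_apply, h2 g s hs])
  comm := by
    intro n x
    apply Subtype.ext
    have := (cochainsMap (MonoidHom.id G) φ).comm n (n + 1)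
    simp only [CochainComplex.of_d] at this
    have h := congrArg (fun ψ => ψ.hom x.1) this
    exact h.symm

lemma map_val {A B : Rep.{u} k G} (φ : A ⟶ B) (n : ℕ) (x : (Csm 𝒰 A).X n) (g : Fin n → G) :
    ((map 𝒰 φ).f n x).1 g = φ.hom (x.1 g) := rfl

/-- Functoriality in the group: `f : G' →* G` continuous, `φ : res f A ⟶ B`. -/
def mapG {G' : Type u} [Group G'] {𝒰' : OpenBasis G'} {f : G' →* G} (hf : 𝒰.IsCont 𝒰' f)
    {A : Rep.{u} k G} {B : Rep.{u} k G'} (φ : Rep.res f A ⟶ B) : Cpx.Hom (Csm 𝒰 A) (Csm 𝒰' B) where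
  f := fun n => (((cochainsMap f φ).f n).hom).restrict (p := smC 𝒰 A n) (q := smC 𝒰' B n) (by
      rintro x ⟨U, hU, h1, h2⟩
      obtain ⟨V, hV, hVU⟩ := hf U hU
      refine ⟨V, hV, fun g s hs => ?_, fun g s hs => ?_⟩
      · show φ.hom (x (f ∘ (g * s))) = φ.hom (x (f ∘ g))
        have : f ∘ (g * s) = (f ∘ g) * (f ∘ s) := by
          funext i; simp
        rw [this, h1 (f ∘ g) (f ∘ s) fun i => hVU (hs i)]
      · show B.ρ s (φ.hom (x (f ∘ g))) = φ.hom (x (f ∘ g))
        rw [← Rep.hom_comm_apply]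
        congr 1
        exact h2 _ _ (hVU hs))
  comm := by
    intro n x
    apply Subtype.ext
    have := (cochainsMap f φ).comm n (n + 1)
    simp only [CochainComplex.of_d] at this
    have h := congrArg (fun ψ => ψ.hom x.1) this
    exact h.symm

lemma mapG_val {G' : Type u} [Group G'] {𝒰' : OpenBasis G'} {f : G' →* G} (hf : 𝒰.IsCont 𝒰' f)
    {A : Rep.{u} k G} {B : Rep.{u} k G'} (φ : Rep.res f A ⟶ B) (n : ℕ) (x : (Csm 𝒰 A).X n)
    (g : Fin n → G') : ((mapG hf φ).f n x).1 g = φ.hom (x.1 (f ∘ g)) := rfl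

lemma map_id_f (A : Rep.{u} k G) (n : ℕ) (x : (Csm 𝒰 A).X n) :
    (map 𝒰 (CategoryTheory.CategoryStruct.id A)).f n x = x := rfl

lemma map_comp_f {A B C : Rep.{u} k G} (φ : A ⟶ B) (ψ : B ⟶ C) (n : ℕ) (x : (Csm 𝒰 A).X n) :
    (map 𝒰 (CategoryTheory.CategoryStruct.comp φ ψ)).f n x = (map 𝒰 ψ).f n ((map 𝒰 φ).f n x) := rfl

/-- A short exact sequence of coefficient modules with smooth middle term induces a degreewise short
exact sequence of smooth cochain complexes. -/
theorem map_isSES {A B C : Rep.{u} k G} (i : A ⟶ B) (p : B ⟶ C) (hB : IsSm 𝒰 B)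
    (hi : Function.Injective i.hom) (hp : Function.Surjective p.hom)
    (hex : ∀ b : B, p.hom b = 0 ↔ ∃ a, i.hom a = b) :
    Cpx.IsSES (map 𝒰 i) (map 𝒰 p) where
  inj := by
    intro n x y hxy
    apply Subtype.ext
    funext g
    apply hi
    exact congrFun (congrArg Subtype.val hxy) g
  surj := by
    intro n z
    obtain ⟨U, hU, h1, h2⟩ := z.2
    let σ : C → B := Function.surjInv hp
    have hσ : ∀ c, p.hom (σ c) = c := Function.surjInv_eq hp
    have hs : IsSmCochain 𝒰 B (σ ∘ z.1) := isSmCochain_of_isInvR hB hU (h1.comp σ)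
    refine ⟨⟨σ ∘ z.1, hs⟩, ?_⟩
    apply Subtype.ext
    funext g
    exact hσ _
  exact := by
    intro n y
    constructor
    · intro hy
      have hy' : ∀ g, p.hom (y.1 g) = 0 := fun g => congrFun (congrArg Subtype.val hy) g
      choose x hx using fun g => (hex (y.1 g)).1 (hy' g)
      obtain ⟨U, hU, h1, h2⟩ := y.2
      refine ⟨⟨x, U, hU, fun g s hs => ?_, fun g s hs => ?_⟩, ?_⟩
      · apply hi; rw [hx, hx, h1 g s hs]
      · apply hi; rw [Rep.hom_comm_apply, hx, h2 g s hs]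
      · apply Subtype.ext
        funext g
        exact hx g
    · rintro ⟨x, rfl⟩
      apply Subtype.ext
      funext g
      exact (hex _).2 ⟨x.1 g, rfl⟩

end Csm

/-- Smooth cohomology. -/
abbrev Hsm (A : Rep.{u} k G) (n : ℕ) : Type u := (Csm 𝒰 A).H n

end smooth

end Fermat.Agent.S55lib
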