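/-
S55lib / Cpx / LowDegree  (helper7) — shared hub of the Poitou–Tate sprint.

Explicit description of the smooth cochain complex `Csm 𝒰 A` in degrees `0, 1, 2, 3`:
`fn₀ x : A`, `fn₁ x : G → A`, `fn₂ x : G × G → A`, `fn₃ x : G × G × G → A` (Mathlib's
`cochainsIso₀..₃`), constructors `mk₀..mk₃` from explicit smooth functions, and the differentials in
these terms (`fn₁_d`, `fn₂_d`, `fn₃_d` = Mathlib's `d₀₁`, `d₁₂`, `d₂₃`).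
-/
import Fermat.Agent.S55lib.Cpx.Smooth

set_option autoImplicit false

noncomputable section

namespace Fermat.Agent.S55lib

universe u

open groupCohomology CategoryTheory

variable {k G : Type u} [CommRing k] [Group G] {𝒰 : OpenBasis G} {A : Rep.{u} k G}

namespace Csm

/-! ### Explicit smoothness predicates -/

/-- smooth functions of one variable -/
def IsSm₁ (𝒰 : OpenBasis G) (A : Rep.{u} k G) (c : G → A) : Prop :=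
  ∃ U ∈ 𝒰.sets, (∀ g, ∀ s ∈ U, c (g * s) = c g) ∧ ∀ g, ∀ s ∈ U, A.ρ s (c g) = c g

/-- smooth functions of two variables -/
def IsSm₂ (𝒰 : OpenBasis G) (A : Rep.{u} k G) (z : G × G → A) : Prop :=
  ∃ U ∈ 𝒰.sets, (∀ g h, ∀ s ∈ U, ∀ t ∈ U, z (g * s, h * t) = z (g, h)) ∧
    ∀ g h, ∀ s ∈ U, A.ρ s (z (g, h)) = z (g, h)

/-- smooth functions of three variables -/
def IsSm₃ (𝒰 : OpenBasis G) (A : Rep.{u} k G) (w : G × G × G → A) : Prop :=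
  ∃ U ∈ 𝒰.sets, (∀ g h j, ∀ s ∈ U, ∀ t ∈ U, ∀ r ∈ U, w (g * s, h * t, j * r) = w (g, h, j)) ∧
    ∀ g h j, ∀ s ∈ U, A.ρ s (w (g, h, j)) = w (g, h, j)

/-- smooth elements -/
def IsSm₀ (𝒰 : OpenBasis G) (A : Rep.{u} k G) (a : A) : Prop :=
  ∃ U ∈ 𝒰.sets, ∀ s ∈ U, A.ρ s a = a

/-! ### Degree 0 -/

/-- the element underlying a 0-cochain -/
def fn₀ (x : (Csm 𝒰 A).X 0) : A := x.1 default

lemma fn₀_eq (x : (Csm 𝒰 A).X 0) (g : Fin 0 → G) : x.1 g = fn₀ x := by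
  rw [Subsingleton.elim g default]; rfl

lemma isSm₀_fn₀ (x : (Csm 𝒰 A).X 0) : IsSm₀ 𝒰 A (fn₀ x) := by
  obtain ⟨U, hU, _, h2⟩ := x.2
  exact ⟨U, hU, fun s hs => h2 _ s hs⟩

/-- constructor of 0-cochains -/
def mk₀ (a : A) (ha : IsSm₀ 𝒰 A a) : (Csm 𝒰 A).X 0 :=
  ⟨fun _ => a, by
    obtain ⟨U, hU, h⟩ := ha
    exact ⟨U, hU, fun _ _ _ => rfl, fun _ s hs => h s hs⟩⟩

@[simp] lemma fn₀_mk₀ (a : A) (ha : IsSm₀ 𝒰 A a) : fn₀ (mk₀ a ha) = a := rfl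

lemma ext₀ {x y : (Csm 𝒰 A).X 0} (h : fn₀ x = fn₀ y) : x = y := by
  apply Subtype.ext
  funext g
  rw [fn₀_eq, fn₀_eq, h]

lemma fn₀_add (x y : (Csm 𝒰 A).X 0) : fn₀ (x + y) = fn₀ x + fn₀ y := rfl
lemma fn₀_smul (c : k) (x : (Csm 𝒰 A).X 0) : fn₀ (c • x) = c • fn₀ x := rfl
lemma fn₀_zero : fn₀ (0 : (Csm 𝒰 A).X 0) = 0 := rfl
lemma fn₀_neg (x : (Csm 𝒰 A).X 0) : fn₀ (-x) = -fn₀ x := rfl
lemma fn₀_sub (x y : (Csm 𝒰 A).X 0) : fn₀ (x - y) = fn₀ x - fn₀ y := rfl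

/-! ### Degree 1 -/

/-- the one-variable function underlying a 1-cochain -/
def fn₁ (x : (Csm 𝒰 A).X 1) : G → A := fun g => x.1 (fun _ => g)

lemma fn₁_eq (x : (Csm 𝒰 A).X 1) (g : Fin 1 → G) : x.1 g = fn₁ x (g 0) := by
  unfold fn₁
  exact congrArg x.1 (funext fun i => by rw [Subsingleton.elim i 0])

lemma fn₁_eq_iso (x : (Csm 𝒰 A).X 1) : fn₁ x = (cochainsIso₁ A).hom x.1 := rfl

lemma isSm₁_fn₁ (x : (Csm 𝒰 A).X 1) : IsSm₁ 𝒰 A (fn₁ x) := by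
  obtain ⟨U, hU, h1, h2⟩ := x.2
  refine ⟨U, hU, fun g s hs => ?_, fun g s hs => h2 _ s hs⟩
  exact h1 (fun _ => g) (fun _ => s) (fun _ => hs)

/-- constructor of 1-cochains -/
def mk₁ (c : G → A) (hc : IsSm₁ 𝒰 A c) : (Csm 𝒰 A).X 1 :=
  ⟨fun g => c (g 0), by
    obtain ⟨U, hU, h1, h2⟩ := hc
    exact ⟨U, hU, fun g s hs => h1 (g 0) (s 0) (hs 0), fun g s hs => h2 _ s hs⟩⟩

@[simp] lemma fn₁_mk₁ (c : G → A) (hc : IsSm₁ 𝒰 A c) : fn₁ (mk₁ c hc) = c := rfl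

lemma ext₁ {x y : (Csm 𝒰 A).X 1} (h : fn₁ x = fn₁ y) : x = y := by
  apply Subtype.ext
  funext g
  rw [fn₁_eq, fn₁_eq, h]

lemma mk₁_fn₁ (x : (Csm 𝒰 A).X 1) : mk₁ (fn₁ x) (isSm₁_fn₁ x) = x := ext₁ rfl

lemma fn₁_add (x y : (Csm 𝒰 A).X 1) : fn₁ (x + y) = fn₁ x + fn₁ y := rfl
lemma fn₁_smul (c : k) (x : (Csm 𝒰 A).X 1) : fn₁ (c • x) = c • fn₁ x := rfl
lemma fn₁_zero : fn₁ (0 : (Csm 𝒰 A).X 1) = 0 := rfl
lemma fn₁_neg (x : (Csm 𝒰 A).X 1) : fn₁ (-x) = -fn₁ x := rfl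
lemma fn₁_sub (x y : (Csm 𝒰 A).X 1) : fn₁ (x - y) = fn₁ x - fn₁ y := rfl

/-- the differential `d⁰` in explicit terms -/
lemma fn₁_d (x : (Csm 𝒰 A).X 0) (g : G) :
    fn₁ ((Csm 𝒰 A).d 0 x) g = A.ρ g (fn₀ x) - fn₀ x := by
  have h := congrArg (fun φ => φ.hom x.1 g) (comp_d₀₁_eq A)
  exact h.symm

/-! ### Degree 2 -/

/-- the two-variable function underlying a 2-cochain -/
def fn₂ (x : (Csm 𝒰 A).X 2) : G × G → A := (cochainsIso₂ A).hom x.1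

lemma fn₂_apply (x : (Csm 𝒰 A).X 2) (g h : G) : fn₂ x (g, h) = x.1 ![g, h] := by
  unfold fn₂
  show x.1 _ = x.1 _
  exact congrArg x.1 (funext fun i => by fin_cases i <;> rfl)

lemma fn₂_eq (x : (Csm 𝒰 A).X 2) (g : Fin 2 → G) : x.1 g = fn₂ x (g 0, g 1) := by
  rw [fn₂_apply]
  exact congrArg x.1 (funext fun i => by fin_cases i <;> rfl)

lemma isSm₂_fn₂ (x : (Csm 𝒰 A).X 2) : IsSm₂ 𝒰 A (fn₂ x) := by
  obtain ⟨U, hU, h1, h2⟩ := x.2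
  refine ⟨U, hU, fun g h s hs t ht => ?_, fun g h s hs => ?_⟩
  · rw [fn₂_apply, fn₂_apply]
    have := h1 ![g, h] ![s, t] (fun i => by fin_cases i <;> simpa)
    rw [← this]
    exact congrArg x.1 (funext fun i => by fin_cases i <;> rfl)
  · rw [fn₂_apply]; exact h2 _ s hs

/-- constructor of 2-cochains -/
def mk₂ (z : G × G → A) (hz : IsSm₂ 𝒰 A z) : (Csm 𝒰 A).X 2 :=
  ⟨fun g => z (g 0, g 1), by
    obtain ⟨U, hU, h1, h2⟩ := hz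
    exact ⟨U, hU, fun g s hs => h1 (g 0) (g 1) (s 0) (hs 0) (s 1) (hs 1),
      fun g s hs => h2 _ _ s hs⟩⟩

@[simp] lemma fn₂_mk₂ (z : G × G → A) (hz : IsSm₂ 𝒰 A z) : fn₂ (mk₂ z hz) = z := by
  funext ⟨g, h⟩
  rw [fn₂_apply]
  rfl

lemma ext₂ {x y : (Csm 𝒰 A).X 2} (h : fn₂ x = fn₂ y) : x = y := by
  apply Subtype.ext
  funext g
  rw [fn₂_eq, fn₂_eq, h]

lemma mk₂_fn₂ (x : (Csm 𝒰 A).X 2) : mk₂ (fn₂ x) (isSm₂_fn₂ x) = x := ext₂ (fn₂_mk₂ _ _)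

lemma fn₂_add (x y : (Csm 𝒰 A).X 2) : fn₂ (x + y) = fn₂ x + fn₂ y := rfl
lemma fn₂_smul (c : k) (x : (Csm 𝒰 A).X 2) : fn₂ (c • x) = c • fn₂ x := rfl
lemma fn₂_zero : fn₂ (0 : (Csm 𝒰 A).X 2) = 0 := rfl
lemma fn₂_neg (x : (Csm 𝒰 A).X 2) : fn₂ (-x) = -fn₂ x := rfl
lemma fn₂_sub (x y : (Csm 𝒰 A).X 2) : fn₂ (x - y) = fn₂ x - fn₂ y := rfl

/-- the differential `d¹` in explicit terms -/
lemma fn₂_d (x : (Csm 𝒰 A).X 1) (g h : G) :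
    fn₂ ((Csm 𝒰 A).d 1 x) (g, h) = A.ρ g (fn₁ x h) - fn₁ x (g * h) + fn₁ x g := by
  have h' := congrArg (fun φ => φ.hom x.1 (g, h)) (comp_d₁₂_eq A)
  exact h'.symm

/-! ### Degree 3 -/

/-- the three-variable function underlying a 3-cochain -/
def fn₃ (x : (Csm 𝒰 A).X 3) : G × G × G → A := (cochainsIso₃ A).hom x.1

lemma fn₃_apply (x : (Csm 𝒰 A).X 3) (g h j : G) : fn₃ x (g, h, j) = x.1 ![g, h, j] := by
  unfold fn₃
  show x.1 _ = x.1 _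
  exact congrArg x.1 (funext fun i => by fin_cases i <;> rfl)

lemma fn₃_eq (x : (Csm 𝒰 A).X 3) (g : Fin 3 → G) : x.1 g = fn₃ x (g 0, g 1, g 2) := by
  rw [fn₃_apply]
  exact congrArg x.1 (funext fun i => by fin_cases i <;> rfl)

lemma ext₃ {x y : (Csm 𝒰 A).X 3} (h : fn₃ x = fn₃ y) : x = y := by
  apply Subtype.ext
  funext g
  rw [fn₃_eq, fn₃_eq, h]

lemma fn₃_zero : fn₃ (0 : (Csm 𝒰 A).X 3) = 0 := rfl

/-- the differential `d²` in explicit terms -/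
lemma fn₃_d (x : (Csm 𝒰 A).X 2) (g h j : G) :
    fn₃ ((Csm 𝒰 A).d 2 x) (g, h, j) =
      A.ρ g (fn₂ x (h, j)) - fn₂ x (g * h, j) + fn₂ x (g, h * j) - fn₂ x (g, h) := by
  have h' := congrArg (fun φ => φ.hom x.1 (g, h, j)) (comp_d₂₃_eq A)
  exact h'.symm

/-- constructor of 3-cochains -/
def mk₃ (w : G × G × G → A) (hw : IsSm₃ 𝒰 A w) : (Csm 𝒰 A).X 3 :=
  ⟨fun g => w (g 0, g 1, g 2), by
    obtain ⟨U, hU, h1, h2⟩ := hw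
    exact ⟨U, hU, fun g s hs => h1 (g 0) (g 1) (g 2) (s 0) (hs 0) (s 1) (hs 1) (s 2) (hs 2),
      fun g s hs => h2 _ _ _ s hs⟩⟩

@[simp] lemma fn₃_mk₃ (w : G × G × G → A) (hw : IsSm₃ 𝒰 A w) : fn₃ (mk₃ w hw) = w := by
  funext ⟨g, h, j⟩
  rw [fn₃_apply]
  rfl

/-! ### Cocycle conditions -/

lemma d_zero_eq_zero_iff (x : (Csm 𝒰 A).X 0) :
    (Csm 𝒰 A).d 0 x = 0 ↔ ∀ g, A.ρ g (fn₀ x) = fn₀ x := by
  constructor
  · intro h g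
    have := fn₁_d x g
    rw [h, fn₁_zero] at this
    exact (sub_eq_zero.1 this.symm)
  · intro h
    apply ext₁
    funext g
    rw [fn₁_d, h g, sub_self]; rfl

lemma d_one_eq_zero_iff (x : (Csm 𝒰 A).X 1) :
    (Csm 𝒰 A).d 1 x = 0 ↔ ∀ g h, fn₁ x (g * h) = A.ρ g (fn₁ x h) + fn₁ x g := by
  constructor
  · intro h g h'
    have := fn₂_d x g h'
    rw [h, fn₂_zero] at this
    have h0 : A.ρ g (fn₁ x h') - fn₁ x (g * h') + fn₁ x g = 0 := this.symm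
    have : fn₁ x (g * h') = A.ρ g (fn₁ x h') + fn₁ x g := by
      rw [sub_add_eq_add_sub, sub_eq_zero] at h0
      exact h0.symm
    exact this
  · intro h
    apply ext₂
    funext ⟨g, h'⟩
    rw [fn₂_d, h g h', fn₂_zero]
    show _ = (0 : A)
    abel

lemma d_two_eq_zero_iff (x : (Csm 𝒰 A).X 2) :
    (Csm 𝒰 A).d 2 x = 0 ↔ ∀ g h j,
      A.ρ g (fn₂ x (h, j)) + fn₂ x (g, h * j) = fn₂ x (g * h, j) + fn₂ x (g, h) := by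
  constructor
  · intro h g h' j
    have := fn₃_d x g h' j
    rw [h, fn₃_zero] at this
    have h0 : A.ρ g (fn₂ x (h', j)) - fn₂ x (g * h', j) + fn₂ x (g, h' * j) - fn₂ x (g, h') = 0 :=
      this.symm
    rw [sub_eq_zero, sub_add_eq_add_sub, sub_eq_iff_eq_add] at h0
    rw [h0]; abel
  · intro h
    apply ext₃
    funext ⟨g, h', j⟩
    rw [fn₃_d]
    have := h g h' j
    rw [fn₃_zero]
    show _ = (0 : A)
    rw [sub_eq_zero, sub_add_eq_add_sub, sub_eq_iff_eq_add, this]; abel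

/-! ### Linear equivalences with explicit function spaces -/

lemma isSm₁_iff (c : G → A) : IsSm₁ 𝒰 A c ↔ IsSmCochain 𝒰 A (fun g : Fin 1 → G => c (g 0)) := by
  constructor
  · intro hc; exact (mk₁ c hc).2
  · intro hc
    have := isSm₁_fn₁ (⟨_, hc⟩ : (Csm 𝒰 A).X 1)
    exact this

lemma isSm₂_iff (z : G × G → A) :
    IsSm₂ 𝒰 A z ↔ IsSmCochain 𝒰 A (fun g : Fin 2 → G => z (g 0, g 1)) := by
  constructor
  · intro hz; exact (mk₂ z hz).2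
  · intro hz
    have := isSm₂_fn₂ (⟨_, hz⟩ : (Csm 𝒰 A).X 2)
    have e : fn₂ (⟨_, hz⟩ : (Csm 𝒰 A).X 2) = z := by
      funext ⟨g, h⟩
      rw [fn₂_apply]; rfl
    rwa [e] at this

variable (𝒰 A)

/-- smooth elements, as a submodule -/
def smFun₀ : Submodule k A where
  carrier := {a | IsSm₀ 𝒰 A a}
  add_mem' := by
    rintro a b ⟨U, hU, h⟩ ⟨U', hU', h'⟩
    obtain ⟨W, hW, hle⟩ := 𝒰.directed U hU U' hU'
    exact ⟨W, hW, fun s hs => by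
      rw [map_add, h s ((hle.trans inf_le_left) hs), h' s ((hle.trans inf_le_right) hs)]⟩
  zero_mem' := by
    obtain ⟨U, hU⟩ := 𝒰.nonempty
    exact ⟨U, hU, fun s _ => map_zero _⟩
  smul_mem' := by
    rintro c a ⟨U, hU, h⟩
    exact ⟨U, hU, fun s hs => by rw [map_smul, h s hs]⟩

/-- smooth functions of one variable, as a submodule -/
def smFun₁ : Submodule k (G → A) :=
  (smC 𝒰 A 1).comap (LinearMap.funLeft k A (fun g : Fin 1 → G => g 0))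

/-- smooth functions of two variables, as a submodule -/
def smFun₂ : Submodule k (G × G → A) :=
  (smC 𝒰 A 2).comap (LinearMap.funLeft k A (fun g : Fin 2 → G => (g 0, g 1)))

/-- smooth functions of three variables, as a submodule -/
def smFun₃ : Submodule k (G × G × G → A) :=
  (smC 𝒰 A 3).comap (LinearMap.funLeft k A (fun g : Fin 3 → G => (g 0, g 1, g 2)))

variable {𝒰 A}

lemma mem_smFun₀ {a : A} : a ∈ smFun₀ 𝒰 A ↔ IsSm₀ 𝒰 A a := Iff.rfl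

lemma mem_smFun₁ {c : G → A} : c ∈ smFun₁ 𝒰 A ↔ IsSm₁ 𝒰 A c := (isSm₁_iff c).symm

lemma mem_smFun₂ {z : G × G → A} : z ∈ smFun₂ 𝒰 A ↔ IsSm₂ 𝒰 A z := (isSm₂_iff z).symm

variable (𝒰 A)

/-- `C⁰_sm ≃` smooth elements -/
def equiv₀ : (Csm 𝒰 A).X 0 ≃ₗ[k] smFun₀ 𝒰 A where
  toFun x := ⟨fn₀ x, isSm₀_fn₀ x⟩
  invFun a := mk₀ a.1 a.2
  map_add' _ _ := rfl
  map_smul' _ _ := rfl
  left_inv _ := ext₀ rfl
  right_inv _ := rfl

/-- `C¹_sm ≃` smooth functions `G → A` -/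
def equiv₁ : (Csm 𝒰 A).X 1 ≃ₗ[k] smFun₁ 𝒰 A where
  toFun x := ⟨fn₁ x, mem_smFun₁.2 (isSm₁_fn₁ x)⟩
  invFun c := mk₁ c.1 (mem_smFun₁.1 c.2)
  map_add' _ _ := rfl
  map_smul' _ _ := rfl
  left_inv _ := ext₁ rfl
  right_inv _ := rfl

/-- `C²_sm ≃` smooth functions `G × G → A` -/
def equiv₂ : (Csm 𝒰 A).X 2 ≃ₗ[k] smFun₂ 𝒰 A where
  toFun x := ⟨fn₂ x, mem_smFun₂.2 (isSm₂_fn₂ x)⟩
  invFun z := mk₂ z.1 (mem_smFun₂.1 z.2)
  map_add' _ _ := rfl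
  map_smul' _ _ := rfl
  left_inv x := mk₂_fn₂ x
  right_inv _ := Subtype.ext (fn₂_mk₂ _ _)

/-- `C³_sm ≃` smooth functions `G × G × G → A` -/
def equiv₃ : (Csm 𝒰 A).X 3 ≃ₗ[k] smFun₃ 𝒰 A where
  toFun x := ⟨fn₃ x, by
    have : (fun g : Fin 3 → G => fn₃ x (g 0, g 1, g 2)) = x.1 := by
      funext g; rw [fn₃_eq]
    show IsSmCochain 𝒰 A (fun g : Fin 3 → G => fn₃ x (g 0, g 1, g 2))
    rw [this]; exact x.2⟩
  invFun w := ⟨fun g => w.1 (g 0, g 1, g 2), w.2⟩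
  map_add' _ _ := rfl
  map_smul' _ _ := rfl
  left_inv x := by
    apply ext₃
    funext ⟨g, h, j⟩
    rw [fn₃_apply, fn₃_apply]
    rfl
  right_inv w := by
    apply Subtype.ext
    funext ⟨g, h, j⟩
    show fn₃ _ (g, h, j) = _
    rw [fn₃_apply]
    rfl

@[simp] lemma equiv₀_apply (x : (Csm 𝒰 A).X 0) : (equiv₀ 𝒰 A x : A) = fn₀ x := rfl
@[simp] lemma equiv₁_apply (x : (Csm 𝒰 A).X 1) : (equiv₁ 𝒰 A x : G → A) = fn₁ x := rfl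
@[simp] lemma equiv₂_apply (x : (Csm 𝒰 A).X 2) : (equiv₂ 𝒰 A x : G × G → A) = fn₂ x := rfl
@[simp] lemma equiv₃_apply (x : (Csm 𝒰 A).X 3) : (equiv₃ 𝒰 A x : G × G × G → A) = fn₃ x := rfl

/-- `equiv` intertwines `d⁰` with Mathlib's `d₀₁`. -/
lemma equiv₁_d (x : (Csm 𝒰 A).X 0) :
    (equiv₁ 𝒰 A ((Csm 𝒰 A).d 0 x) : G → A) = (d₀₁ A).hom (fn₀ x) := by
  funext g; exact fn₁_d x g

/-- `equiv` intertwines `d¹` with Mathlib's `d₁₂`. -/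
lemma equiv₂_d (x : (Csm 𝒰 A).X 1) :
    (equiv₂ 𝒰 A ((Csm 𝒰 A).d 1 x) : G × G → A) = (d₁₂ A).hom (fn₁ x) := by
  funext ⟨g, h⟩; exact fn₂_d x g h

/-- `equiv` intertwines `d²` with Mathlib's `d₂₃`. -/
lemma equiv₃_d (x : (Csm 𝒰 A).X 2) :
    (equiv₃ 𝒰 A ((Csm 𝒰 A).d 2 x) : G × G × G → A) = (d₂₃ A).hom (fn₂ x) := by
  funext ⟨g, h, j⟩; exact fn₃_d x g h j

end Csm

end Fermat.Agent.S55lib
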