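/-
S55lib / Cpx / HomRep  (helper7) — shared hub of the Poitou–Tate sprint.

The internal Hom `homRep P X = Hom_k(P, X)` of two representations (conjugation action), its
functoriality in both variables, smoothness, exactness in `X` for projective `P`, and the
complexes computing `Ext` of a two-term complex `d : P₁ ⟶ P₀` against `X`:

  `ExtC 𝒰 d X := Fib (C_sm(Hom(P₀, X)) → C_sm(Hom(P₁, X)))`,  `ExtH 𝒰 d X n := (ExtC 𝒰 d X).H n`.

If `d` is injective with cokernel `N` and `P₀, P₁` are `k`-projective, `ExtH 𝒰 d X n = Extⁿ_G(N, X)`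
(smooth `G`-modules).
-/
import Fermat.Agent.S55lib.Cpx.Smooth

set_option autoImplicit false

noncomputable section

namespace Fermat.Agent.S55lib

universe u

open CategoryTheory

variable {k G : Type u} [CommRing k] [Group G]

/-- The internal Hom `Hom_k(P, X)` with the conjugation action `(g φ)(x) = g φ(g⁻¹ x)`. -/
abbrev homRep (P X : Rep.{u} k G) : Rep.{u} k G := Rep.of (Representation.linHom P.ρ X.ρ)

namespace homRep

lemma ρ_apply (P X : Rep.{u} k G) (g : G) (φ : P →ₗ[k] X) (x : P) :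
    ((homRep P X).ρ g φ : P →ₗ[k] X) x = X.ρ g (φ (P.ρ g⁻¹ x)) := rfl

/-- `φ` is fixed by `g` iff it commutes with `g`. -/
lemma ρ_eq_self_iff (P X : Rep.{u} k G) (g : G) (φ : P →ₗ[k] X) :
    (homRep P X).ρ g φ = φ ↔ ∀ x, φ (P.ρ g x) = X.ρ g (φ x) := by
  constructor
  · intro h x
    have := congrArg (fun ψ : P →ₗ[k] X => ψ (P.ρ g x)) h
    rw [← this]
    show X.ρ g (φ (P.ρ g⁻¹ (P.ρ g x))) = _
    rw [← Module.End.mul_apply, ← map_mul, inv_mul_cancel, map_one, Module.End.one_apply]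
  · intro h
    apply LinearMap.ext
    intro x
    rw [ρ_apply, ← h, ← Module.End.mul_apply, ← map_mul, mul_inv_cancel, map_one,
      Module.End.one_apply]

/-- covariant functoriality `Hom(P, X) → Hom(P, X')` -/
def mapR (P : Rep.{u} k G) {X X' : Rep.{u} k G} (f : X ⟶ X') : homRep P X ⟶ homRep P X' :=
  Rep.ofHom
    { toLinearMap := LinearMap.compRight k f.hom.toLinearMap
      isIntertwining' := by
        intro g
        apply LinearMap.ext
        intro φ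
        apply LinearMap.ext
        intro x
        show f.hom (X.ρ g (φ (P.ρ g⁻¹ x))) = X'.ρ g (f.hom (φ (P.ρ g⁻¹ x)))
        exact Rep.hom_comm_apply f g _ }

/-- contravariant functoriality `Hom(P, X) → Hom(P', X)` for `d : P' ⟶ P` -/
def mapL {P P' : Rep.{u} k G} (d : P' ⟶ P) (X : Rep.{u} k G) : homRep P X ⟶ homRep P' X :=
  Rep.ofHom
    { toLinearMap := LinearMap.lcomp k X d.hom.toLinearMap
      isIntertwining' := by
        intro g
        apply LinearMap.ext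
        intro φ
        apply LinearMap.ext
        intro x
        show X.ρ g (φ (P.ρ g⁻¹ (d.hom x))) = X.ρ g (φ (d.hom (P'.ρ g⁻¹ x)))
        rw [Rep.hom_comm_apply d g⁻¹ x] }

@[simp] lemma mapR_apply (P : Rep.{u} k G) {X X' : Rep.{u} k G} (f : X ⟶ X') (φ : P →ₗ[k] X)
    (x : P) : ((mapR P f).hom φ : P →ₗ[k] X') x = f.hom (φ x) := rfl

@[simp] lemma mapL_apply {P P' : Rep.{u} k G} (d : P' ⟶ P) (X : Rep.{u} k G) (φ : P →ₗ[k] X)
    (x : P') : ((mapL d X).hom φ : P' →ₗ[k] X) x = φ (d.hom x) := rfl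

lemma mapL_mapR {P P' : Rep.{u} k G} (d : P' ⟶ P) {X X' : Rep.{u} k G} (f : X ⟶ X')
    (φ : P →ₗ[k] X) :
    (mapL d X').hom ((mapR P f).hom φ) = (mapR P' f).hom ((mapL d X).hom φ) := rfl

/-- `Hom(P, X)` is smooth if `P` is finitely generated and `P`, `X` are smooth. -/
lemma isSm (𝒰 : OpenBasis G) {P X : Rep.{u} k G} [Module.Finite k P] (hP : IsSm 𝒰 P)
    (hX : IsSm 𝒰 X) : IsSm 𝒰 (homRep P X) := by
  intro φ
  obtain ⟨T, hT⟩ := (Module.Finite.fg_top : (⊤ : Submodule k P).FG)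
  choose V hV hVfix using hP
  choose W hW hWfix using hX
  obtain ⟨U₁, hU₁, hle₁⟩ := 𝒰.exists_le_of_finite T.finite_toSet V
    (fun t _ => ⟨V t, hV t, le_rfl⟩)
  obtain ⟨U₂, hU₂, hle₂⟩ := 𝒰.exists_le_of_finite T.finite_toSet (fun t => W (φ t))
    (fun t _ => ⟨W (φ t), hW (φ t), le_rfl⟩)
  obtain ⟨U, hU, hle⟩ := 𝒰.directed U₁ hU₁ U₂ hU₂
  refine ⟨U, hU, fun s hs => ?_⟩
  apply LinearMap.ext_on hT
  intro t ht
  have h1 : P.ρ s⁻¹ t = t := hVfix t s⁻¹ (hle₁ t ht (inv_mem ((hle.trans inf_le_left) hs)))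
  show X.ρ s (φ (P.ρ s⁻¹ t)) = φ t
  rw [h1]
  exact hWfix (φ t) s (hle₂ t ht ((hle.trans inf_le_right) hs))

/-- `Hom(P, -)` preserves short exact sequences when `P` is projective. -/
lemma mapR_exact (P : Rep.{u} k G) [Module.Projective k P] {A B C : Rep.{u} k G} (i : A ⟶ B)
    (p : B ⟶ C) (hi : Function.Injective i.hom) (hp : Function.Surjective p.hom)
    (hex : ∀ b : B, p.hom b = 0 ↔ ∃ a, i.hom a = b) :
    Function.Injective (mapR P i).hom ∧ Function.Surjective (mapR P p).hom ∧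
      ∀ ψ : homRep P B, (mapR P p).hom ψ = 0 ↔ ∃ φ, (mapR P i).hom φ = ψ := by
  refine ⟨?_, ?_, ?_⟩
  · intro φ φ' h
    apply LinearMap.ext
    intro x
    apply hi
    exact congrArg (fun ψ : P →ₗ[k] B => ψ x) h
  · intro ψ
    obtain ⟨h, hh⟩ := Module.projective_lifting_property p.hom.toLinearMap (ψ : P →ₗ[k] C) hp
    exact ⟨h, hh⟩
  · intro ψ
    constructor
    · intro h
      have h0 : ∀ x, p.hom ((ψ : P →ₗ[k] B) x) = 0 := fun x =>
        congrArg (fun θ : P →ₗ[k] C => θ x) h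
      have hr : ∀ x, (ψ : P →ₗ[k] B) x ∈ LinearMap.range i.hom.toLinearMap := fun x => by
        obtain ⟨a, ha⟩ := (hex _).1 (h0 x)
        exact ⟨a, ha⟩
      let e := LinearEquiv.ofInjective i.hom.toLinearMap hi
      let φ : P →ₗ[k] A := e.symm.toLinearMap ∘ₗ
        (LinearMap.codRestrict (LinearMap.range i.hom.toLinearMap) (ψ : P →ₗ[k] B) hr)
      refine ⟨φ, ?_⟩
      apply LinearMap.ext
      intro x
      show i.hom (e.symm ⟨(ψ : P →ₗ[k] B) x, hr x⟩) = (ψ : P →ₗ[k] B) x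
      have := e.apply_symm_apply ⟨(ψ : P →ₗ[k] B) x, hr x⟩
      exact congrArg Subtype.val this
    · rintro ⟨φ, rfl⟩
      apply LinearMap.ext
      intro x
      exact (hex _).2 ⟨(φ : P →ₗ[k] A) x, rfl⟩

/-- `Hom(-, X)` turns a short exact sequence `0 → P' → P → P'' → 0` with `P''` projective into a
short exact sequence. -/
lemma mapL_exact {P' P P'' : Rep.{u} k G} [Module.Projective k P''] (a : P' ⟶ P) (b : P ⟶ P'')
    (ha : Function.Injective a.hom) (hb : Function.Surjective b.hom)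
    (hex : ∀ x : P, b.hom x = 0 ↔ ∃ y, a.hom y = x) (X : Rep.{u} k G) :
    Function.Injective (mapL b X).hom ∧ Function.Surjective (mapL a X).hom ∧
      ∀ ψ : homRep P X, (mapL a X).hom ψ = 0 ↔ ∃ φ, (mapL b X).hom φ = ψ := by
  refine ⟨?_, ?_, ?_⟩
  · intro φ φ' h
    apply LinearMap.ext
    intro x
    obtain ⟨y, rfl⟩ := hb x
    exact congrArg (fun ψ : P →ₗ[k] X => ψ y) h
  · intro φ'
    -- a `k`-linear section of `b`, hence a retraction of `a`
    obtain ⟨s, hs⟩ := Module.projective_lifting_property b.hom.toLinearMap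
      (LinearMap.id : P'' →ₗ[k] P'') hb
    have hs' : ∀ z, b.hom (s z) = z := fun z => congrArg (fun θ : P'' →ₗ[k] P'' => θ z) hs
    have hr : ∀ x : P, x - s (b.hom x) ∈ LinearMap.range a.hom.toLinearMap := fun x => by
      have : b.hom (x - s (b.hom x)) = 0 := by rw [map_sub, hs', sub_self]
      obtain ⟨y, hy⟩ := (hex _).1 this
      exact ⟨y, hy⟩
    let e := LinearEquiv.ofInjective a.hom.toLinearMap ha
    let r : P →ₗ[k] P' := e.symm.toLinearMap ∘ₗ
      (LinearMap.codRestrict (LinearMap.range a.hom.toLinearMap)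
        (LinearMap.id - s ∘ₗ b.hom.toLinearMap) hr)
    have hra : ∀ y, r (a.hom y) = y := by
      intro y
      apply ha
      show a.hom (e.symm ⟨a.hom y - s (b.hom (a.hom y)), hr (a.hom y)⟩) = a.hom y
      have h1 := congrArg Subtype.val (e.apply_symm_apply ⟨a.hom y - s (b.hom (a.hom y)), hr _⟩)
      have h2 : b.hom (a.hom y) = 0 := (hex _).2 ⟨y, rfl⟩
      refine h1.trans ?_
      show a.hom y - s (b.hom (a.hom y)) = a.hom y
      rw [h2, map_zero, sub_zero]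
    refine ⟨(φ' : P' →ₗ[k] X) ∘ₗ r, ?_⟩
    apply LinearMap.ext
    intro y
    show (φ' : P' →ₗ[k] X) (r (a.hom y)) = (φ' : P' →ₗ[k] X) y
    rw [hra]
  · intro ψ
    constructor
    · intro h
      have h0 : ∀ y, (ψ : P →ₗ[k] X) (a.hom y) = 0 := fun y =>
        congrArg (fun θ : P' →ₗ[k] X => θ y) h
      have hker : LinearMap.ker b.hom.toLinearMap ≤ LinearMap.ker (ψ : P →ₗ[k] X) := by
        intro x hx
        obtain ⟨y, rfl⟩ := (hex x).1 hx
        exact h0 y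
      let e := LinearMap.quotKerEquivOfSurjective b.hom.toLinearMap hb
      refine ⟨(Submodule.liftQ _ (ψ : P →ₗ[k] X) hker) ∘ₗ e.symm.toLinearMap, ?_⟩
      apply LinearMap.ext
      intro x
      show (Submodule.liftQ _ (ψ : P →ₗ[k] X) hker) (e.symm (b.hom x)) = (ψ : P →ₗ[k] X) x
      have : e.symm (b.hom x) = Submodule.Quotient.mk x := by
        rw [LinearEquiv.symm_apply_eq]; rfl
      rw [this, Submodule.liftQ_apply]
    · rintro ⟨φ, rfl⟩
      apply LinearMap.ext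
      intro y
      show (φ : P'' →ₗ[k] X) (b.hom (a.hom y)) = 0
      rw [(hex _).2 ⟨y, rfl⟩, map_zero]

end homRep

/-! ### The `Ext` complexes of a two-term complex -/

variable (𝒰 : OpenBasis G)

/-- The complex computing `Ext^•(coker d, X)` for a two-term complex `d : P₁ ⟶ P₀`. -/
def ExtC {P0 P1 : Rep.{u} k G} (d : P1 ⟶ P0) (X : Rep.{u} k G) : Cpx k :=
  Cpx.Fib (Csm.map 𝒰 (homRep.mapL d X))

/-- `Ext` groups of a two-term complex. -/
abbrev ExtH {P0 P1 : Rep.{u} k G} (d : P1 ⟶ P0) (X : Rep.{u} k G) (n : ℕ) : Type u :=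
  (ExtC 𝒰 d X).H n

namespace ExtC

variable {P0 P1 : Rep.{u} k G} (d : P1 ⟶ P0)

/-- Functoriality in the coefficient module. -/
def mapR {X X' : Rep.{u} k G} (f : X ⟶ X') : Cpx.Hom (ExtC 𝒰 d X) (ExtC 𝒰 d X') :=
  Cpx.Fib.map (Csm.map 𝒰 (homRep.mapR P0 f)) (Csm.map 𝒰 (homRep.mapR P1 f))
    (fun _ _ => rfl)

/-- Functoriality in the two-term complex: a commutative square
`d ∘ a₁ = a₀ ∘ d'` induces `ExtC d X → ExtC d' X`. -/
def mapL {P0' P1' : Rep.{u} k G} {d' : P1' ⟶ P0'} (a0 : P0' ⟶ P0) (a1 : P1' ⟶ P1)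
    (h : ∀ x, d.hom (a1.hom x) = a0.hom (d'.hom x)) (X : Rep.{u} k G) :
    Cpx.Hom (ExtC 𝒰 d X) (ExtC 𝒰 d' X) :=
  Cpx.Fib.map (Csm.map 𝒰 (homRep.mapL a0 X)) (Csm.map 𝒰 (homRep.mapL a1 X))
    (by
      intro n x
      apply Subtype.ext
      funext g
      apply LinearMap.ext
      intro y
      show (x.1 g : P0 →ₗ[k] X) (a0.hom (d'.hom y)) = (x.1 g : P0 →ₗ[k] X) (d.hom (a1.hom y))
      rw [h])

/-- A short exact sequence `0 → A → B → C → 0` of coefficient modules, with `B` smooth, and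
`P₀, P₁` finitely generated projective and smooth, gives a short exact sequence of `Ext`
complexes. -/
theorem mapR_isSES [Module.Finite k P0] [Module.Projective k P0] [Module.Finite k P1]
    [Module.Projective k P1] (hP0 : IsSm 𝒰 P0) (hP1 : IsSm 𝒰 P1) {A B C : Rep.{u} k G}
    (i : A ⟶ B) (p : B ⟶ C) (hB : IsSm 𝒰 B) (hi : Function.Injective i.hom)
    (hp : Function.Surjective p.hom) (hex : ∀ b : B, p.hom b = 0 ↔ ∃ a, i.hom a = b) :
    Cpx.IsSES (mapR 𝒰 d i) (mapR 𝒰 d p) := by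
  obtain ⟨h01, h02, h03⟩ := homRep.mapR_exact P0 i p hi hp hex
  obtain ⟨h11, h12, h13⟩ := homRep.mapR_exact P1 i p hi hp hex
  exact Cpx.Fib.map_isSES
    (Csm.map_isSES _ _ (homRep.isSm 𝒰 hP0 hB) h01 h02 h03)
    (Csm.map_isSES _ _ (homRep.isSm 𝒰 hP1 hB) h11 h12 h13) _ _

/-- A short exact sequence of two-term complexes `0 → P'• → P• → P''• → 0` with `P''ᵢ` projective
and all `Pᵢ` finitely generated smooth gives a short exact sequence of `Ext` complexes
`0 → ExtC d'' X → ExtC d X → ExtC d' X → 0` (for smooth `X`). -/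
theorem mapL_isSES {P0' P1' P0'' P1'' : Rep.{u} k G} {d' : P1' ⟶ P0'} {d'' : P1'' ⟶ P0''}
    [Module.Finite k P0] [Module.Finite k P1] [Module.Projective k P0''] [Module.Projective k P1'']
    (hP0 : IsSm 𝒰 P0) (hP1 : IsSm 𝒰 P1) {X : Rep.{u} k G} (hX : IsSm 𝒰 X)
    (a0 : P0' ⟶ P0) (a1 : P1' ⟶ P1) (b0 : P0 ⟶ P0'') (b1 : P1 ⟶ P1'')
    (ha : ∀ x, d.hom (a1.hom x) = a0.hom (d'.hom x))
    (hb : ∀ x, d''.hom (b1.hom x) = b0.hom (d.hom x))
    (ha0 : Function.Injective a0.hom) (hb0 : Function.Surjective b0.hom)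
    (hex0 : ∀ x : P0, b0.hom x = 0 ↔ ∃ y, a0.hom y = x)
    (ha1 : Function.Injective a1.hom) (hb1 : Function.Surjective b1.hom)
    (hex1 : ∀ x : P1, b1.hom x = 0 ↔ ∃ y, a1.hom y = x) :
    Cpx.IsSES (mapL 𝒰 d'' b0 b1 hb X) (mapL 𝒰 d a0 a1 ha X) := by
  obtain ⟨h01, h02, h03⟩ := homRep.mapL_exact a0 b0 ha0 hb0 hex0 X
  obtain ⟨h11, h12, h13⟩ := homRep.mapL_exact a1 b1 ha1 hb1 hex1 X
  exact Cpx.Fib.map_isSES
    (Csm.map_isSES _ _ (homRep.isSm 𝒰 hP0 hX) h01 h02 h03)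
    (Csm.map_isSES _ _ (homRep.isSm 𝒰 hP1 hX) h11 h12 h13) _ _

/-- If `q : P₀ ⟶ N` kills `d`, the canonical map `C_sm(Hom(N, X)) → ExtC d X`. -/
def ofCoker {N : Rep.{u} k G} (q : P0 ⟶ N) (hq : ∀ x, q.hom (d.hom x) = 0) (X : Rep.{u} k G) :
    Cpx.Hom (Csm 𝒰 (homRep N X)) (ExtC 𝒰 d X) :=
  Cpx.Fib.ofKer (Csm.map 𝒰 (homRep.mapL d X)) (Csm.map 𝒰 (homRep.mapL q X))
    (by
      intro n x
      apply Subtype.ext
      funext g
      apply LinearMap.ext
      intro y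
      show (x.1 g : N →ₗ[k] X) (q.hom (d.hom y)) = 0
      rw [hq, map_zero])

/-- If `0 → P₁ → P₀ → N → 0` is exact and every `P₁ → X` extends to `P₀` (e.g. `N` killed by `p`
and `X` `p`-divisible), then `H^n(G, Hom(N, X)) ≅ Ext^n(N, X)`. -/
theorem ofCoker_bijective [Module.Finite k P0] (hP0 : IsSm 𝒰 P0) {N : Rep.{u} k G} (q : P0 ⟶ N)
    (hq : Function.Surjective q.hom) (hex : ∀ x : P0, q.hom x = 0 ↔ ∃ y, d.hom y = x)
    {X : Rep.{u} k G} (hX : IsSm 𝒰 X) (hext : Function.Surjective (homRep.mapL d X).hom) (n : ℕ) :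
    Function.Bijective ((ofCoker 𝒰 d q (fun x => (hex _).2 ⟨x, rfl⟩) X).mapH n) := by
  refine Cpx.Fib.ofKer_bijective (Csm.map 𝒰 (homRep.mapL d X))
    (Csm.map_isSES _ _ (homRep.isSm 𝒰 hP0 hX) ?_ hext ?_) n
  · intro φ φ' h
    apply LinearMap.ext
    intro x
    obtain ⟨y, rfl⟩ := hq x
    exact congrArg (fun ψ : P0 →ₗ[k] X => ψ y) h
  · intro ψ
    constructor
    · intro h
      have h0 : ∀ y, (ψ : P0 →ₗ[k] X) (d.hom y) = 0 := fun y =>
        congrArg (fun θ : P1 →ₗ[k] X => θ y) h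
      have hker : LinearMap.ker q.hom.toLinearMap ≤ LinearMap.ker (ψ : P0 →ₗ[k] X) := by
        intro x hx
        obtain ⟨y, rfl⟩ := (hex x).1 hx
        exact h0 y
      let e := LinearMap.quotKerEquivOfSurjective q.hom.toLinearMap hq
      refine ⟨(Submodule.liftQ _ (ψ : P0 →ₗ[k] X) hker) ∘ₗ e.symm.toLinearMap, ?_⟩
      apply LinearMap.ext
      intro x
      show (Submodule.liftQ _ (ψ : P0 →ₗ[k] X) hker) (e.symm (q.hom x)) = (ψ : P0 →ₗ[k] X) x
      have : e.symm (q.hom x) = Submodule.Quotient.mk x := by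
        rw [LinearEquiv.symm_apply_eq]; rfl
      rw [this, Submodule.liftQ_apply]
    · rintro ⟨φ, rfl⟩
      apply LinearMap.ext
      intro y
      show (φ : N →ₗ[k] X) (q.hom (d.hom y)) = 0
      rw [(hex _).2 ⟨y, rfl⟩, map_zero]

end ExtC

end Fermat.Agent.S55lib
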