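/-
S55lib / Cpx / Shapiro  (helper7) — shared hub of the Poitou–Tate sprint.

Shapiro's lemma for smooth cochains in low degrees, in an abstract ("axiomatic") form which covers
`Coind_V^G Y` for an open subgroup `V`, `Hom(ℤ[G/V], C)` and the semilocal modules
`J_S = ⊕_q smInd_{G_q}^{G} Y_q` at once.

* `OpenBasis.comap 𝒰 r` : the basis `{r⁻¹ U}` on `D` for `r : D →* G`; `isCont_comap`.
* `SmCoind 𝒰 D r Y J` : `J` is the smooth coinduction of the family `Y i` (`i : I`) along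
  `r i : D i →* G`: evaluation maps `ev i : res (r i) J ⟶ Y i` such that `j ↦ (g ↦ ev i (g • j))_i`
  identifies `J` with the families of `D i`-equivariant functions `G → Y i` which are right-invariant
  under a common `U ∈ 𝒰`.
* `SmCoind.sh S i := Csm.mapG _ (S.ev i) : Csm 𝒰 J ⟶ Csm (𝒰.comap (r i)) (Y i)`.
* For finite `I`: `sh_H0_injective/surjective`, `sh_H1_injective`, `sh_H1_surjective`,
  `sh_H2_injective` (all stated elementwise over the family).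
-/
import Fermat.Agent.S55lib.Cpx.LowDegree

set_option autoImplicit false

noncomputable section

namespace Fermat.Agent.S55lib

universe u

open groupCohomology

/-! ### Pulling back a basis -/

namespace OpenBasis

variable {G : Type u} [Group G] (𝒰 : OpenBasis G) {D : Type u} [Group D] (r : D →* G)

/-- the basis `{r⁻¹ U | U ∈ 𝒰}` on `D` -/
def comap : OpenBasis D where
  sets := {V | ∃ U ∈ 𝒰.sets, V = U.comap r}
  nonempty := by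
    obtain ⟨U, hU⟩ := 𝒰.nonempty
    exact ⟨U.comap r, U, hU, rfl⟩
  directed := by
    rintro _ ⟨U, hU, rfl⟩ _ ⟨U', hU', rfl⟩
    obtain ⟨W, hW, hle⟩ := 𝒰.directed U hU U' hU'
    refine ⟨W.comap r, ⟨W, hW, rfl⟩, ?_⟩
    rw [← Subgroup.comap_inf]
    exact Subgroup.comap_mono hle
  normal := by
    rintro _ ⟨U, hU, rfl⟩
    exact (𝒰.normal U hU).comap r
  finiteIndex := by
    rintro _ ⟨U, hU, rfl⟩
    have := 𝒰.finiteIndex U hU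
    refine ⟨?_⟩
    rw [Subgroup.index_comap]
    exact (Subgroup.instFiniteIndex_subgroupOf U r.range).index_ne_zero

lemma mem_comap_sets {V : Subgroup D} : V ∈ (𝒰.comap r).sets ↔ ∃ U ∈ 𝒰.sets, V = U.comap r := Iff.rfl

lemma comap_mem_comap {U : Subgroup G} (hU : U ∈ 𝒰.sets) : U.comap r ∈ (𝒰.comap r).sets :=
  ⟨U, hU, rfl⟩

lemma isCont_comap : 𝒰.IsCont (𝒰.comap r) r := fun U hU => ⟨U.comap r, ⟨U, hU, rfl⟩, le_rfl⟩

end OpenBasis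

/-! ### `Csm.mapG` in low degrees -/

namespace Csm

variable {k G : Type u} [CommRing k] [Group G] {𝒰 : OpenBasis G} {G' : Type u} [Group G']
  {𝒰' : OpenBasis G'} {f : G' →* G} (hf : 𝒰.IsCont 𝒰' f) {A : Rep.{u} k G} {B : Rep.{u} k G'}
  (φ : Rep.res f A ⟶ B)

lemma fn₀_mapG (x : (Csm 𝒰 A).X 0) : fn₀ ((mapG hf φ).f 0 x) = φ.hom (fn₀ x : A) := by
  show φ.hom (x.1 _) = φ.hom (x.1 _)
  rw [fn₀_eq x, fn₀_eq x]

lemma fn₁_mapG (x : (Csm 𝒰 A).X 1) (d : G') : fn₁ ((mapG hf φ).f 1 x) d = φ.hom (fn₁ x (f d) : A) :=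
  rfl

lemma fn₂_mapG (x : (Csm 𝒰 A).X 2) (d d' : G') :
    fn₂ ((mapG hf φ).f 2 x) (d, d') = φ.hom (fn₂ x (f d, f d') : A) := by
  rw [fn₂_apply, fn₂_apply, mapG_val]
  have : f ∘ ![d, d'] = ![f d, f d'] := by
    funext i
    fin_cases i <;> rfl
  rw [this]

/-- naturality of `mapG` in the coefficients (a commutative square of coefficient maps) -/
lemma mapG_natural {A' : Rep.{u} k G} {B' : Rep.{u} k G'} (φ' : Rep.res f A' ⟶ B') (ψ : A ⟶ A')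
    (χ : B ⟶ B') (h : ∀ a : A, φ'.hom (ψ.hom a : A') = χ.hom (φ.hom (a : A))) (n : ℕ)
    (x : (Csm 𝒰 A).X n) :
    (mapG hf φ').f n ((map 𝒰 ψ).f n x) = (map 𝒰' χ).f n ((mapG hf φ).f n x) := by
  apply Subtype.ext
  funext g
  exact h _

/-- `mapG` after a coefficient map is a `mapG` -/
lemma mapG_map {A' : Rep.{u} k G} (φ' : Rep.res f A' ⟶ B) (ψ : A ⟶ A')
    (h : ∀ a : A, φ'.hom (ψ.hom a : A') = φ.hom (a : A)) (n : ℕ) (x : (Csm 𝒰 A).X n) :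
    (mapG hf φ').f n ((map 𝒰 ψ).f n x) = (mapG hf φ).f n x := by
  apply Subtype.ext
  funext g
  exact h _

lemma mapG_natural_mapH {A' : Rep.{u} k G} {B' : Rep.{u} k G'} (φ' : Rep.res f A' ⟶ B')
    (ψ : A ⟶ A') (χ : B ⟶ B') (h : ∀ a : A, φ'.hom (ψ.hom a : A') = χ.hom (φ.hom (a : A))) (n : ℕ)
    (x : (Csm 𝒰 A).H n) :
    (mapG hf φ').mapH n ((map 𝒰 ψ).mapH n x) = (map 𝒰' χ).mapH n ((mapG hf φ).mapH n x) := by
  obtain ⟨x0, hx0, rfl⟩ := (Csm 𝒰 A).exists_rep x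
  simp only [Cpx.Hom.mapH_cl]
  exact Cpx.cl_congr _ (mapG_natural hf φ φ' ψ χ h n x0) _

lemma mapG_map_mapH {A' : Rep.{u} k G} (φ' : Rep.res f A' ⟶ B) (ψ : A ⟶ A')
    (h : ∀ a : A, φ'.hom (ψ.hom a : A') = φ.hom (a : A)) (n : ℕ) (x : (Csm 𝒰 A).H n) :
    (mapG hf φ').mapH n ((map 𝒰 ψ).mapH n x) = (mapG hf φ).mapH n x := by
  obtain ⟨x0, hx0, rfl⟩ := (Csm 𝒰 A).exists_rep x
  simp only [Cpx.Hom.mapH_cl]
  exact Cpx.cl_congr _ (mapG_map hf φ φ' ψ h n x0) _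

end Csm

/-! ### Retractions `G → D` modulo an open normal subgroup -/

/-- a retraction `θ : G → D` of `r : D →* G`, equivariant modulo `U` and right-`U`-invariant -/
structure Retr {G D : Type u} [Group G] [Group D] (r : D →* G) (U : Subgroup G) where
  /-- the retraction -/
  θ : G → D
  θ_one : θ 1 = 1
  θ_mul_right : ∀ g, ∀ u ∈ U, θ (g * u) = θ g
  θ_equiv : ∀ d g, (d * θ g)⁻¹ * θ (r d * g) ∈ U.comap r

namespace Retr

variable {G D : Type u} [Group G] [Group D] {r : D →* G} {U : Subgroup G}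

lemma exists_retr (r : D →* G) (U : Subgroup G) [hU : U.Normal] : Nonempty (Retr r U) := by
  classical
  -- the double coset relation
  let s : Setoid G :=
    { r := fun g g' => ∃ d : D, (r d * g)⁻¹ * g' ∈ U
      iseqv :=
        { refl := fun g => ⟨1, by simp⟩
          symm := by
            rintro g g' ⟨d, hd⟩
            refine ⟨d⁻¹, ?_⟩
            have e : (r d⁻¹ * g')⁻¹ * g = ((r d * g)⁻¹ * g')⁻¹ := by
              rw [map_inv]; group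
            rw [e]
            exact U.inv_mem hd
          trans := by
            rintro g g' g'' ⟨d, hd⟩ ⟨d', hd'⟩
            refine ⟨d' * d, ?_⟩
            have e : (r (d' * d) * g)⁻¹ * g'' = ((r d * g)⁻¹ * g') * ((r d' * g')⁻¹ * g'') := by
              rw [map_mul]; group
            rw [e]
            exact U.mul_mem hd hd' } }
  let σ : G → G := fun g => (Quotient.mk s g).out
  have hσ : ∀ g, ∃ d : D, (r d * σ g)⁻¹ * g ∈ U := fun g =>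
    Quotient.exact (Quotient.out_eq (Quotient.mk s g))
  have hσeq : ∀ g g', s.r g g' → σ g = σ g' := fun g g' h => by
    show (Quotient.mk s g).out = (Quotient.mk s g').out
    rw [Quotient.sound h]
  choose θ₀ hθ₀ using hσ
  let θ₁ : G → D := fun g => θ₀ (g : G ⧸ U).out
  have hout : ∀ g : G, g⁻¹ * (g : G ⧸ U).out ∈ U := fun g => by
    obtain ⟨h, hh⟩ := QuotientGroup.mk_out_eq_mul U g
    rw [hh]; simp
  have hP : ∀ g, (r (θ₁ g) * σ g)⁻¹ * g ∈ U := fun g => by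
    have h1 : σ (g : G ⧸ U).out = σ g := hσeq _ _ ⟨1, by
      have := U.inv_mem (hout g)
      simpa using this⟩
    have h2 := hθ₀ (g : G ⧸ U).out
    rw [h1] at h2
    have e : (r (θ₁ g) * σ g)⁻¹ * g =
        ((r (θ₀ (g : G ⧸ U).out) * σ g)⁻¹ * (g : G ⧸ U).out) * (g⁻¹ * (g : G ⧸ U).out)⁻¹ := by
      show (r (θ₀ (g : G ⧸ U).out) * σ g)⁻¹ * g = _
      group
    rw [e]
    exact U.mul_mem h2 (U.inv_mem (hout g))
  have hright : ∀ g, ∀ u ∈ U, θ₁ (g * u) = θ₁ g := fun g u hu => by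
    show θ₀ ((g * u : G) : G ⧸ U).out = θ₀ (g : G ⧸ U).out
    have : ((g * u : G) : G ⧸ U) = (g : G ⧸ U) := by
      rw [QuotientGroup.eq]; simpa using hu
    rw [this]
  have hequiv : ∀ d g, (d * θ₁ g)⁻¹ * θ₁ (r d * g) ∈ U.comap r := fun d g => by
    rw [Subgroup.mem_comap]
    have hs : σ (r d * g) = σ g := (hσeq _ _ ⟨d, by simp⟩).symm
    have ha := hP g
    have hb := hP (r d * g)
    rw [hs] at hb
    have e : r ((d * θ₁ g)⁻¹ * θ₁ (r d * g)) =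
        σ g * (((r (θ₁ g) * σ g)⁻¹ * g) * ((r (θ₁ (r d * g)) * σ g)⁻¹ * (r d * g))⁻¹) * (σ g)⁻¹ := by
      simp only [map_mul, map_inv]; group
    rw [e]
    exact hU.conj_mem _ (U.mul_mem ha (U.inv_mem hb)) _
  have hUc : (U.comap r).Normal := hU.comap r
  refine ⟨⟨fun g => θ₁ g * (θ₁ 1)⁻¹, by simp, fun g u hu => by rw [hright g u hu], fun d g => ?_⟩⟩
  have e : (d * (θ₁ g * (θ₁ 1)⁻¹))⁻¹ * (θ₁ (r d * g) * (θ₁ 1)⁻¹) =
      θ₁ 1 * ((d * θ₁ g)⁻¹ * θ₁ (r d * g)) * (θ₁ 1)⁻¹ := by group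
  rw [e]
  exact hUc.conj_mem _ (hequiv d g) _

variable (R : Retr r U)

/-- functions on `D` which are right-invariant under `r⁻¹ U` do not see the defect of `θ` -/
lemma apply_equiv {X : Type*} (f : D → X) (hf : ∀ x, ∀ v ∈ U.comap r, f (x * v) = f x) (d : D)
    (g : G) : f (R.θ (r d * g)) = f (d * R.θ g) := by
  have := hf (d * R.θ g) _ (R.θ_equiv d g)
  rw [← this]
  congr 1
  group

lemma apply_r {X : Type*} (f : D → X) (hf : ∀ x, ∀ v ∈ U.comap r, f (x * v) = f x) (d : D) :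
    f (R.θ (r d)) = f d := by
  have := R.apply_equiv f hf d 1
  rwa [mul_one, R.θ_one, mul_one] at this

end Retr

/-! ### Abstract smooth coinduction -/

/-- `J` is the smooth coinduction of the family `Y i` along `r i : D i →* G`. -/
structure SmCoind {k G : Type u} [CommRing k] [Group G] (𝒰 : OpenBasis G) {I : Type u}
    (D : I → Type u) [∀ i, Group (D i)] (r : ∀ i, D i →* G) (Y : ∀ i, Rep.{u} k (D i))
    (J : Rep.{u} k G) where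
  /-- evaluation at `1` -/
  ev : ∀ i, Rep.res (r i) J ⟶ Y i
  sm : IsSm 𝒰 J
  inj : ∀ j : J, (∀ i g, (ev i).hom (J.ρ g j) = 0) → j = 0
  surj : ∀ F : ∀ i, G → Y i, (∀ i d g, F i (r i d * g) = (Y i).ρ d (F i g)) →
    (∃ U ∈ 𝒰.sets, ∀ i g, ∀ u ∈ U, F i (g * u) = F i g) →
    ∃ j : J, ∀ i g, (ev i).hom (J.ρ g j) = F i g

namespace SmCoind

variable {k G : Type u} [CommRing k] [Group G] {𝒰 : OpenBasis G} {I : Type u}
  {D : I → Type u} [∀ i, Group (D i)] {r : ∀ i, D i →* G} {Y : ∀ i, Rep.{u} k (D i)}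
  {J : Rep.{u} k G} (S : SmCoind 𝒰 D r Y J)

/-- the function `G → Y i` attached to `j : J` -/
def fn (i : I) (j : J) (g : G) : Y i := (S.ev i).hom (J.ρ g j)

lemma fn_def (i : I) (j : J) (g : G) : S.fn i j g = (S.ev i).hom (J.ρ g j) := rfl

lemma fn_one (i : I) (j : J) : S.fn i j 1 = (S.ev i).hom j := by
  rw [fn_def, map_one]; rfl

lemma fn_add (i : I) (j j' : J) (g : G) : S.fn i (j + j') g = S.fn i j g + S.fn i j' g := by
  simp only [fn_def, map_add]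

lemma fn_sub (i : I) (j j' : J) (g : G) : S.fn i (j - j') g = S.fn i j g - S.fn i j' g := by
  simp only [fn_def, map_sub]

lemma fn_neg (i : I) (j : J) (g : G) : S.fn i (-j) g = -S.fn i j g := by
  simp only [fn_def, map_neg]

lemma fn_zero (i : I) (g : G) : S.fn i (0 : J) g = 0 := by
  simp only [fn_def, map_zero]

lemma fn_smul (i : I) (c : k) (j : J) (g : G) : S.fn i (c • j) g = c • S.fn i j g := by
  simp only [fn_def, map_smul]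

lemma fn_ρ (i : I) (γ : G) (j : J) (g : G) : S.fn i (J.ρ γ j) g = S.fn i j (g * γ) := by
  rw [fn_def, fn_def, map_mul]; rfl

lemma fn_equivariant (i : I) (j : J) (d : D i) (g : G) :
    S.fn i j (r i d * g) = (Y i).ρ d (S.fn i j g) := by
  rw [fn_def, fn_def, map_mul]
  exact Rep.hom_comm_apply (S.ev i) d (J.ρ g j)

lemma ext {j j' : J} (h : ∀ i g, S.fn i j g = S.fn i j' g) : j = j' := by
  rw [← sub_eq_zero]
  refine S.inj _ fun i g => ?_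
  have := S.fn_sub i j j' g
  rw [fn_def] at this
  rw [this, h i g, sub_self]

/-- an element of `J` from its functions -/
def ofFn (F : ∀ i, G → Y i) (hF : ∀ i d g, F i (r i d * g) = (Y i).ρ d (F i g))
    (hU : ∃ U ∈ 𝒰.sets, ∀ i g, ∀ u ∈ U, F i (g * u) = F i g) : J :=
  (S.surj F hF hU).choose

lemma fn_ofFn (F : ∀ i, G → Y i) (hF : ∀ i d g, F i (r i d * g) = (Y i).ρ d (F i g))
    (hU : ∃ U ∈ 𝒰.sets, ∀ i g, ∀ u ∈ U, F i (g * u) = F i g) (i : I) (g : G) :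
    S.fn i (S.ofFn F hF hU) g = F i g :=
  (S.surj F hF hU).choose_spec i g

/-- if `u` fixes `j` then `fn j` is right-invariant under `u` -/
lemma fn_mul_of_fixed (i : I) {j : J} {u : G} (hu : J.ρ u j = j) (g : G) :
    S.fn i j (g * u) = S.fn i j g := by
  rw [← fn_ρ, hu]

/-- `j` is fixed by `u` iff all its functions are right-invariant under `u` -/
lemma ρ_eq_self_of_fn {j : J} {u : G} (h : ∀ i g, S.fn i j (g * u) = S.fn i j g) : J.ρ u j = j :=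
  S.ext fun i g => by rw [fn_ρ, h i g]

/-- the Shapiro map -/
def sh (i : I) : Cpx.Hom (Csm 𝒰 J) (Csm (𝒰.comap (r i)) (Y i)) :=
  Csm.mapG (𝒰.isCont_comap (r i)) (S.ev i)

lemma fn₀_sh (i : I) (x : (Csm 𝒰 J).X 0) : Csm.fn₀ ((S.sh i).f 0 x) = S.fn i (Csm.fn₀ x) 1 := by
  rw [fn_one]; exact Csm.fn₀_mapG _ _ x

lemma fn₁_sh (i : I) (x : (Csm 𝒰 J).X 1) (d : D i) :
    Csm.fn₁ ((S.sh i).f 1 x) d = S.fn i (Csm.fn₁ x (r i d)) 1 := by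
  rw [fn_one]; rfl

lemma fn₂_sh (i : I) (x : (Csm 𝒰 J).X 2) (d d' : D i) :
    Csm.fn₂ ((S.sh i).f 2 x) (d, d') = S.fn i (Csm.fn₂ x (r i d, r i d')) 1 := by
  rw [fn_one]; exact Csm.fn₂_mapG _ _ x d d'

/-- naturality of the Shapiro map in the coefficient modules -/
lemma sh_natural {Y' : ∀ i, Rep.{u} k (D i)} {J' : Rep.{u} k G} (S' : SmCoind 𝒰 D r Y' J')
    (ψ : J ⟶ J') (χ : ∀ i, Y i ⟶ Y' i)
    (h : ∀ i (j : J), (S'.ev i).hom (ψ.hom j : J') = (χ i).hom ((S.ev i).hom (j : J)))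
    (i : I) (n : ℕ) (x : (Csm 𝒰 J).H n) :
    (S'.sh i).mapH n ((Csm.map 𝒰 ψ).mapH n x) =
      (Csm.map (𝒰.comap (r i)) (χ i)).mapH n ((S.sh i).mapH n x) :=
  Csm.mapG_natural_mapH _ (S.ev i) (S'.ev i) ψ (χ i) (h i) n x

/-- the Shapiro map after a "unit" `C ⟶ J` is restriction -/
lemma sh_unit {C : Rep.{u} k G} (i : I) (η : C ⟶ J) (ε : Rep.res (r i) C ⟶ Y i)
    (h : ∀ c : C, (S.ev i).hom (η.hom c : J) = ε.hom (c : C)) (n : ℕ) (x : (Csm 𝒰 C).H n) :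
    (S.sh i).mapH n ((Csm.map 𝒰 η).mapH n x) =
      (Csm.mapG (𝒰.isCont_comap (r i)) ε).mapH n x :=
  Csm.mapG_map_mapH _ ε (S.ev i) η h n x

/-! ### Degree 0 -/

theorem sh_H0_injective (x : (Csm 𝒰 J).H 0) (h : ∀ i, (S.sh i).mapH 0 x = 0) : x = 0 := by
  obtain ⟨x0, hx0, rfl⟩ := (Csm 𝒰 J).exists_rep x
  rw [Cpx.cl_zero_eq_zero_iff]
  have hfix := (Csm.d_zero_eq_zero_iff x0).1 hx0
  apply Csm.ext₀
  rw [Csm.fn₀_zero]
  refine S.inj _ fun i g => ?_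
  rw [hfix g]
  have h1 := h i
  rw [Cpx.Hom.mapH_cl, Cpx.cl_zero_eq_zero_iff] at h1
  have h2 := S.fn₀_sh i x0
  rw [h1, Csm.fn₀_zero, fn_one] at h2
  exact h2.symm

theorem sh_H0_surjective (y : ∀ i, (Csm (𝒰.comap (r i)) (Y i)).H 0) :
    ∃ x : (Csm 𝒰 J).H 0, ∀ i, (S.sh i).mapH 0 x = y i := by
  choose y0 hy0 hy using fun i => (Csm (𝒰.comap (r i)) (Y i)).exists_rep (y i)
  have hfix := fun i => (Csm.d_zero_eq_zero_iff (y0 i)).1 (hy0 i)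
  obtain ⟨U, hU⟩ := 𝒰.nonempty
  let j : J := S.ofFn (fun i _ => Csm.fn₀ (y0 i)) (fun i d g => (hfix i d).symm)
    ⟨U, hU, fun _ _ _ _ => rfl⟩
  have hj : ∀ i g, S.fn i j g = Csm.fn₀ (y0 i) := fun i g => S.fn_ofFn _ _ _ i g
  have hjfix : ∀ g, J.ρ g j = j := fun g => S.ρ_eq_self_of_fn fun i g' => by rw [hj, hj]
  let x0 : (Csm 𝒰 J).X 0 := Csm.mk₀ j ⟨U, hU, fun s _ => hjfix s⟩
  have hx0 : (Csm 𝒰 J).d 0 x0 = 0 := (Csm.d_zero_eq_zero_iff x0).2 fun g => by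
    rw [Csm.fn₀_mk₀]; exact hjfix g
  refine ⟨(Csm 𝒰 J).cl x0 hx0, fun i => ?_⟩
  rw [Cpx.Hom.mapH_cl, ← hy i]
  refine Cpx.cl_congr _ ?_ _
  apply Csm.ext₀
  rw [fn₀_sh, Csm.fn₀_mk₀, hj]

/-! ### Degree 1 -/

theorem sh_H1_injective (x : (Csm 𝒰 J).H 1) (h : ∀ i, (S.sh i).mapH 1 x = 0) : x = 0 := by
  obtain ⟨c, hc, rfl⟩ := (Csm 𝒰 J).exists_rep x
  have hcoc := (Csm.d_one_eq_zero_iff c).1 hc
  -- the local primitives
  have h1 : ∀ i, ∃ y : (Csm (𝒰.comap (r i)) (Y i)).X 0,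
      (Csm (𝒰.comap (r i)) (Y i)).d 0 y = (S.sh i).f 1 c := fun i => by
    have := h i
    rwa [Cpx.Hom.mapH_cl, Cpx.cl_succ_eq_zero_iff] at this
  choose y hy using h1
  have hy' : ∀ i d, S.fn i (Csm.fn₁ c (r i d)) 1 =
      (Y i).ρ d (Csm.fn₀ (y i)) - Csm.fn₀ (y i) := fun i d => by
    rw [← fn₁_sh, ← hy i, Csm.fn₁_d]
  -- smoothness of `c`
  obtain ⟨U, hU, hc1, hc2⟩ := Csm.isSm₁_fn₁ c
  -- the primitive
  let j : J := S.ofFn (fun i g => S.fn i (Csm.fn₁ c g) 1 + Csm.fn₀ (y i))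
    (fun i d g => by
      show S.fn i (Csm.fn₁ c (r i d * g)) 1 + Csm.fn₀ (y i) =
        (Y i).ρ d (S.fn i (Csm.fn₁ c g) 1 + Csm.fn₀ (y i))
      rw [hcoc, fn_add, fn_ρ, one_mul, hy', map_add]
      have := S.fn_equivariant i (Csm.fn₁ c g) d 1
      rw [mul_one] at this
      rw [this]
      abel)
    ⟨U, hU, fun i g u hu => by
      show S.fn i (Csm.fn₁ c (g * u)) 1 + _ = S.fn i (Csm.fn₁ c g) 1 + _
      rw [hc1 g u hu]⟩
  have hj : ∀ i g, S.fn i j g = S.fn i (Csm.fn₁ c g) 1 + Csm.fn₀ (y i) :=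
    fun i g => S.fn_ofFn _ _ _ i g
  have hjsm : Csm.IsSm₀ 𝒰 J j := ⟨U, hU, fun s hs => S.ρ_eq_self_of_fn fun i g => by
    rw [hj, hj, hc1 g s hs]⟩
  rw [Cpx.cl_succ_eq_zero_iff]
  refine ⟨Csm.mk₀ j hjsm, ?_⟩
  apply Csm.ext₁
  funext γ
  rw [Csm.fn₁_d, Csm.fn₀_mk₀]
  refine S.ext fun i g => ?_
  rw [fn_sub, fn_ρ, hj, hj, hcoc g γ, fn_add, fn_ρ, one_mul]
  abel

/-- a common level for finitely many local conditions -/
lemma exists_common_level [Finite I] (𝒰 : OpenBasis G) (r : ∀ i, D i →* G)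
    (P : ∀ i, Subgroup (D i) → Prop) (hP : ∀ i V V', V' ≤ V → P i V → P i V')
    (h : ∀ i, ∃ V ∈ (𝒰.comap (r i)).sets, P i V) :
    ∃ U ∈ 𝒰.sets, ∀ i, P i (U.comap (r i)) := by
  choose V hV hPV using h
  choose W hW hVW using hV
  obtain ⟨U, hU, hle⟩ := 𝒰.exists_le_of_finite (T := (Set.univ : Set I)) Set.finite_univ W
    (fun i _ => ⟨W i, hW i, le_rfl⟩)
  refine ⟨U, hU, fun i => hP i (V i) _ ?_ (hPV i)⟩
  rw [hVW i]
  exact Subgroup.comap_mono (hle i (Set.mem_univ i))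

theorem sh_H1_surjective [Finite I] (y : ∀ i, (Csm (𝒰.comap (r i)) (Y i)).H 1) :
    ∃ x : (Csm 𝒰 J).H 1, ∀ i, (S.sh i).mapH 1 x = y i := by
  choose cb hcb hy using fun i => (Csm (𝒰.comap (r i)) (Y i)).exists_rep (y i)
  have hcoc := fun i => (Csm.d_one_eq_zero_iff (cb i)).1 (hcb i)
  -- a common level
  obtain ⟨U, hU, hlev⟩ := exists_common_level 𝒰 r
    (fun i V => (∀ x, ∀ v ∈ V, Csm.fn₁ (cb i) (x * v) = Csm.fn₁ (cb i) x) ∧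
      ∀ x, ∀ v ∈ V, (Y i).ρ v (Csm.fn₁ (cb i) x) = Csm.fn₁ (cb i) x)
    (fun i V V' hle h => ⟨fun x v hv => h.1 x v (hle hv), fun x v hv => h.2 x v (hle hv)⟩)
    (fun i => Csm.isSm₁_fn₁ (cb i))
  have hN : U.Normal := 𝒰.normal U hU
  have R : ∀ i, Retr (r i) U := fun i => Classical.choice (Retr.exists_retr (r i) U)
  -- the function `F`
  let F : ∀ i, G → Y i := fun i g => Csm.fn₁ (cb i) ((R i).θ g)
  have hFr : ∀ i g, ∀ u ∈ U, F i (g * u) = F i g := fun i g u hu => by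
    show Csm.fn₁ (cb i) ((R i).θ (g * u)) = _
    rw [(R i).θ_mul_right g u hu]
  have hFd : ∀ i d g, F i (r i d * g) = (Y i).ρ d (F i g) + Csm.fn₁ (cb i) d := fun i d g => by
    show Csm.fn₁ (cb i) ((R i).θ (r i d * g)) = _
    rw [(R i).apply_equiv _ (hlev i).1 d g, hcoc i d]
  have hconj : ∀ g γ : G, ∀ u ∈ U, g * u * γ = g * γ * (γ⁻¹ * u * γ⁻¹⁻¹) := fun g γ u _ => by group
  -- the cocycle
  let c : G → J := fun γ => S.ofFn (fun i g => F i (g * γ) - F i g)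
    (fun i d g => by
      show F i (r i d * g * γ) - F i (r i d * g) = (Y i).ρ d (F i (g * γ) - F i g)
      rw [mul_assoc, hFd, hFd, map_sub]; abel)
    ⟨U, hU, fun i g u hu => by
      show F i (g * u * γ) - F i (g * u) = F i (g * γ) - F i g
      rw [hconj g γ u hu, hFr i (g * γ) _ (hN.conj_mem u hu γ⁻¹), hFr i g u hu]⟩
  have hc : ∀ γ i g, S.fn i (c γ) g = F i (g * γ) - F i g := fun γ i g => S.fn_ofFn _ _ _ i g
  have hcsm : Csm.IsSm₁ 𝒰 J c := by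
    refine ⟨U, hU, fun γ u hu => S.ext fun i g => ?_, fun γ u hu => S.ρ_eq_self_of_fn fun i g => ?_⟩
    · rw [hc, hc, ← mul_assoc, hFr i (g * γ) u hu]
    · rw [hc, hc, hconj g γ u hu, hFr i (g * γ) _ (hN.conj_mem u hu γ⁻¹), hFr i g u hu]
  have hcc : (Csm 𝒰 J).d 1 (Csm.mk₁ c hcsm) = 0 := by
    rw [Csm.d_one_eq_zero_iff]
    intro γ γ'
    rw [Csm.fn₁_mk₁]
    refine S.ext fun i g => ?_
    rw [fn_add, fn_ρ, hc, hc, hc, mul_assoc]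
    abel
  refine ⟨(Csm 𝒰 J).cl (Csm.mk₁ c hcsm) hcc, fun i => ?_⟩
  rw [Cpx.Hom.mapH_cl, ← hy i]
  refine Cpx.cl_congr _ ?_ _
  apply Csm.ext₁
  funext d
  rw [fn₁_sh, Csm.fn₁_mk₁, hc, one_mul]
  show Csm.fn₁ (cb i) ((R i).θ (r i d)) - Csm.fn₁ (cb i) ((R i).θ 1) = _
  rw [(R i).apply_r _ (hlev i).1 d, (R i).θ_one]
  have h1 : Csm.fn₁ (cb i) 1 = 0 := by
    have := hcoc i 1 1
    rw [mul_one, map_one] at this
    simpa using this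
  rw [h1, sub_zero]

/-! ### Degree 2: the prism homotopy -/

section prism

variable (i : I) (f2 : G × G → J) (b : D i → Y i) {U : Subgroup G} (R : Retr (r i) U)

/-- the homogeneous form of a 2-cochain, evaluated: `ψ(x₀,x₁,x₂) = f(x₀⁻¹x₁, x₁⁻¹x₂)(x₀)` -/
def psi (x₀ x₁ x₂ : G) : Y i := S.fn i (f2 (x₀⁻¹ * x₁, x₁⁻¹ * x₂)) x₀

/-- the homogeneous form of a 1-cochain on `D i` -/
def bh (y₀ y₁ : D i) : Y i := (Y i).ρ y₀ (b (y₀⁻¹ * y₁))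

/-- the primitive produced by the prism homotopy, in homogeneous form -/
def Bh (x₀ x₁ : G) : Y i :=
  bh i b (R.θ x₀) (R.θ x₁) - S.psi i f2 x₀ (r i (R.θ x₀)) (r i (R.θ x₁))
    + S.psi i f2 x₀ x₁ (r i (R.θ x₁))

variable {f2 b}

lemma psi_cocycle
    (hcoc : ∀ g h j, J.ρ g (f2 (h, j)) + f2 (g, h * j) = f2 (g * h, j) + f2 (g, h))
    (x₀ x₁ x₂ x₃ : G) :
    S.psi i f2 x₁ x₂ x₃ + S.psi i f2 x₀ x₁ x₃ = S.psi i f2 x₀ x₂ x₃ + S.psi i f2 x₀ x₁ x₂ := by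
  have h := congrArg (fun j => S.fn i j x₀) (hcoc (x₀⁻¹ * x₁) (x₁⁻¹ * x₂) (x₂⁻¹ * x₃))
  simp only [fn_add, fn_ρ] at h
  have e1 : x₀ * (x₀⁻¹ * x₁) = x₁ := by group
  have e2 : x₁⁻¹ * x₂ * (x₂⁻¹ * x₃) = x₁⁻¹ * x₃ := by group
  have e3 : x₀⁻¹ * x₁ * (x₁⁻¹ * x₂) = x₀⁻¹ * x₂ := by group
  rw [e1, e2, e3] at h
  exact h

lemma psi_inv (hU : U.Normal)
    (h1 : ∀ g h, ∀ s ∈ U, ∀ t ∈ U, f2 (g * s, h * t) = f2 (g, h))
    (h2 : ∀ g h, ∀ s ∈ U, J.ρ s (f2 (g, h)) = f2 (g, h))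
    (x₀ x₁ x₂ : G) {u₀ u₁ u₂ : G} (hu₀ : u₀ ∈ U) (hu₁ : u₁ ∈ U) (hu₂ : u₂ ∈ U) :
    S.psi i f2 (x₀ * u₀) (x₁ * u₁) (x₂ * u₂) = S.psi i f2 x₀ x₁ x₂ := by
  unfold psi
  have e1 : (x₀ * u₀)⁻¹ * (x₁ * u₁) =
      (x₀⁻¹ * x₁) * ((x₀⁻¹ * x₁)⁻¹ * u₀⁻¹ * (x₀⁻¹ * x₁)⁻¹⁻¹ * u₁) := by group
  have e2 : (x₁ * u₁)⁻¹ * (x₂ * u₂) =
      (x₁⁻¹ * x₂) * ((x₁⁻¹ * x₂)⁻¹ * u₁⁻¹ * (x₁⁻¹ * x₂)⁻¹⁻¹ * u₂) := by group
  rw [e1, e2, h1 _ _ _ (U.mul_mem (hU.conj_mem _ (U.inv_mem hu₀) _) hu₁) _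
    (U.mul_mem (hU.conj_mem _ (U.inv_mem hu₁) _) hu₂)]
  exact S.fn_mul_of_fixed i (h2 _ _ u₀ hu₀) x₀

lemma psi_inv₀ (hU : U.Normal)
    (h1 : ∀ g h, ∀ s ∈ U, ∀ t ∈ U, f2 (g * s, h * t) = f2 (g, h))
    (h2 : ∀ g h, ∀ s ∈ U, J.ρ s (f2 (g, h)) = f2 (g, h))
    (x₀ x₁ x₂ : G) {u : G} (hu : u ∈ U) : S.psi i f2 (x₀ * u) x₁ x₂ = S.psi i f2 x₀ x₁ x₂ := by
  have := S.psi_inv i hU h1 h2 x₀ x₁ x₂ hu U.one_mem U.one_mem
  rwa [mul_one, mul_one] at this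

lemma psi_inv₁ (hU : U.Normal)
    (h1 : ∀ g h, ∀ s ∈ U, ∀ t ∈ U, f2 (g * s, h * t) = f2 (g, h))
    (h2 : ∀ g h, ∀ s ∈ U, J.ρ s (f2 (g, h)) = f2 (g, h))
    (x₀ x₁ x₂ : G) {u : G} (hu : u ∈ U) : S.psi i f2 x₀ (x₁ * u) x₂ = S.psi i f2 x₀ x₁ x₂ := by
  have := S.psi_inv i hU h1 h2 x₀ x₁ x₂ U.one_mem hu U.one_mem
  rwa [mul_one, mul_one] at this

lemma psi_inv₂ (hU : U.Normal)
    (h1 : ∀ g h, ∀ s ∈ U, ∀ t ∈ U, f2 (g * s, h * t) = f2 (g, h))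
    (h2 : ∀ g h, ∀ s ∈ U, J.ρ s (f2 (g, h)) = f2 (g, h))
    (x₀ x₁ x₂ : G) {u : G} (hu : u ∈ U) : S.psi i f2 x₀ x₁ (x₂ * u) = S.psi i f2 x₀ x₁ x₂ := by
  have := S.psi_inv i hU h1 h2 x₀ x₁ x₂ U.one_mem U.one_mem hu
  rwa [mul_one, mul_one] at this

lemma psi_equivariant (d : D i) (x₀ x₁ x₂ : G) :
    S.psi i f2 (r i d * x₀) (r i d * x₁) (r i d * x₂) = (Y i).ρ d (S.psi i f2 x₀ x₁ x₂) := by
  unfold psi
  have e1 : (r i d * x₀)⁻¹ * (r i d * x₁) = x₀⁻¹ * x₁ := by group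
  have e2 : (r i d * x₁)⁻¹ * (r i d * x₂) = x₁⁻¹ * x₂ := by group
  rw [e1, e2, fn_equivariant]

lemma psi_r
    (hb : ∀ d d', S.fn i (f2 (r i d, r i d')) 1 = (Y i).ρ d (b d') - b (d * d') + b d)
    (y₀ y₁ y₂ : D i) :
    S.psi i f2 (r i y₀) (r i y₁) (r i y₂) = bh i b y₁ y₂ - bh i b y₀ y₂ + bh i b y₀ y₁ := by
  unfold psi bh
  have e1 : (r i y₀)⁻¹ * r i y₁ = r i (y₀⁻¹ * y₁) := by rw [map_mul, map_inv]
  have e2 : (r i y₁)⁻¹ * r i y₂ = r i (y₁⁻¹ * y₂) := by rw [map_mul, map_inv]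
  have e3 := S.fn_equivariant i (f2 (r i (y₀⁻¹ * y₁), r i (y₁⁻¹ * y₂))) y₀ 1
  rw [mul_one] at e3
  rw [e1, e2, e3, hb, map_add, map_sub, ← Module.End.mul_apply, ← map_mul]
  have e4 : y₀ * (y₀⁻¹ * y₁) = y₁ := by group
  have e5 : y₀⁻¹ * y₁ * (y₁⁻¹ * y₂) = y₀⁻¹ * y₂ := by group
  rw [e4, e5]

lemma bh_equivariant (d y₀ y₁ : D i) : bh i b (d * y₀) (d * y₁) = (Y i).ρ d (bh i b y₀ y₁) := by
  unfold bh
  have e : (d * y₀)⁻¹ * (d * y₁) = y₀⁻¹ * y₁ := by group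
  rw [e, map_mul]; rfl

lemma bh_inv {V : Subgroup (D i)} (hV : V.Normal)
    (hb1 : ∀ x, ∀ v ∈ V, b (x * v) = b x) (hb2 : ∀ x, ∀ v ∈ V, (Y i).ρ v (b x) = b x)
    (y₀ y₁ : D i) {v₀ v₁ : D i} (hv₀ : v₀ ∈ V) (hv₁ : v₁ ∈ V) :
    bh i b (y₀ * v₀) (y₁ * v₁) = bh i b y₀ y₁ := by
  unfold bh
  have e : (y₀ * v₀)⁻¹ * (y₁ * v₁) =
      (y₀⁻¹ * y₁) * ((y₀⁻¹ * y₁)⁻¹ * v₀⁻¹ * (y₀⁻¹ * y₁)⁻¹⁻¹ * v₁) := by group
  rw [e, hb1 _ _ (V.mul_mem (hV.conj_mem _ (V.inv_mem hv₀) _) hv₁), map_mul, Module.End.mul_apply,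
    hb2 _ _ hv₀]

lemma Bh_equivariant (hU : U.Normal)
    (h1 : ∀ g h, ∀ s ∈ U, ∀ t ∈ U, f2 (g * s, h * t) = f2 (g, h))
    (h2 : ∀ g h, ∀ s ∈ U, J.ρ s (f2 (g, h)) = f2 (g, h))
    (hb1 : ∀ x, ∀ v ∈ U.comap (r i), b (x * v) = b x)
    (hb2 : ∀ x, ∀ v ∈ U.comap (r i), (Y i).ρ v (b x) = b x)
    (d : D i) (x₀ x₁ : G) :
    S.Bh i f2 b R (r i d * x₀) (r i d * x₁) = (Y i).ρ d (S.Bh i f2 b R x₀ x₁) := by
  have hV : (U.comap (r i)).Normal := hU.comap (r i)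
  unfold Bh
  -- first term
  have t1 : bh i b (R.θ (r i d * x₀)) (R.θ (r i d * x₁)) =
      (Y i).ρ d (bh i b (R.θ x₀) (R.θ x₁)) := by
    have a1 := R.apply_equiv (fun z => bh i b z (R.θ (r i d * x₁)))
      (fun x v hv => by
        have := bh_inv i hV hb1 hb2 x (R.θ (r i d * x₁)) hv (U.comap (r i)).one_mem
        rwa [mul_one] at this) d x₀
    have a2 := R.apply_equiv (fun z => bh i b (d * R.θ x₀) z)
      (fun x v hv => by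
        have := bh_inv i hV hb1 hb2 (d * R.θ x₀) x (U.comap (r i)).one_mem hv
        rwa [mul_one] at this) d x₁
    exact a1.trans (a2.trans (bh_equivariant i d _ _))
  -- second term
  have t2 : S.psi i f2 (r i d * x₀) (r i (R.θ (r i d * x₀))) (r i (R.θ (r i d * x₁))) =
      (Y i).ρ d (S.psi i f2 x₀ (r i (R.θ x₀)) (r i (R.θ x₁))) := by
    have a1 := R.apply_equiv (fun z => S.psi i f2 (r i d * x₀) (r i z) (r i (R.θ (r i d * x₁))))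
      (fun x v hv => by
        show S.psi i f2 _ (r i (x * v)) _ = S.psi i f2 _ (r i x) _
        rw [map_mul (r i) x v]
        exact S.psi_inv₁ i hU h1 h2 _ _ _ hv) d x₀
    have a2 := R.apply_equiv (fun z => S.psi i f2 (r i d * x₀) (r i (d * R.θ x₀)) (r i z))
      (fun x v hv => by
        show S.psi i f2 _ _ (r i (x * v)) = S.psi i f2 _ _ (r i x)
        rw [map_mul (r i) x v]
        exact S.psi_inv₂ i hU h1 h2 _ _ _ hv) d x₁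
    refine a1.trans (a2.trans ?_)
    show S.psi i f2 (r i d * x₀) (r i (d * R.θ x₀)) (r i (d * R.θ x₁)) = _
    rw [map_mul, map_mul, psi_equivariant]
  -- third term
  have t3 : S.psi i f2 (r i d * x₀) (r i d * x₁) (r i (R.θ (r i d * x₁))) =
      (Y i).ρ d (S.psi i f2 x₀ x₁ (r i (R.θ x₁))) := by
    have a1 := R.apply_equiv (fun z => S.psi i f2 (r i d * x₀) (r i d * x₁) (r i z))
      (fun x v hv => by
        show S.psi i f2 _ _ (r i (x * v)) = S.psi i f2 _ _ (r i x)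
        rw [map_mul (r i) x v]
        exact S.psi_inv₂ i hU h1 h2 _ _ _ hv) d x₁
    refine a1.trans ?_
    show S.psi i f2 (r i d * x₀) (r i d * x₁) (r i (d * R.θ x₁)) = _
    rw [map_mul, psi_equivariant]
  rw [t1, t2, t3, map_add, map_sub]

lemma Bh_inv (hU : U.Normal)
    (h1 : ∀ g h, ∀ s ∈ U, ∀ t ∈ U, f2 (g * s, h * t) = f2 (g, h))
    (h2 : ∀ g h, ∀ s ∈ U, J.ρ s (f2 (g, h)) = f2 (g, h))
    (x₀ x₁ : G) {u₀ u₁ : G} (hu₀ : u₀ ∈ U) (hu₁ : u₁ ∈ U) :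
    S.Bh i f2 b R (x₀ * u₀) (x₁ * u₁) = S.Bh i f2 b R x₀ x₁ := by
  unfold Bh
  have e := S.psi_inv i hU h1 h2 x₀ x₁ (r i (R.θ x₁)) hu₀ hu₁ U.one_mem
  rw [mul_one] at e
  rw [R.θ_mul_right x₀ u₀ hu₀, R.θ_mul_right x₁ u₁ hu₁, S.psi_inv₀ i hU h1 h2 _ _ _ hu₀, e]

/-- the prism identity: `ψ = d B` in homogeneous form -/
lemma psi_eq_d_Bh
    (hcoc : ∀ g h j, J.ρ g (f2 (h, j)) + f2 (g, h * j) = f2 (g * h, j) + f2 (g, h))
    (hb : ∀ d d', S.fn i (f2 (r i d, r i d')) 1 = (Y i).ρ d (b d') - b (d * d') + b d)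
    (x₀ x₁ x₂ : G) :
    S.psi i f2 x₀ x₁ x₂ = S.Bh i f2 b R x₁ x₂ - S.Bh i f2 b R x₀ x₂ + S.Bh i f2 b R x₀ x₁ := by
  unfold Bh
  have hd := S.psi_r i hb (R.θ x₀) (R.θ x₁) (R.θ x₂)
  have hI := S.psi_cocycle i hcoc x₀ (r i (R.θ x₀)) (r i (R.θ x₁)) (r i (R.θ x₂))
  have hII := S.psi_cocycle i hcoc x₀ x₁ (r i (R.θ x₁)) (r i (R.θ x₂))
  have hIII := S.psi_cocycle i hcoc x₀ x₁ x₂ (r i (R.θ x₂))
  rw [← sub_eq_zero] at hd hI hII hIII ⊢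
  have e : S.psi i f2 x₀ x₁ x₂ -
      (bh i b (R.θ x₁) (R.θ x₂) - S.psi i f2 x₁ (r i (R.θ x₁)) (r i (R.θ x₂)) +
        S.psi i f2 x₁ x₂ (r i (R.θ x₂)) -
      (bh i b (R.θ x₀) (R.θ x₂) - S.psi i f2 x₀ (r i (R.θ x₀)) (r i (R.θ x₂)) +
        S.psi i f2 x₀ x₂ (r i (R.θ x₂))) +
      (bh i b (R.θ x₀) (R.θ x₁) - S.psi i f2 x₀ (r i (R.θ x₀)) (r i (R.θ x₁)) +
        S.psi i f2 x₀ x₁ (r i (R.θ x₁)))) =
      (S.psi i f2 (r i (R.θ x₀)) (r i (R.θ x₁)) (r i (R.θ x₂)) -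
        (bh i b (R.θ x₁) (R.θ x₂) - bh i b (R.θ x₀) (R.θ x₂) + bh i b (R.θ x₀) (R.θ x₁))) -
      (S.psi i f2 (r i (R.θ x₀)) (r i (R.θ x₁)) (r i (R.θ x₂)) +
          S.psi i f2 x₀ (r i (R.θ x₀)) (r i (R.θ x₂)) -
        (S.psi i f2 x₀ (r i (R.θ x₁)) (r i (R.θ x₂)) +
          S.psi i f2 x₀ (r i (R.θ x₀)) (r i (R.θ x₁)))) +
      (S.psi i f2 x₁ (r i (R.θ x₁)) (r i (R.θ x₂)) + S.psi i f2 x₀ x₁ (r i (R.θ x₂)) -
        (S.psi i f2 x₀ (r i (R.θ x₁)) (r i (R.θ x₂)) + S.psi i f2 x₀ x₁ (r i (R.θ x₁)))) -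
      (S.psi i f2 x₁ x₂ (r i (R.θ x₂)) + S.psi i f2 x₀ x₁ (r i (R.θ x₂)) -
        (S.psi i f2 x₀ x₂ (r i (R.θ x₂)) + S.psi i f2 x₀ x₁ x₂)) := by
    abel
  rw [e, hd, hI, hII, hIII]
  simp

end prism

theorem sh_H2_injective [Finite I] (x : (Csm 𝒰 J).H 2) (h : ∀ i, (S.sh i).mapH 2 x = 0) :
    x = 0 := by
  obtain ⟨f, hf, rfl⟩ := (Csm 𝒰 J).exists_rep x
  have hcoc := (Csm.d_two_eq_zero_iff f).1 hf
  have h1 : ∀ i, ∃ β : (Csm (𝒰.comap (r i)) (Y i)).X 1,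
      (Csm (𝒰.comap (r i)) (Y i)).d 1 β = (S.sh i).f 2 f := fun i => by
    have := h i
    rwa [Cpx.Hom.mapH_cl, Cpx.cl_succ_eq_zero_iff] at this
  choose β hβ using h1
  have hb : ∀ i d d', S.fn i (Csm.fn₂ f (r i d, r i d')) 1 =
      (Y i).ρ d (Csm.fn₁ (β i) d') - Csm.fn₁ (β i) (d * d') + Csm.fn₁ (β i) d := fun i d d' => by
    rw [← fn₂_sh, ← hβ i, Csm.fn₂_d]
  -- a common level
  obtain ⟨U₁, hU₁, hlev⟩ := exists_common_level 𝒰 r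
    (fun i V => (∀ x, ∀ v ∈ V, Csm.fn₁ (β i) (x * v) = Csm.fn₁ (β i) x) ∧
      ∀ x, ∀ v ∈ V, (Y i).ρ v (Csm.fn₁ (β i) x) = Csm.fn₁ (β i) x)
    (fun i V V' hle h => ⟨fun x v hv => h.1 x v (hle hv), fun x v hv => h.2 x v (hle hv)⟩)
    (fun i => Csm.isSm₁_fn₁ (β i))
  obtain ⟨U₀, hU₀, hf1, hf2⟩ := Csm.isSm₂_fn₂ f
  obtain ⟨U, hU, hle⟩ := 𝒰.directed U₀ hU₀ U₁ hU₁
  have hN : U.Normal := 𝒰.normal U hU
  have hf1' : ∀ g h, ∀ s ∈ U, ∀ t ∈ U, Csm.fn₂ f (g * s, h * t) = Csm.fn₂ f (g, h) :=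
    fun g h s hs t ht => hf1 g h s ((hle.trans inf_le_left) hs) t ((hle.trans inf_le_left) ht)
  have hf2' : ∀ g h, ∀ s ∈ U, J.ρ s (Csm.fn₂ f (g, h)) = Csm.fn₂ f (g, h) :=
    fun g h s hs => hf2 g h s ((hle.trans inf_le_left) hs)
  have hb1 : ∀ i x, ∀ v ∈ U.comap (r i), Csm.fn₁ (β i) (x * v) = Csm.fn₁ (β i) x :=
    fun i x v hv => (hlev i).1 x v (Subgroup.comap_mono (hle.trans inf_le_right) hv)
  have hb2 : ∀ i x, ∀ v ∈ U.comap (r i), (Y i).ρ v (Csm.fn₁ (β i) x) = Csm.fn₁ (β i) x :=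
    fun i x v hv => (hlev i).2 x v (Subgroup.comap_mono (hle.trans inf_le_right) hv)
  have R : ∀ i, Retr (r i) U := fun i => Classical.choice (Retr.exists_retr (r i) U)
  have hconj : ∀ g γ : G, ∀ u ∈ U, g * u * γ = g * γ * (γ⁻¹ * u * γ⁻¹⁻¹) := fun g γ u _ => by group
  -- the primitive
  let B : G → J := fun γ =>
    S.ofFn (fun i g => S.Bh i (Csm.fn₂ f) (Csm.fn₁ (β i)) (R i) g (g * γ))
      (fun i d g => by
        show S.Bh i _ _ (R i) (r i d * g) (r i d * g * γ) = _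
        rw [mul_assoc]
        exact S.Bh_equivariant i (R i) hN hf1' hf2' (hb1 i) (hb2 i) d g (g * γ))
      ⟨U, hU, fun i g u hu => by
        show S.Bh i _ _ (R i) (g * u) (g * u * γ) = S.Bh i _ _ (R i) g (g * γ)
        rw [hconj g γ u hu]
        exact S.Bh_inv i (R i) hN hf1' hf2' g (g * γ) hu (hN.conj_mem u hu γ⁻¹)⟩
  have hB : ∀ γ i g, S.fn i (B γ) g = S.Bh i (Csm.fn₂ f) (Csm.fn₁ (β i)) (R i) g (g * γ) :=
    fun γ i g => S.fn_ofFn _ _ _ i g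
  have hBsm : Csm.IsSm₁ 𝒰 J B := by
    refine ⟨U, hU, fun γ u hu => S.ext fun i g => ?_, fun γ u hu => S.ρ_eq_self_of_fn fun i g => ?_⟩
    · rw [hB, hB, ← mul_assoc]
      have := S.Bh_inv i (b := Csm.fn₁ (β i)) (R i) hN hf1' hf2' g (g * γ) U.one_mem hu
      rwa [mul_one] at this
    · rw [hB, hB, hconj g γ u hu]
      exact S.Bh_inv i (R i) hN hf1' hf2' g (g * γ) hu (hN.conj_mem u hu γ⁻¹)
  rw [Cpx.cl_succ_eq_zero_iff]
  refine ⟨Csm.mk₁ B hBsm, ?_⟩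
  apply Csm.ext₂
  funext ⟨γ₁, γ₂⟩
  rw [Csm.fn₂_d, Csm.fn₁_mk₁]
  refine S.ext fun i g => ?_
  rw [fn_add, fn_sub, fn_ρ, hB, hB, hB]
  have key := S.psi_eq_d_Bh i (R i) hcoc (hb i) g (g * γ₁) (g * γ₁ * γ₂)
  have e1 : g⁻¹ * (g * γ₁) = γ₁ := by group
  have e2 : (g * γ₁)⁻¹ * (g * γ₁ * γ₂) = γ₂ := by group
  unfold psi at key
  rw [e1, e2] at key
  rw [key, mul_assoc]

end SmCoind

end Fermat.Agent.S55lib
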