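/-
S55lib / Cpx / Shapiro3  (helper7).

Shapiro's lemma in degree 3: for a smooth coinduction `S : SmCoind 𝒰 D r Y J` over a finite family,
`H³(G, J) → ∏ H³(D i, Y i)` is injective (`SmCoind.sh_H3_injective`).  Same prism homotopy as in
`Cpx/Shapiro.lean`, one degree up; the 3-cocycle identity is derived by hand from Mathlib's formula
for the inhomogeneous differential.
-/
import Fermat.Agent.S55lib.Cpx.Shapiro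

set_option autoImplicit false

noncomputable section

namespace Fermat.Agent.S55lib

universe u

open groupCohomology

/-! ### Degree 3 complements -/

namespace Csm

variable {k G : Type u} [CommRing k] [Group G] {𝒰 : OpenBasis G} {A : Rep.{u} k G}

lemma isSm₃_fn₃ (x : (Csm 𝒰 A).X 3) : IsSm₃ 𝒰 A (fn₃ x) := by
  obtain ⟨U, hU, h1, h2⟩ := x.2
  refine ⟨U, hU, fun g h j s hs t ht r hr => ?_, fun g h j s hs => ?_⟩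
  · rw [fn₃_apply, fn₃_apply]
    have := h1 ![g, h, j] ![s, t, r] (fun i => by fin_cases i <;> simpa)
    have e : ![g * s, h * t, j * r] = ![g, h, j] * ![s, t, r] := by
      funext i; fin_cases i <;> rfl
    rw [e, this]
  · rw [fn₃_apply]
    exact h2 _ s hs

/-- the 3-cocycle identity -/
lemma d_three_eq_zero {x : (Csm 𝒰 A).X 3} (hx : (Csm 𝒰 A).d 3 x = 0) (g₀ g₁ g₂ g₃ : G) :
    A.ρ g₀ (fn₃ x (g₁, g₂, g₃)) + fn₃ x (g₀, g₁ * g₂, g₃) + fn₃ x (g₀, g₁, g₂) =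
      fn₃ x (g₀ * g₁, g₂, g₃) + fn₃ x (g₀, g₁, g₂ * g₃) := by
  have h := congrFun (congrArg Subtype.val hx) ![g₀, g₁, g₂, g₃]
  rw [Csm.d_val, dLin_apply] at h
  have c0 : Fin.contractNth (0 : Fin 4) (· * ·) ![g₀, g₁, g₂, g₃] = ![g₀ * g₁, g₂, g₃] := by
    funext i; fin_cases i <;> simp [Fin.contractNth]
  have c1 : Fin.contractNth (1 : Fin 4) (· * ·) ![g₀, g₁, g₂, g₃] = ![g₀, g₁ * g₂, g₃] := by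
    funext i; fin_cases i <;> simp [Fin.contractNth]
  have c2 : Fin.contractNth (2 : Fin 4) (· * ·) ![g₀, g₁, g₂, g₃] = ![g₀, g₁, g₂ * g₃] := by
    funext i; fin_cases i <;> simp [Fin.contractNth]
  have c3 : Fin.contractNth (3 : Fin 4) (· * ·) ![g₀, g₁, g₂, g₃] = ![g₀, g₁, g₂] := by
    funext i; fin_cases i <;> simp [Fin.contractNth]
  have cs : (fun i : Fin 3 => ![g₀, g₁, g₂, g₃] i.succ) = ![g₁, g₂, g₃] := by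
    funext i; fin_cases i <;> rfl
  rw [Fin.sum_univ_four, c0, c1, c2, c3, cs, ← fn₃_apply, ← fn₃_apply, ← fn₃_apply, ← fn₃_apply,
    ← fn₃_apply] at h
  have z : (0 : (Csm 𝒰 A).X 4).1 ![g₀, g₁, g₂, g₃] = 0 := rfl
  rw [z] at h
  have h' : A.ρ g₀ (fn₃ x (g₁, g₂, g₃)) + (-fn₃ x (g₀ * g₁, g₂, g₃) + fn₃ x (g₀, g₁ * g₂, g₃) +
      -fn₃ x (g₀, g₁, g₂ * g₃) + fn₃ x (g₀, g₁, g₂)) = 0 := by
    rw [← h]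
    norm_num [pow_succ]
  rw [← sub_eq_zero]
  rw [← h']
  abel

variable {G' : Type u} [Group G']
  {𝒰' : OpenBasis G'} {f : G' →* G} (hf : 𝒰.IsCont 𝒰' f) {B : Rep.{u} k G'}
  (φ : Rep.res f A ⟶ B)

lemma fn₃_mapG (x : (Csm 𝒰 A).X 3) (d d' d'' : G') :
    fn₃ ((mapG hf φ).f 3 x) (d, d', d'') = φ.hom (fn₃ x (f d, f d', f d'') : A) := by
  rw [fn₃_apply, fn₃_apply, mapG_val]
  have : f ∘ ![d, d', d''] = ![f d, f d', f d''] := by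
    funext i
    fin_cases i <;> rfl
  rw [this]

end Csm

namespace Retr

variable {G D : Type u} [Group G] [Group D] {r : D →* G} {U : Subgroup G} (R : Retr r U)

lemma θ_equiv' (d : D) (g : G) : ∃ v ∈ U.comap r, R.θ (r d * g) = d * R.θ g * v :=
  ⟨(d * R.θ g)⁻¹ * R.θ (r d * g), R.θ_equiv d g, by group⟩

end Retr

namespace SmCoind

variable {k G : Type u} [CommRing k] [Group G] {𝒰 : OpenBasis G} {I : Type u}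
  {D : I → Type u} [∀ i, Group (D i)] {r : ∀ i, D i →* G} {Y : ∀ i, Rep.{u} k (D i)}
  {J : Rep.{u} k G} (S : SmCoind 𝒰 D r Y J)

lemma fn₃_sh (i : I) (x : (Csm 𝒰 J).X 3) (d d' d'' : D i) :
    Csm.fn₃ ((S.sh i).f 3 x) (d, d', d'') = S.fn i (Csm.fn₃ x (r i d, r i d', r i d'')) 1 := by
  rw [fn_one]; exact Csm.fn₃_mapG _ _ x d d' d''

/-! ### Degree 3: the prism homotopy -/

section prism3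

variable (i : I) (f3 : G × G × G → J) (b : D i × D i → Y i) {U : Subgroup G} (R : Retr (r i) U)

/-- the homogeneous form of a 3-cochain, evaluated -/
def psi3 (x₀ x₁ x₂ x₃ : G) : Y i := S.fn i (f3 (x₀⁻¹ * x₁, x₁⁻¹ * x₂, x₂⁻¹ * x₃)) x₀

/-- the homogeneous form of a 2-cochain on `D i` -/
def bh2 (y₀ y₁ y₂ : D i) : Y i := (Y i).ρ y₀ (b (y₀⁻¹ * y₁, y₁⁻¹ * y₂))

/-- the primitive produced by the prism homotopy, in homogeneous form -/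
def Bh3 (x₀ x₁ x₂ : G) : Y i :=
  bh2 i b (R.θ x₀) (R.θ x₁) (R.θ x₂)
    - S.psi3 i f3 x₀ (r i (R.θ x₀)) (r i (R.θ x₁)) (r i (R.θ x₂))
    + S.psi3 i f3 x₀ x₁ (r i (R.θ x₁)) (r i (R.θ x₂))
    - S.psi3 i f3 x₀ x₁ x₂ (r i (R.θ x₂))

variable {f3 b}

lemma psi3_cocycle
    (hcoc : ∀ g₀ g₁ g₂ g₃, J.ρ g₀ (f3 (g₁, g₂, g₃)) + f3 (g₀, g₁ * g₂, g₃) + f3 (g₀, g₁, g₂) =
      f3 (g₀ * g₁, g₂, g₃) + f3 (g₀, g₁, g₂ * g₃))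
    (x₀ x₁ x₂ x₃ x₄ : G) :
    S.psi3 i f3 x₁ x₂ x₃ x₄ + S.psi3 i f3 x₀ x₁ x₃ x₄ + S.psi3 i f3 x₀ x₁ x₂ x₃ =
      S.psi3 i f3 x₀ x₂ x₃ x₄ + S.psi3 i f3 x₀ x₁ x₂ x₄ := by
  have h := congrArg (fun j => S.fn i j x₀)
    (hcoc (x₀⁻¹ * x₁) (x₁⁻¹ * x₂) (x₂⁻¹ * x₃) (x₃⁻¹ * x₄))
  simp only [fn_add, fn_ρ] at h
  have e1 : x₀ * (x₀⁻¹ * x₁) = x₁ := by group
  have e2 : x₁⁻¹ * x₂ * (x₂⁻¹ * x₃) = x₁⁻¹ * x₃ := by group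
  have e3 : x₀⁻¹ * x₁ * (x₁⁻¹ * x₂) = x₀⁻¹ * x₂ := by group
  have e4 : x₂⁻¹ * x₃ * (x₃⁻¹ * x₄) = x₂⁻¹ * x₄ := by group
  rw [e1, e2, e3, e4] at h
  exact h

lemma psi3_inv (hU : U.Normal)
    (h1 : ∀ g h j, ∀ s ∈ U, ∀ t ∈ U, ∀ w ∈ U, f3 (g * s, h * t, j * w) = f3 (g, h, j))
    (h2 : ∀ g h j, ∀ s ∈ U, J.ρ s (f3 (g, h, j)) = f3 (g, h, j))
    (x₀ x₁ x₂ x₃ : G) {u₀ u₁ u₂ u₃ : G} (hu₀ : u₀ ∈ U) (hu₁ : u₁ ∈ U) (hu₂ : u₂ ∈ U)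
    (hu₃ : u₃ ∈ U) :
    S.psi3 i f3 (x₀ * u₀) (x₁ * u₁) (x₂ * u₂) (x₃ * u₃) = S.psi3 i f3 x₀ x₁ x₂ x₃ := by
  unfold psi3
  have e1 : (x₀ * u₀)⁻¹ * (x₁ * u₁) =
      (x₀⁻¹ * x₁) * ((x₀⁻¹ * x₁)⁻¹ * u₀⁻¹ * (x₀⁻¹ * x₁)⁻¹⁻¹ * u₁) := by group
  have e2 : (x₁ * u₁)⁻¹ * (x₂ * u₂) =
      (x₁⁻¹ * x₂) * ((x₁⁻¹ * x₂)⁻¹ * u₁⁻¹ * (x₁⁻¹ * x₂)⁻¹⁻¹ * u₂) := by group
  have e3 : (x₂ * u₂)⁻¹ * (x₃ * u₃) =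
      (x₂⁻¹ * x₃) * ((x₂⁻¹ * x₃)⁻¹ * u₂⁻¹ * (x₂⁻¹ * x₃)⁻¹⁻¹ * u₃) := by group
  rw [e1, e2, e3, h1 _ _ _ _ (U.mul_mem (hU.conj_mem _ (U.inv_mem hu₀) _) hu₁) _
    (U.mul_mem (hU.conj_mem _ (U.inv_mem hu₁) _) hu₂) _
    (U.mul_mem (hU.conj_mem _ (U.inv_mem hu₂) _) hu₃)]
  exact S.fn_mul_of_fixed i (h2 _ _ _ u₀ hu₀) x₀

lemma psi3_inv₀ (hU : U.Normal)
    (h1 : ∀ g h j, ∀ s ∈ U, ∀ t ∈ U, ∀ w ∈ U, f3 (g * s, h * t, j * w) = f3 (g, h, j))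
    (h2 : ∀ g h j, ∀ s ∈ U, J.ρ s (f3 (g, h, j)) = f3 (g, h, j))
    (x₀ x₁ x₂ x₃ : G) {u₀ : G} (hu₀ : u₀ ∈ U) :
    S.psi3 i f3 (x₀ * u₀) x₁ x₂ x₃ = S.psi3 i f3 x₀ x₁ x₂ x₃ := by
  have := S.psi3_inv i hU h1 h2 x₀ x₁ x₂ x₃ hu₀ U.one_mem U.one_mem U.one_mem
  simpa only [mul_one] using this

lemma psi3_inv₀₁ (hU : U.Normal)
    (h1 : ∀ g h j, ∀ s ∈ U, ∀ t ∈ U, ∀ w ∈ U, f3 (g * s, h * t, j * w) = f3 (g, h, j))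
    (h2 : ∀ g h j, ∀ s ∈ U, J.ρ s (f3 (g, h, j)) = f3 (g, h, j))
    (x₀ x₁ x₂ x₃ : G) {u₀ u₁ : G} (hu₀ : u₀ ∈ U) (hu₁ : u₁ ∈ U) :
    S.psi3 i f3 (x₀ * u₀) (x₁ * u₁) x₂ x₃ = S.psi3 i f3 x₀ x₁ x₂ x₃ := by
  have := S.psi3_inv i hU h1 h2 x₀ x₁ x₂ x₃ hu₀ hu₁ U.one_mem U.one_mem
  simpa only [mul_one] using this

lemma psi3_inv₀₁₂ (hU : U.Normal)
    (h1 : ∀ g h j, ∀ s ∈ U, ∀ t ∈ U, ∀ w ∈ U, f3 (g * s, h * t, j * w) = f3 (g, h, j))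
    (h2 : ∀ g h j, ∀ s ∈ U, J.ρ s (f3 (g, h, j)) = f3 (g, h, j))
    (x₀ x₁ x₂ x₃ : G) {u₀ u₁ u₂ : G} (hu₀ : u₀ ∈ U) (hu₁ : u₁ ∈ U) (hu₂ : u₂ ∈ U) :
    S.psi3 i f3 (x₀ * u₀) (x₁ * u₁) (x₂ * u₂) x₃ = S.psi3 i f3 x₀ x₁ x₂ x₃ := by
  have := S.psi3_inv i hU h1 h2 x₀ x₁ x₂ x₃ hu₀ hu₁ hu₂ U.one_mem
  simpa only [mul_one] using this

lemma psi3_inv₁₂₃ (hU : U.Normal)
    (h1 : ∀ g h j, ∀ s ∈ U, ∀ t ∈ U, ∀ w ∈ U, f3 (g * s, h * t, j * w) = f3 (g, h, j))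
    (h2 : ∀ g h j, ∀ s ∈ U, J.ρ s (f3 (g, h, j)) = f3 (g, h, j))
    (x₀ x₁ x₂ x₃ : G) {u₁ u₂ u₃ : G} (hu₁ : u₁ ∈ U) (hu₂ : u₂ ∈ U) (hu₃ : u₃ ∈ U) :
    S.psi3 i f3 x₀ (x₁ * u₁) (x₂ * u₂) (x₃ * u₃) = S.psi3 i f3 x₀ x₁ x₂ x₃ := by
  have := S.psi3_inv i hU h1 h2 x₀ x₁ x₂ x₃ U.one_mem hu₁ hu₂ hu₃
  simpa only [mul_one] using this

lemma psi3_inv₂₃ (hU : U.Normal)
    (h1 : ∀ g h j, ∀ s ∈ U, ∀ t ∈ U, ∀ w ∈ U, f3 (g * s, h * t, j * w) = f3 (g, h, j))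
    (h2 : ∀ g h j, ∀ s ∈ U, J.ρ s (f3 (g, h, j)) = f3 (g, h, j))
    (x₀ x₁ x₂ x₃ : G) {u₂ u₃ : G} (hu₂ : u₂ ∈ U) (hu₃ : u₃ ∈ U) :
    S.psi3 i f3 x₀ x₁ (x₂ * u₂) (x₃ * u₃) = S.psi3 i f3 x₀ x₁ x₂ x₃ := by
  have := S.psi3_inv i hU h1 h2 x₀ x₁ x₂ x₃ U.one_mem U.one_mem hu₂ hu₃
  simpa only [mul_one] using this

lemma psi3_inv₃ (hU : U.Normal)
    (h1 : ∀ g h j, ∀ s ∈ U, ∀ t ∈ U, ∀ w ∈ U, f3 (g * s, h * t, j * w) = f3 (g, h, j))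
    (h2 : ∀ g h j, ∀ s ∈ U, J.ρ s (f3 (g, h, j)) = f3 (g, h, j))
    (x₀ x₁ x₂ x₃ : G) {u₃ : G} (hu₃ : u₃ ∈ U) :
    S.psi3 i f3 x₀ x₁ x₂ (x₃ * u₃) = S.psi3 i f3 x₀ x₁ x₂ x₃ := by
  have := S.psi3_inv i hU h1 h2 x₀ x₁ x₂ x₃ U.one_mem U.one_mem U.one_mem hu₃
  simpa only [mul_one] using this

lemma psi3_equivariant (d : D i) (x₀ x₁ x₂ x₃ : G) :
    S.psi3 i f3 (r i d * x₀) (r i d * x₁) (r i d * x₂) (r i d * x₃) =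
      (Y i).ρ d (S.psi3 i f3 x₀ x₁ x₂ x₃) := by
  unfold psi3
  have e1 : (r i d * x₀)⁻¹ * (r i d * x₁) = x₀⁻¹ * x₁ := by group
  have e2 : (r i d * x₁)⁻¹ * (r i d * x₂) = x₁⁻¹ * x₂ := by group
  have e3 : (r i d * x₂)⁻¹ * (r i d * x₃) = x₂⁻¹ * x₃ := by group
  rw [e1, e2, e3, fn_equivariant]

lemma psi3_r
    (hb : ∀ d d' d'', S.fn i (f3 (r i d, r i d', r i d'')) 1 =
      (Y i).ρ d (b (d', d'')) - b (d * d', d'') + b (d, d' * d'') - b (d, d'))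
    (y₀ y₁ y₂ y₃ : D i) :
    S.psi3 i f3 (r i y₀) (r i y₁) (r i y₂) (r i y₃) =
      bh2 i b y₁ y₂ y₃ - bh2 i b y₀ y₂ y₃ + bh2 i b y₀ y₁ y₃ - bh2 i b y₀ y₁ y₂ := by
  unfold psi3 bh2
  have e1 : (r i y₀)⁻¹ * r i y₁ = r i (y₀⁻¹ * y₁) := by rw [map_mul, map_inv]
  have e2 : (r i y₁)⁻¹ * r i y₂ = r i (y₁⁻¹ * y₂) := by rw [map_mul, map_inv]
  have e3 : (r i y₂)⁻¹ * r i y₃ = r i (y₂⁻¹ * y₃) := by rw [map_mul, map_inv]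
  have e4 := S.fn_equivariant i
    (f3 (r i (y₀⁻¹ * y₁), r i (y₁⁻¹ * y₂), r i (y₂⁻¹ * y₃))) y₀ 1
  rw [mul_one] at e4
  rw [e1, e2, e3, e4, hb, map_sub, map_add, map_sub, ← Module.End.mul_apply, ← map_mul]
  have e5 : y₀ * (y₀⁻¹ * y₁) = y₁ := by group
  have e6 : y₀⁻¹ * y₁ * (y₁⁻¹ * y₂) = y₀⁻¹ * y₂ := by group
  have e7 : y₁⁻¹ * y₂ * (y₂⁻¹ * y₃) = y₁⁻¹ * y₃ := by group
  rw [e5, e6, e7]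

lemma bh2_equivariant (d y₀ y₁ y₂ : D i) :
    bh2 i b (d * y₀) (d * y₁) (d * y₂) = (Y i).ρ d (bh2 i b y₀ y₁ y₂) := by
  unfold bh2
  have e1 : (d * y₀)⁻¹ * (d * y₁) = y₀⁻¹ * y₁ := by group
  have e2 : (d * y₁)⁻¹ * (d * y₂) = y₁⁻¹ * y₂ := by group
  rw [e1, e2, map_mul]; rfl

lemma bh2_inv {V : Subgroup (D i)} (hV : V.Normal)
    (hb1 : ∀ x y, ∀ v ∈ V, ∀ w ∈ V, b (x * v, y * w) = b (x, y))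
    (hb2 : ∀ x y, ∀ v ∈ V, (Y i).ρ v (b (x, y)) = b (x, y))
    (y₀ y₁ y₂ : D i) {v₀ v₁ v₂ : D i} (hv₀ : v₀ ∈ V) (hv₁ : v₁ ∈ V) (hv₂ : v₂ ∈ V) :
    bh2 i b (y₀ * v₀) (y₁ * v₁) (y₂ * v₂) = bh2 i b y₀ y₁ y₂ := by
  unfold bh2
  have e1 : (y₀ * v₀)⁻¹ * (y₁ * v₁) =
      (y₀⁻¹ * y₁) * ((y₀⁻¹ * y₁)⁻¹ * v₀⁻¹ * (y₀⁻¹ * y₁)⁻¹⁻¹ * v₁) := by group
  have e2 : (y₁ * v₁)⁻¹ * (y₂ * v₂) =
      (y₁⁻¹ * y₂) * ((y₁⁻¹ * y₂)⁻¹ * v₁⁻¹ * (y₁⁻¹ * y₂)⁻¹⁻¹ * v₂) := by group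
  rw [e1, e2, hb1 _ _ _ (V.mul_mem (hV.conj_mem _ (V.inv_mem hv₀) _) hv₁) _
    (V.mul_mem (hV.conj_mem _ (V.inv_mem hv₁) _) hv₂), map_mul, Module.End.mul_apply,
    hb2 _ _ _ hv₀]

lemma Bh3_equivariant (hU : U.Normal)
    (h1 : ∀ g h j, ∀ s ∈ U, ∀ t ∈ U, ∀ w ∈ U, f3 (g * s, h * t, j * w) = f3 (g, h, j))
    (h2 : ∀ g h j, ∀ s ∈ U, J.ρ s (f3 (g, h, j)) = f3 (g, h, j))
    (hb1 : ∀ x y, ∀ v ∈ U.comap (r i), ∀ w ∈ U.comap (r i), b (x * v, y * w) = b (x, y))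
    (hb2 : ∀ x y, ∀ v ∈ U.comap (r i), (Y i).ρ v (b (x, y)) = b (x, y))
    (d : D i) (x₀ x₁ x₂ : G) :
    S.Bh3 i f3 b R (r i d * x₀) (r i d * x₁) (r i d * x₂) =
      (Y i).ρ d (S.Bh3 i f3 b R x₀ x₁ x₂) := by
  have hV : (U.comap (r i)).Normal := hU.comap (r i)
  obtain ⟨v₀, hv₀, e₀⟩ := R.θ_equiv' d x₀
  obtain ⟨v₁, hv₁, e₁⟩ := R.θ_equiv' d x₁
  obtain ⟨v₂, hv₂, e₂⟩ := R.θ_equiv' d x₂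
  unfold Bh3
  rw [e₀, e₁, e₂]
  have t1 : bh2 i b (d * R.θ x₀ * v₀) (d * R.θ x₁ * v₁) (d * R.θ x₂ * v₂) =
      (Y i).ρ d (bh2 i b (R.θ x₀) (R.θ x₁) (R.θ x₂)) := by
    rw [bh2_inv i hV hb1 hb2 _ _ _ hv₀ hv₁ hv₂, bh2_equivariant]
  have t2 : S.psi3 i f3 (r i d * x₀) (r i (d * R.θ x₀ * v₀)) (r i (d * R.θ x₁ * v₁))
      (r i (d * R.θ x₂ * v₂)) =
      (Y i).ρ d (S.psi3 i f3 x₀ (r i (R.θ x₀)) (r i (R.θ x₁)) (r i (R.θ x₂))) := by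
    rw [map_mul (r i) _ v₀, map_mul (r i) _ v₁, map_mul (r i) _ v₂,
      S.psi3_inv₁₂₃ i hU h1 h2 _ _ _ _ hv₀ hv₁ hv₂, map_mul, map_mul, map_mul,
      psi3_equivariant]
  have t3 : S.psi3 i f3 (r i d * x₀) (r i d * x₁) (r i (d * R.θ x₁ * v₁))
      (r i (d * R.θ x₂ * v₂)) =
      (Y i).ρ d (S.psi3 i f3 x₀ x₁ (r i (R.θ x₁)) (r i (R.θ x₂))) := by
    rw [map_mul (r i) _ v₁, map_mul (r i) _ v₂,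
      S.psi3_inv₂₃ i hU h1 h2 _ _ _ _ hv₁ hv₂, map_mul, map_mul, psi3_equivariant]
  have t4 : S.psi3 i f3 (r i d * x₀) (r i d * x₁) (r i d * x₂) (r i (d * R.θ x₂ * v₂)) =
      (Y i).ρ d (S.psi3 i f3 x₀ x₁ x₂ (r i (R.θ x₂))) := by
    rw [map_mul (r i) _ v₂, S.psi3_inv₃ i hU h1 h2 _ _ _ _ hv₂, map_mul, psi3_equivariant]
  rw [t1, t2, t3, t4, map_sub, map_add, map_sub]

lemma Bh3_inv (hU : U.Normal)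
    (h1 : ∀ g h j, ∀ s ∈ U, ∀ t ∈ U, ∀ w ∈ U, f3 (g * s, h * t, j * w) = f3 (g, h, j))
    (h2 : ∀ g h j, ∀ s ∈ U, J.ρ s (f3 (g, h, j)) = f3 (g, h, j))
    (x₀ x₁ x₂ : G) {u₀ u₁ u₂ : G} (hu₀ : u₀ ∈ U) (hu₁ : u₁ ∈ U) (hu₂ : u₂ ∈ U) :
    S.Bh3 i f3 b R (x₀ * u₀) (x₁ * u₁) (x₂ * u₂) = S.Bh3 i f3 b R x₀ x₁ x₂ := by
  unfold Bh3
  rw [R.θ_mul_right x₀ u₀ hu₀, R.θ_mul_right x₁ u₁ hu₁, R.θ_mul_right x₂ u₂ hu₂,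
    S.psi3_inv₀ i hU h1 h2 _ _ _ _ hu₀, S.psi3_inv₀₁ i hU h1 h2 _ _ _ _ hu₀ hu₁,
    S.psi3_inv₀₁₂ i hU h1 h2 _ _ _ _ hu₀ hu₁ hu₂]

/-- the prism identity: `ψ = d B` in homogeneous form -/
lemma psi3_eq_d_Bh3
    (hcoc : ∀ g₀ g₁ g₂ g₃, J.ρ g₀ (f3 (g₁, g₂, g₃)) + f3 (g₀, g₁ * g₂, g₃) + f3 (g₀, g₁, g₂) =
      f3 (g₀ * g₁, g₂, g₃) + f3 (g₀, g₁, g₂ * g₃))
    (hb : ∀ d d' d'', S.fn i (f3 (r i d, r i d', r i d'')) 1 =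
      (Y i).ρ d (b (d', d'')) - b (d * d', d'') + b (d, d' * d'') - b (d, d'))
    (x₀ x₁ x₂ x₃ : G) :
    S.psi3 i f3 x₀ x₁ x₂ x₃ = S.Bh3 i f3 b R x₁ x₂ x₃ - S.Bh3 i f3 b R x₀ x₂ x₃
      + S.Bh3 i f3 b R x₀ x₁ x₃ - S.Bh3 i f3 b R x₀ x₁ x₂ := by
  unfold Bh3
  have hd := S.psi3_r i hb (R.θ x₀) (R.θ x₁) (R.θ x₂) (R.θ x₃)
  have hI0 := S.psi3_cocycle i hcoc x₀ (r i (R.θ x₀)) (r i (R.θ x₁)) (r i (R.θ x₂)) (r i (R.θ x₃))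
  have hI1 := S.psi3_cocycle i hcoc x₀ x₁ (r i (R.θ x₁)) (r i (R.θ x₂)) (r i (R.θ x₃))
  have hI2 := S.psi3_cocycle i hcoc x₀ x₁ x₂ (r i (R.θ x₂)) (r i (R.θ x₃))
  have hI3 := S.psi3_cocycle i hcoc x₀ x₁ x₂ x₃ (r i (R.θ x₃))
  linear_combination (norm := abel) hd - hI0 + hI1 - hI2 + hI3

end prism3

theorem sh_H3_injective [Finite I] (x : (Csm 𝒰 J).H 3) (h : ∀ i, (S.sh i).mapH 3 x = 0) :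
    x = 0 := by
  obtain ⟨f, hf, rfl⟩ := (Csm 𝒰 J).exists_rep x
  have hcoc := Csm.d_three_eq_zero hf
  have h1 : ∀ i, ∃ β : (Csm (𝒰.comap (r i)) (Y i)).X 2,
      (Csm (𝒰.comap (r i)) (Y i)).d 2 β = (S.sh i).f 3 f := fun i => by
    have := h i
    rwa [Cpx.Hom.mapH_cl, Cpx.cl_succ_eq_zero_iff] at this
  choose β hβ using h1
  have hb : ∀ i d d' d'', S.fn i (Csm.fn₃ f (r i d, r i d', r i d'')) 1 =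
      (Y i).ρ d (Csm.fn₂ (β i) (d', d'')) - Csm.fn₂ (β i) (d * d', d'')
        + Csm.fn₂ (β i) (d, d' * d'') - Csm.fn₂ (β i) (d, d') := fun i d d' d'' => by
    rw [← fn₃_sh, ← hβ i, Csm.fn₃_d]
  -- a common level
  obtain ⟨U₁, hU₁, hlev⟩ := exists_common_level 𝒰 r
    (fun i V => (∀ x y, ∀ v ∈ V, ∀ w ∈ V,
        Csm.fn₂ (β i) (x * v, y * w) = Csm.fn₂ (β i) (x, y)) ∧
      ∀ x y, ∀ v ∈ V, (Y i).ρ v (Csm.fn₂ (β i) (x, y)) = Csm.fn₂ (β i) (x, y))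
    (fun i V V' hle h => ⟨fun x y v hv w hw => h.1 x y v (hle hv) w (hle hw),
      fun x y v hv => h.2 x y v (hle hv)⟩)
    (fun i => Csm.isSm₂_fn₂ (β i))
  obtain ⟨U₀, hU₀, hf1, hf2⟩ := Csm.isSm₃_fn₃ f
  obtain ⟨U, hU, hle⟩ := 𝒰.directed U₀ hU₀ U₁ hU₁
  have hN : U.Normal := 𝒰.normal U hU
  have hf1' : ∀ g h j, ∀ s ∈ U, ∀ t ∈ U, ∀ w ∈ U,
      Csm.fn₃ f (g * s, h * t, j * w) = Csm.fn₃ f (g, h, j) :=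
    fun g h j s hs t ht w hw => hf1 g h j s ((hle.trans inf_le_left) hs) t
      ((hle.trans inf_le_left) ht) w ((hle.trans inf_le_left) hw)
  have hf2' : ∀ g h j, ∀ s ∈ U, J.ρ s (Csm.fn₃ f (g, h, j)) = Csm.fn₃ f (g, h, j) :=
    fun g h j s hs => hf2 g h j s ((hle.trans inf_le_left) hs)
  have hb1 : ∀ i x y, ∀ v ∈ U.comap (r i), ∀ w ∈ U.comap (r i),
      Csm.fn₂ (β i) (x * v, y * w) = Csm.fn₂ (β i) (x, y) :=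
    fun i x y v hv w hw => (hlev i).1 x y v (Subgroup.comap_mono (hle.trans inf_le_right) hv) w
      (Subgroup.comap_mono (hle.trans inf_le_right) hw)
  have hb2 : ∀ i x y, ∀ v ∈ U.comap (r i),
      (Y i).ρ v (Csm.fn₂ (β i) (x, y)) = Csm.fn₂ (β i) (x, y) :=
    fun i x y v hv => (hlev i).2 x y v (Subgroup.comap_mono (hle.trans inf_le_right) hv)
  have R : ∀ i, Retr (r i) U := fun i => Classical.choice (Retr.exists_retr (r i) U)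
  have hconj : ∀ g γ : G, ∀ u ∈ U, g * u * γ = g * γ * (γ⁻¹ * u * γ⁻¹⁻¹) := fun g γ u _ => by group
  have hconj2 : ∀ g γ γ' : G, ∀ u ∈ U,
      g * u * γ * γ' = g * γ * γ' * ((γ * γ')⁻¹ * u * (γ * γ')⁻¹⁻¹) := fun g γ γ' u _ => by group
  -- the primitive
  let B : G × G → J := fun γ =>
    S.ofFn (fun i g => S.Bh3 i (Csm.fn₃ f) (Csm.fn₂ (β i)) (R i) g (g * γ.1) (g * γ.1 * γ.2))
      (fun i d g => by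
        show S.Bh3 i _ _ (R i) (r i d * g) (r i d * g * γ.1) (r i d * g * γ.1 * γ.2) = _
        rw [mul_assoc (r i d) g γ.1, mul_assoc (r i d) (g * γ.1) γ.2]
        exact S.Bh3_equivariant i (R i) hN hf1' hf2' (hb1 i) (hb2 i) d g (g * γ.1)
          (g * γ.1 * γ.2))
      ⟨U, hU, fun i g u hu => by
        show S.Bh3 i _ _ (R i) (g * u) (g * u * γ.1) (g * u * γ.1 * γ.2) =
          S.Bh3 i _ _ (R i) g (g * γ.1) (g * γ.1 * γ.2)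
        rw [hconj2 g γ.1 γ.2 u hu, hconj g γ.1 u hu]
        exact S.Bh3_inv i (R i) hN hf1' hf2' g (g * γ.1) (g * γ.1 * γ.2) hu
          (hN.conj_mem u hu γ.1⁻¹) (hN.conj_mem u hu (γ.1 * γ.2)⁻¹)⟩
  have hB : ∀ γ₁ γ₂ i g, S.fn i (B (γ₁, γ₂)) g =
      S.Bh3 i (Csm.fn₃ f) (Csm.fn₂ (β i)) (R i) g (g * γ₁) (g * γ₁ * γ₂) :=
    fun γ₁ γ₂ i g => S.fn_ofFn _ _ _ i g
  have hBsm : Csm.IsSm₂ 𝒰 J B := by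
    refine ⟨U, hU, fun γ₁ γ₂ s hs t ht => S.ext fun i g => ?_,
      fun γ₁ γ₂ u hu => S.ρ_eq_self_of_fn fun i g => ?_⟩
    · rw [hB, hB]
      have e1 : g * (γ₁ * s) = g * γ₁ * s := by group
      have e2 : g * (γ₁ * s) * (γ₂ * t) = g * γ₁ * γ₂ * (γ₂⁻¹ * s * γ₂⁻¹⁻¹ * t) := by group
      rw [e2, e1]
      have := S.Bh3_inv i (b := Csm.fn₂ (β i)) (R i) hN hf1' hf2' g (g * γ₁) (g * γ₁ * γ₂)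
        U.one_mem hs (U.mul_mem (hN.conj_mem s hs γ₂⁻¹) ht)
      rwa [mul_one] at this
    · rw [hB, hB, hconj2 g γ₁ γ₂ u hu, hconj g γ₁ u hu]
      exact S.Bh3_inv i (R i) hN hf1' hf2' g (g * γ₁) (g * γ₁ * γ₂) hu
        (hN.conj_mem u hu γ₁⁻¹) (hN.conj_mem u hu (γ₁ * γ₂)⁻¹)
  rw [Cpx.cl_succ_eq_zero_iff]
  refine ⟨Csm.mk₂ B hBsm, ?_⟩
  apply Csm.ext₃
  funext ⟨γ₁, γ₂, γ₃⟩
  rw [Csm.fn₃_d, Csm.fn₂_mk₂]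
  refine S.ext fun i g => ?_
  rw [fn_sub, fn_add, fn_sub, fn_ρ, hB, hB, hB, hB]
  have key := S.psi3_eq_d_Bh3 i (R i) hcoc (hb i) g (g * γ₁) (g * γ₁ * γ₂) (g * γ₁ * γ₂ * γ₃)
  have e1 : g⁻¹ * (g * γ₁) = γ₁ := by group
  have e2 : (g * γ₁)⁻¹ * (g * γ₁ * γ₂) = γ₂ := by group
  have e3 : (g * γ₁ * γ₂)⁻¹ * (g * γ₁ * γ₂ * γ₃) = γ₃ := by group
  unfold psi3 at key
  rw [e1, e2, e3] at key
  rw [key, mul_assoc g γ₁ γ₂, mul_assoc g γ₁ (γ₂ * γ₃), mul_assoc g (γ₁ * γ₂) γ₃,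
    mul_assoc γ₁ γ₂ γ₃]

end SmCoind

end Fermat.Agent.S55lib
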