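/-
S55lib / Cpx / Level  (helper7).

The bridge between helper4's level classes (`Iface/Smooth.lean`: `LevelClass`, `Sm.IsLC₁`, `Sm.H1`, `Sm.H2`)
and the smooth cochain complexes `Csm 𝒰 A` of the hub:

* `OpenBasis.ofLevel r 𝓛 : OpenBasis G` for `r : G →* G_ℚ`: the subgroups `r⁻¹ Gal(ℚ̄/F)`, `F ∈ 𝓛` normal;
* `isSm_ofLevel_iff : IsSm (ofLevel r 𝓛) A ↔ Sm.IsSmooth r 𝓛 A`;
* `Csm.toSmH1 : (Csm (ofLevel r 𝓛) A).H 1 →ₗ[k] Sm.H1 r 𝓛 A` (bijective), and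
  `Csm.toSmH2 : (Csm (ofLevel r 𝓛) A).H 2 →ₗ[k] Sm.H2 r 𝓛 A` (bijective for smooth `A`);
* compatibility with restriction: `Sm.resH1/resH2` ↔ `Csm.mapG`.
-/
import Fermat.Agent.S55lib.Cpx.Shapiro
import Fermat.Agent.S55lib.Iface.Res

set_option autoImplicit false
set_option linter.style.haveILetI false

noncomputable section

namespace Fermat.Agent.S55lib

open groupCohomology

variable {G : Type} [Group G] (r : G →* GQ) (𝓛 : LevelClass)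

/-- the fixing subgroup of a finite normal subextension is normal of finite index -/
lemma fixingSubgroup_normal (F : FieldQ) [Normal ℚ F] : F.fixingSubgroup.Normal := by
  have h1 : IsGalois ℚ F := ⟨⟩
  have h2 : IsGalois ℚ (AlgebraicClosure ℚ) := ⟨⟩
  exact @IsGalois.fixingSubgroup_normal_of_isGalois ℚ (AlgebraicClosure ℚ) _ _ _ F h2 h1

lemma fixingSubgroup_finiteIndex (F : FieldQ) [FiniteDimensional ℚ F] :
    F.fixingSubgroup.FiniteIndex := by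
  haveI : IsGalois ℚ (AlgebraicClosure ℚ) := ⟨⟩
  refine ⟨?_⟩
  rw [← IntermediateField.finrank_eq_fixingSubgroup_index]
  exact Module.finrank_pos.ne'

/-- the basis of open subgroups `r⁻¹ Gal(ℚ̄/F)`, `F ∈ 𝓛` normal -/
def OpenBasis.ofLevel : OpenBasis G where
  sets := {U | ∃ F : FieldQ, 𝓛.P F ∧ Normal ℚ F ∧ U = F.fixingSubgroup.comap r}
  nonempty := by
    obtain ⟨F', hF', -, hN⟩ := 𝓛.galoisClosure ⊥ 𝓛.bot
    exact ⟨_, F', hF', hN, rfl⟩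
  directed := by
    rintro _ ⟨F, hF, hN, rfl⟩ _ ⟨F', hF', hN', rfl⟩
    refine ⟨(F ⊔ F').fixingSubgroup.comap r, ⟨F ⊔ F', 𝓛.sup F F' hF hF', ?_, rfl⟩, ?_⟩
    · exact @IntermediateField.normal_sup _ _ _ _ _ F F' hN hN'
    · rw [← Subgroup.comap_inf]
      refine Subgroup.comap_mono (le_inf ?_ ?_)
      · exact IntermediateField.fixingSubgroup_antitone le_sup_left
      · exact IntermediateField.fixingSubgroup_antitone le_sup_right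
  normal := by
    rintro _ ⟨F, hF, hN, rfl⟩
    haveI := hN
    exact (fixingSubgroup_normal F).comap r
  finiteIndex := by
    rintro _ ⟨F, hF, hN, rfl⟩
    haveI := 𝓛.finite F hF
    haveI := fixingSubgroup_finiteIndex F
    refine ⟨?_⟩
    rw [Subgroup.index_comap]
    exact (Subgroup.instFiniteIndex_subgroupOf F.fixingSubgroup r.range).index_ne_zero

variable {r 𝓛}

lemma OpenBasis.mem_ofLevel_sets {U : Subgroup G} : U ∈ (OpenBasis.ofLevel r 𝓛).sets ↔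
    ∃ F : FieldQ, 𝓛.P F ∧ Normal ℚ F ∧ U = F.fixingSubgroup.comap r := Iff.rfl

/-- every level contains a basic open subgroup -/
lemma OpenBasis.exists_ofLevel_le {F : FieldQ} (hF : 𝓛.P F) :
    ∃ U ∈ (OpenBasis.ofLevel r 𝓛).sets, U ≤ F.fixingSubgroup.comap r := by
  obtain ⟨F', hF', hle, hN⟩ := 𝓛.galoisClosure F hF
  exact ⟨_, ⟨F', hF', hN, rfl⟩, Subgroup.comap_mono (IntermediateField.fixingSubgroup_antitone hle)⟩

/-! ### Smoothness predicates -/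

section compare

variable {k : Type} [CommRing k] {A : Rep.{0} k G}

lemma isSm_ofLevel_iff : IsSm (OpenBasis.ofLevel r 𝓛) A ↔ Sm.IsSmooth r 𝓛 A := by
  constructor
  · intro h a
    obtain ⟨_, ⟨F, hF, -, rfl⟩, hfix⟩ := h a
    exact ⟨F, hF, fun s hs => hfix s hs⟩
  · intro h a
    obtain ⟨F, hF, hfix⟩ := h a
    obtain ⟨U, hU, hle⟩ := OpenBasis.exists_ofLevel_le (r := r) hF
    exact ⟨U, hU, fun s hs => hfix s (hle hs)⟩

namespace Csm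

lemma isLC₁_of_isSm₁ {c : G → A} (h : IsSm₁ (OpenBasis.ofLevel r 𝓛) A c) : Sm.IsLC₁ r 𝓛 c := by
  obtain ⟨_, ⟨F, hF, -, rfl⟩, h1, -⟩ := h
  exact ⟨F, hF, fun g s hs => h1 g s hs⟩

lemma isLC₂_of_isSm₂ {z : G × G → A} (h : IsSm₂ (OpenBasis.ofLevel r 𝓛) A z) :
    Sm.IsLC₂ r 𝓛 z := by
  obtain ⟨_, ⟨F, hF, -, rfl⟩, h1, -⟩ := h
  exact ⟨F, hF, fun g g' s s' hs hs' => h1 g g' s hs s' hs'⟩

/-- a level-constant 1-cocycle is smooth (its values are automatically fixed by the level) -/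
lemma isSm₁_of_cocycle {c : G → A} (hc : c ∈ cocycles₁ A) (h : Sm.IsLC₁ r 𝓛 c) :
    IsSm₁ (OpenBasis.ofLevel r 𝓛) A c := by
  rw [mem_cocycles₁_iff] at hc
  obtain ⟨F, hF, hinv⟩ := h
  obtain ⟨U, hU, hle⟩ := OpenBasis.exists_ofLevel_le (r := r) hF
  have hN : U.Normal := (OpenBasis.ofLevel r 𝓛).normal U hU
  have hinv' : ∀ g, ∀ s ∈ U, c (g * s) = c g := fun g s hs => hinv g s (hle hs)
  have h1 : c 1 = 0 := by
    have := hc 1 1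
    rw [mul_one, map_one] at this
    simpa using this
  have hU0 : ∀ s ∈ U, c s = 0 := fun s hs => by
    have := hinv' 1 s hs
    rwa [one_mul, h1] at this
  refine ⟨U, hU, hinv', fun g s hs => ?_⟩
  have e : s * g = g * (g⁻¹ * s * g⁻¹⁻¹) := by group
  have h2 := hc s g
  rw [e, hinv' g _ (hN.conj_mem s hs g⁻¹), hU0 s hs, add_zero] at h2
  exact h2.symm

lemma isSm₀_of_coboundary {a : A} (h : Sm.IsLC₁ r 𝓛 ((d₀₁ A).hom a)) :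
    IsSm₀ (OpenBasis.ofLevel r 𝓛) A a := by
  obtain ⟨F, hF, hinv⟩ := h
  obtain ⟨U, hU, hle⟩ := OpenBasis.exists_ofLevel_le (r := r) hF
  refine ⟨U, hU, fun s hs => ?_⟩
  have := hinv 1 s (hle hs)
  rw [one_mul, d₀₁_hom_apply, d₀₁_hom_apply, map_one] at this
  simpa [sub_eq_zero] using this

lemma isSm₁_of_isLC₁ (hA : Sm.IsSmooth r 𝓛 A) {c : G → A} (h : Sm.IsLC₁ r 𝓛 c) :
    IsSm₁ (OpenBasis.ofLevel r 𝓛) A c := by
  obtain ⟨F, hF, hinv⟩ := h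
  obtain ⟨U, hU, hle⟩ := OpenBasis.exists_ofLevel_le (r := r) hF
  rw [isSm₁_iff]
  refine isSmCochain_of_isInvR (isSm_ofLevel_iff.2 hA) hU fun g s hs => ?_
  exact hinv (g 0) (s 0) (hle (hs 0))

lemma isSm₂_of_isLC₂ (hA : Sm.IsSmooth r 𝓛 A) {z : G × G → A} (h : Sm.IsLC₂ r 𝓛 z) :
    IsSm₂ (OpenBasis.ofLevel r 𝓛) A z := by
  obtain ⟨F, hF, hinv⟩ := h
  obtain ⟨U, hU, hle⟩ := OpenBasis.exists_ofLevel_le (r := r) hF
  rw [isSm₂_iff]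
  refine isSmCochain_of_isInvR (isSm_ofLevel_iff.2 hA) hU fun g s hs => ?_
  exact hinv (g 0) (g 1) (s 0) (s 1) (hle (hs 0)) (hle (hs 1))

/-! ### Degree 1 -/

variable (r 𝓛 A)

/-- smooth 1-cocycles of the hub as level-constant 1-cocycles -/
def toSmZ1 : (Csm (OpenBasis.ofLevel r 𝓛) A).Z 1 →ₗ[k] Sm.Z1 r 𝓛 A where
  toFun x := ⟨fn₁ x.1, (mem_cocycles₁_iff _).2 ((d_one_eq_zero_iff x.1).1 (Cpx.mem_Z _ |>.1 x.2)),
    isLC₁_of_isSm₁ (isSm₁_fn₁ x.1)⟩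
  map_add' _ _ := rfl
  map_smul' _ _ := rfl

/-- comparison in degree 1 -/
def toSmH1 : (Csm (OpenBasis.ofLevel r 𝓛) A).H 1 →ₗ[k] Sm.H1 r 𝓛 A :=
  Submodule.mapQ _ _ (toSmZ1 r 𝓛 A) (by
    rintro ⟨x, hx⟩ hx'
    obtain ⟨y, rfl⟩ := (Cpx.mem_B_succ _).1 hx'
    refine ⟨⟨fn₀ y, ?_⟩, isLC₁_of_isSm₁ (isSm₁_fn₁ ((Csm (OpenBasis.ofLevel r 𝓛) A).d 0 y))⟩
    funext g
    show (d₀₁ A).hom (fn₀ y) g = fn₁ ((Csm (OpenBasis.ofLevel r 𝓛) A).d 0 y) g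
    rw [d₀₁_hom_apply, fn₁_d])

variable {r 𝓛 A}

lemma toSmH1_cl (x : (Csm (OpenBasis.ofLevel r 𝓛) A).X 1)
    (hx : (Csm (OpenBasis.ofLevel r 𝓛) A).d 1 x = 0) :
    toSmH1 r 𝓛 A ((Csm (OpenBasis.ofLevel r 𝓛) A).cl x hx) =
      Sm.H1π r 𝓛 A (toSmZ1 r 𝓛 A ⟨x, (Cpx.mem_Z _).2 hx⟩) := rfl

theorem toSmH1_bijective : Function.Bijective (toSmH1 r 𝓛 A) := by
  constructor
  · rw [← LinearMap.ker_eq_bot, LinearMap.ker_eq_bot']
    intro x hx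
    obtain ⟨x0, hx0, rfl⟩ := (Csm (OpenBasis.ofLevel r 𝓛) A).exists_rep x
    rw [toSmH1_cl, Submodule.mkQ_apply, Submodule.Quotient.mk_eq_zero] at hx
    obtain ⟨⟨a, ha⟩, hlc⟩ := hx
    have ha' : (d₀₁ A).hom a = fn₁ x0 := ha
    have hsm : IsSm₀ (OpenBasis.ofLevel r 𝓛) A a := by
      apply isSm₀_of_coboundary
      rw [ha']
      exact isLC₁_of_isSm₁ (isSm₁_fn₁ x0)
    rw [Cpx.cl_succ_eq_zero_iff]
    refine ⟨mk₀ a hsm, ext₁ ?_⟩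
    funext g
    rw [fn₁_d, fn₀_mk₀, ← ha', d₀₁_hom_apply]
  · intro y
    obtain ⟨⟨c, hc, hlc⟩, rfl⟩ := Submodule.mkQ_surjective _ y
    have hsm := isSm₁_of_cocycle hc hlc
    have hd : (Csm (OpenBasis.ofLevel r 𝓛) A).d 1 (mk₁ c hsm) = 0 := by
      rw [d_one_eq_zero_iff, fn₁_mk₁]
      exact (mem_cocycles₁_iff _).1 hc
    refine ⟨(Csm (OpenBasis.ofLevel r 𝓛) A).cl (mk₁ c hsm) hd, ?_⟩
    rw [toSmH1_cl]
    congr 1

/-! ### Degree 2 -/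

variable (r 𝓛 A)

/-- smooth 2-cocycles of the hub as level-constant 2-cocycles -/
def toSmZ2 : (Csm (OpenBasis.ofLevel r 𝓛) A).Z 2 →ₗ[k] Sm.Z2 r 𝓛 A where
  toFun x := ⟨fn₂ x.1, (mem_cocycles₂_iff _).2 fun g h j =>
      ((d_two_eq_zero_iff x.1).1 (Cpx.mem_Z _ |>.1 x.2) g h j).symm,
    isLC₂_of_isSm₂ (isSm₂_fn₂ x.1)⟩
  map_add' _ _ := rfl
  map_smul' _ _ := rfl

/-- comparison in degree 2 -/
def toSmH2 : (Csm (OpenBasis.ofLevel r 𝓛) A).H 2 →ₗ[k] Sm.H2 r 𝓛 A :=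
  Submodule.mapQ _ _ (toSmZ2 r 𝓛 A) (by
    rintro ⟨x, hx⟩ hx'
    obtain ⟨y, rfl⟩ := (Cpx.mem_B_succ _).1 hx'
    refine (Sm.mem_B2_iff r 𝓛 A _).2 ⟨fn₁ y, isLC₁_of_isSm₁ (isSm₁_fn₁ y), ?_⟩
    funext ⟨g, h⟩
    show (d₁₂ A).hom (fn₁ y) (g, h) = fn₂ ((Csm (OpenBasis.ofLevel r 𝓛) A).d 1 y) (g, h)
    rw [d₁₂_hom_apply, fn₂_d])

variable {r 𝓛 A}

lemma toSmH2_cl (x : (Csm (OpenBasis.ofLevel r 𝓛) A).X 2)
    (hx : (Csm (OpenBasis.ofLevel r 𝓛) A).d 2 x = 0) :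
    toSmH2 r 𝓛 A ((Csm (OpenBasis.ofLevel r 𝓛) A).cl x hx) =
      Sm.H2π r 𝓛 A (toSmZ2 r 𝓛 A ⟨x, (Cpx.mem_Z _).2 hx⟩) := rfl

theorem toSmH2_bijective (hA : Sm.IsSmooth r 𝓛 A) : Function.Bijective (toSmH2 r 𝓛 A) := by
  constructor
  · rw [← LinearMap.ker_eq_bot, LinearMap.ker_eq_bot']
    intro x hx
    obtain ⟨x0, hx0, rfl⟩ := (Csm (OpenBasis.ofLevel r 𝓛) A).exists_rep x
    rw [toSmH2_cl, Submodule.mkQ_apply, Submodule.Quotient.mk_eq_zero] at hx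
    obtain ⟨y, hy, hyx⟩ := (Sm.mem_B2_iff r 𝓛 A _).1 hx
    have hyx' : (d₁₂ A).hom y = fn₂ x0 := hyx
    have hsm := isSm₁_of_isLC₁ hA hy
    rw [Cpx.cl_succ_eq_zero_iff]
    refine ⟨mk₁ y hsm, ext₂ ?_⟩
    funext ⟨g, h⟩
    rw [fn₂_d, fn₁_mk₁, ← hyx', d₁₂_hom_apply]
  · intro y
    obtain ⟨⟨z, hz, hlc⟩, rfl⟩ := Submodule.mkQ_surjective _ y
    have hsm := isSm₂_of_isLC₂ hA hlc
    have hd : (Csm (OpenBasis.ofLevel r 𝓛) A).d 2 (mk₂ z hsm) = 0 := by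
      rw [d_two_eq_zero_iff, fn₂_mk₂]
      exact fun g h j => ((mem_cocycles₂_iff _).1 hz g h j).symm
    refine ⟨(Csm (OpenBasis.ofLevel r 𝓛) A).cl (mk₂ z hsm) hd, ?_⟩
    rw [toSmH2_cl]
    congr 1

end Csm

end compare

/-! ### Compatibility with restriction -/

section restriction

variable {G' : Type} [Group G'] (f : G' →* G) {r' : G' →* GQ} (hf : ∀ g, r (f g) = r' g)
  {𝓛' : LevelClass} (h𝓛 : ∀ F, 𝓛.P F → 𝓛'.P F)

include hf h𝓛 in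
lemma OpenBasis.isCont_ofLevel :
    (OpenBasis.ofLevel r 𝓛).IsCont (OpenBasis.ofLevel r' 𝓛') f := by
  rintro _ ⟨F, hF, hN, rfl⟩
  refine ⟨F.fixingSubgroup.comap r', ⟨F, h𝓛 F hF, hN, rfl⟩, fun g hg => ?_⟩
  rw [Subgroup.mem_comap] at hg ⊢
  rw [Subgroup.mem_comap, hf]
  exact hg

variable {k : Type} [CommRing k] (A : Rep.{0} k G)

namespace Csm

/-- restriction along `f` on the hub's smooth cochains -/
def resLevel : Cpx.Hom (Csm (OpenBasis.ofLevel r 𝓛) A) (Csm (OpenBasis.ofLevel r' 𝓛') (Rep.res f A)) :=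
  Csm.mapG (OpenBasis.isCont_ofLevel f hf h𝓛) (CategoryTheory.CategoryStruct.id (Rep.res f A))

lemma toSmH1_resLevel (x : (Csm (OpenBasis.ofLevel r 𝓛) A).H 1) :
    toSmH1 r' 𝓛' (Rep.res f A) ((resLevel f hf h𝓛 A).mapH 1 x) =
      Sm.resH1 f hf h𝓛 A (toSmH1 r 𝓛 A x) := by
  obtain ⟨x0, hx0, rfl⟩ := (Csm (OpenBasis.ofLevel r 𝓛) A).exists_rep x
  rfl

lemma toSmH2_resLevel (x : (Csm (OpenBasis.ofLevel r 𝓛) A).H 2) :
    toSmH2 r' 𝓛' (Rep.res f A) ((resLevel f hf h𝓛 A).mapH 2 x) =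
      Sm.resH2 f hf h𝓛 A (toSmH2 r 𝓛 A x) := by
  obtain ⟨x0, hx0, rfl⟩ := (Csm (OpenBasis.ofLevel r 𝓛) A).exists_rep x
  rw [Cpx.Hom.mapH_cl, toSmH2_cl, toSmH2_cl, Sm.resH2_mk]
  congr 1
  apply Subtype.ext
  funext ⟨g, h⟩
  exact fn₂_mapG _ _ x0 g h

end Csm

end restriction

end Fermat.Agent.S55lib
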