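/-
S55lib / Cpx / Inflate  (helper7) — shared hub of the Poitou–Tate sprint.

Smooth cohomology as a colimit over finite levels.

* `Clv U A` : the complex of cochains of *level `U`* (`U` a normal subgroup): right-`U`-invariant in
  every argument with `U`-fixed values.  `Csm 𝒰 A` is the directed union of the `Clv U A`, `U ∈ 𝒰`
  (`Clv.toCsm`, `Clv.incl`, `Csm.exists_level_cl`, `Csm.exists_level_eq_zero`).
* `Call B` : all inhomogeneous cochains of a group `Γ` with values in `B` (Mathlib's complex as a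
  `Cpx`), and `Clv.infl U A : Call (A.quotientToInvariants U) → Clv U A` (inflation), an isomorphism
  of complexes (`Clv.infl_bijective`), so `Hⁿ(Clv U A) ≅ Hⁿ(G ⧸ U, A^U)`.
-/
import Fermat.Agent.S55lib.Cpx.LowDegree

set_option autoImplicit false

noncomputable section

namespace Fermat.Agent.S55lib

universe u

open groupCohomology

variable {k G : Type u} [CommRing k] [Group G]

/-! ### A morphism of complexes which is bijective in each degree -/

namespace Cpx

variable {K L : Cpx k}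

lemma Hom.mapH_bijective_of_bijective (φ : Hom K L) (hφ : ∀ n, Function.Bijective (φ.f n))
    (n : ℕ) : Function.Bijective (φ.mapH n) := by
  constructor
  · rw [← LinearMap.ker_eq_bot, LinearMap.ker_eq_bot']
    intro x hx
    obtain ⟨a, ha, rfl⟩ := K.exists_rep x
    rw [Hom.mapH_cl, cl_eq_zero_iff] at hx
    rw [cl_eq_zero_iff]
    cases n with
    | zero =>
      rw [mem_B_zero] at hx ⊢
      exact (hφ 0).1 (by rw [hx, map_zero])
    | succ n =>
      obtain ⟨y, hy⟩ := (L.mem_B_succ).1 hx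
      obtain ⟨y', rfl⟩ := (hφ n).2 y
      rw [mem_B_succ]
      exact ⟨y', (hφ (n + 1)).1 (by rw [φ.comm, hy])⟩
  · intro x
    obtain ⟨b, hb, rfl⟩ := L.exists_rep x
    obtain ⟨a, rfl⟩ := (hφ n).2 b
    have ha : K.d n a = 0 := (hφ (n + 1)).1 (by rw [φ.comm, hb, map_zero])
    exact ⟨K.cl a ha, rfl⟩

end Cpx

/-! ### Cochains of a fixed level -/

/-- cochains of level `U` -/
def lvC (U : Subgroup G) (A : Rep.{u} k G) (n : ℕ) : Submodule k ((Fin n → G) → A) where
  carrier := {f | IsInvR U f ∧ ∀ g, ∀ s ∈ U, A.ρ s (f g) = f g}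
  add_mem' := by
    rintro f f' ⟨h1, h2⟩ ⟨h1', h2'⟩
    refine ⟨fun g s hs => ?_, fun g s hs => ?_⟩
    · simp only [Pi.add_apply]; rw [h1 g s hs, h1' g s hs]
    · simp only [Pi.add_apply, map_add]; rw [h2 g s hs, h2' g s hs]
  zero_mem' := ⟨fun _ _ _ => rfl, fun _ _ _ => by simp⟩
  smul_mem' := by
    rintro c f ⟨h1, h2⟩
    refine ⟨fun g s hs => ?_, fun g s hs => ?_⟩
    · simp only [Pi.smul_apply]; rw [h1 g s hs]
    · simp only [Pi.smul_apply, map_smul]; rw [h2 g s hs]

lemma mem_lvC {U : Subgroup G} {A : Rep.{u} k G} {n : ℕ} {f : (Fin n → G) → A} :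
    f ∈ lvC U A n ↔ IsInvR U f ∧ ∀ g, ∀ s ∈ U, A.ρ s (f g) = f g := Iff.rfl

lemma lvC_mono {U U' : Subgroup G} (h : U' ≤ U) (A : Rep.{u} k G) (n : ℕ) :
    lvC U A n ≤ lvC U' A n := fun _ hf => ⟨hf.1.mono h, fun g s hs => hf.2 g s (h hs)⟩

lemma lvC_le_smC {𝒰 : OpenBasis G} {U : Subgroup G} (hU : U ∈ 𝒰.sets) (A : Rep.{u} k G) (n : ℕ) :
    lvC U A n ≤ smC 𝒰 A n := fun _ hf => ⟨U, hU, hf.1, hf.2⟩

lemma dLin_mem_lvC {U : Subgroup G} (hN : U.Normal) {A : Rep.{u} k G} {n : ℕ}
    {f : (Fin n → G) → A} (hf : f ∈ lvC U A n) : dLin A n f ∈ lvC U A (n + 1) := by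
  obtain ⟨h1, h2⟩ := hf
  refine ⟨?_, ?_⟩
  · rw [isInvR_iff]
    intro g g' h
    rw [dLin_apply, dLin_apply]
    congr 1
    · have e : g' 0 = g 0 * ((g 0)⁻¹ * g' 0) := by group
      rw [e, map_mul, Module.End.mul_apply]
      congr 1
      rw [← isInvR_iff.1 h1 (fun i => g i.succ) (fun i => g' i.succ) fun i => h i.succ]
      exact (h2 _ _ (h 0)).symm
    · refine Finset.sum_congr rfl fun j _ => ?_
      rw [isInvR_iff.1 h1 _ _ (contractNth_congr hN g g' h j)]
  · intro g s hs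
    rw [dLin_apply, map_add, map_sum]
    congr 1
    · rw [← Module.End.mul_apply, ← map_mul]
      have e : s * g 0 = g 0 * ((g 0)⁻¹ * s * (g 0)⁻¹⁻¹) := by group
      rw [e, map_mul, Module.End.mul_apply, h2 _ _ (hN.conj_mem _ hs _)]
    · refine Finset.sum_congr rfl fun j _ => ?_
      rw [map_smul, h2 _ _ hs]

/-- The complex of cochains of level `U`. -/
def Clv (U : Subgroup G) (hN : U.Normal) (A : Rep.{u} k G) : Cpx k where
  X := fun n => lvC U A n
  d := fun n => (dLin A n).restrict fun _ hf => dLin_mem_lvC hN hf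
  d_d := by
    intro n x
    apply Subtype.ext
    exact dLin_dLin A n x.1

namespace Clv

variable {U U' : Subgroup G} {hN : U.Normal} {hN' : U'.Normal} {A : Rep.{u} k G}

/-- inclusion into the smooth cochains -/
def toCsm {𝒰 : OpenBasis G} (hU : U ∈ 𝒰.sets) (hN : U.Normal) (A : Rep.{u} k G) :
    Cpx.Hom (Clv U hN A) (Csm 𝒰 A) where
  f := fun n => (LinearMap.id : ((Fin n → G) → A) →ₗ[k] _).restrict (p := lvC U A n)
    (q := smC 𝒰 A n) fun _ hf => lvC_le_smC hU A n hf
  comm := fun _ _ => rfl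

/-- transition maps -/
def incl (h : U' ≤ U) (hN : U.Normal) (hN' : U'.Normal) (A : Rep.{u} k G) :
    Cpx.Hom (Clv U hN A) (Clv U' hN' A) where
  f := fun n => (LinearMap.id : ((Fin n → G) → A) →ₗ[k] _).restrict (p := lvC U A n)
    (q := lvC U' A n) fun _ hf => lvC_mono h A n hf
  comm := fun _ _ => rfl

lemma toCsm_incl {𝒰 : OpenBasis G} (hU : U ∈ 𝒰.sets) (hU' : U' ∈ 𝒰.sets) (h : U' ≤ U) (n : ℕ)
    (x : (Clv U hN A).H n) :
    (toCsm hU' hN' A).mapH n ((incl h hN hN' A).mapH n x) = (toCsm hU hN A).mapH n x := by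
  obtain ⟨a, ha, rfl⟩ := (Clv U hN A).exists_rep x
  rfl

end Clv

namespace Csm

variable {𝒰 : OpenBasis G} {A : Rep.{u} k G}

/-- Every smooth cohomology class comes from some finite level. -/
theorem exists_level_cl {n : ℕ} (x : (Csm 𝒰 A).H n) :
    ∃ (U : Subgroup G) (hU : U ∈ 𝒰.sets) (y : (Clv U (𝒰.normal U hU) A).H n),
      (Clv.toCsm hU (𝒰.normal U hU) A).mapH n y = x := by
  obtain ⟨a, ha, rfl⟩ := (Csm 𝒰 A).exists_rep x
  obtain ⟨U, hU, h1, h2⟩ := a.2
  let a' : (Clv U (𝒰.normal U hU) A).X n := ⟨a.1, h1, h2⟩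
  have ha' : (Clv U (𝒰.normal U hU) A).d n a' = 0 := by
    apply Subtype.ext
    have := congrArg Subtype.val ha
    exact this
  exact ⟨U, hU, (Clv U _ A).cl a' ha', rfl⟩

/-- A class of level `U` which dies in smooth cohomology dies at some deeper level. -/
theorem exists_level_eq_zero {n : ℕ} {U : Subgroup G} (hU : U ∈ 𝒰.sets)
    (y : (Clv U (𝒰.normal U hU) A).H n)
    (hy : (Clv.toCsm hU (𝒰.normal U hU) A).mapH n y = 0) :
    ∃ (U' : Subgroup G) (hU' : U' ∈ 𝒰.sets) (hle : U' ≤ U),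
      (Clv.incl hle (𝒰.normal U hU) (𝒰.normal U' hU') A).mapH n y = 0 := by
  obtain ⟨a, ha, rfl⟩ := (Clv U _ A).exists_rep y
  rw [Cpx.Hom.mapH_cl, Cpx.cl_eq_zero_iff] at hy
  cases n with
  | zero =>
    rw [Cpx.mem_B_zero] at hy
    refine ⟨U, hU, le_rfl, ?_⟩
    rw [Cpx.Hom.mapH_cl, Cpx.cl_zero_eq_zero_iff]
    apply Subtype.ext
    have := congrArg Subtype.val hy
    exact this
  | succ n =>
    obtain ⟨b, hb⟩ := (Cpx.mem_B_succ _).1 hy
    obtain ⟨V, hV, h1, h2⟩ := b.2
    obtain ⟨W, hW, hle⟩ := 𝒰.directed U hU V hV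
    refine ⟨W, hW, hle.trans inf_le_left, ?_⟩
    rw [Cpx.Hom.mapH_cl, Cpx.cl_succ_eq_zero_iff]
    refine ⟨⟨b.1, h1.mono (hle.trans inf_le_right),
      fun g s hs => h2 g s ((hle.trans inf_le_right) hs)⟩, ?_⟩
    apply Subtype.ext
    have := congrArg Subtype.val hb
    exact this

end Csm

/-! ### All cochains of a group, and inflation from `G ⧸ U` -/

/-- Mathlib's complex of inhomogeneous cochains, as a `Cpx`. -/
def Call {Γ : Type u} [Group Γ] (B : Rep.{u} k Γ) : Cpx k where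
  X := fun n => (Fin n → Γ) → B
  d := fun n => dLin B n
  d_d := fun n x => dLin_dLin B n x

namespace Clv

variable (U : Subgroup G) [hN : U.Normal] (A : Rep.{u} k G)

/-- the inclusion `A^U → A` as a morphism `res (mk' U) (A^U) ⟶ A` -/
def liftHom : Rep.res (QuotientGroup.mk' U) (A.quotientToInvariants U) ⟶ A :=
  Rep.ofHom (A.ρ.quotientToInvariants_lift U)

/-- the inflation of a cochain of `G ⧸ U` with values in `A^U` -/
def inflFun (n : ℕ) : ((Fin n → G ⧸ U) → A.quotientToInvariants U) →ₗ[k] ((Fin n → G) → A) :=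
  ((cochainsMap (QuotientGroup.mk' U) (liftHom U A)).f n).hom

lemma inflFun_apply (n : ℕ) (f : (Fin n → G ⧸ U) → A.quotientToInvariants U) (g : Fin n → G) :
    inflFun U A n f g = ((f fun i => (g i : G ⧸ U)) : A) := rfl

lemma inflFun_mem (n : ℕ) (f : (Fin n → G ⧸ U) → A.quotientToInvariants U) :
    inflFun U A n f ∈ lvC U A n := by
  refine ⟨?_, ?_⟩
  · rw [isInvR_iff]
    intro g g' h
    rw [inflFun_apply, inflFun_apply]
    congr 2
    funext i
    exact QuotientGroup.eq.2 (h i)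
  · intro g s hs
    rw [inflFun_apply]
    exact (f fun i => (g i : G ⧸ U)).2 ⟨s, hs⟩

/-- Inflation `C^•(G ⧸ U, A^U) → C^•_{level U}(G, A)`. -/
def infl : Cpx.Hom (Call (A.quotientToInvariants U)) (Clv U hN A) where
  f := fun n => (inflFun U A n).codRestrict (lvC U A n) (inflFun_mem U A n)
  comm := by
    intro n x
    apply Subtype.ext
    have := (cochainsMap (QuotientGroup.mk' U) (liftHom U A)).comm n (n + 1)
    simp only [CochainComplex.of_d] at this
    have h := congrArg (fun ψ => ψ.hom x) this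
    exact h.symm

lemma infl_val (n : ℕ) (f : (Fin n → G ⧸ U) → A.quotientToInvariants U) (g : Fin n → G) :
    ((infl U A).f n f).1 g = ((f fun i => (g i : G ⧸ U)) : A) := rfl

theorem infl_bijective (n : ℕ) : Function.Bijective ((infl U A).f n) := by
  constructor
  · intro f f' h
    funext c
    apply Subtype.ext
    have := congrFun (congrArg Subtype.val h) (fun i => (c i).out)
    rw [infl_val, infl_val] at this
    simpa using this
  · rintro ⟨f, h1, h2⟩
    refine ⟨fun c => ⟨f fun i => (c i).out, fun ⟨s, hs⟩ => h2 _ s hs⟩, ?_⟩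
    apply Subtype.ext
    funext g
    rw [infl_val]
    show f (fun i => ((g i : G ⧸ U)).out) = f g
    refine (isInvR_iff.1 h1 _ _ fun i => ?_).symm
    obtain ⟨h, hh⟩ := QuotientGroup.mk_out_eq_mul U (g i)
    rw [hh]
    simp

/-- `Hⁿ(G ⧸ U, A^U) ≅ Hⁿ` of the level-`U` complex. -/
theorem infl_mapH_bijective (n : ℕ) : Function.Bijective ((infl U A).mapH n) :=
  Cpx.Hom.mapH_bijective_of_bijective _ (infl_bijective U A) n

end Clv

end Fermat.Agent.S55lib
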