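/-
S55lib / Cpx / Bridge  (helper7) — shared hub of the Poitou–Tate sprint.

Bridge between the hand-rolled cohomology `(Call B).H n` of all inhomogeneous cochains and Mathlib's
`groupCohomology B n`:

* `Call.toGC B n : (Call B).H n ≃ₗ[k] groupCohomology B n`,
  `Call.toGC_cl : toGC (cl x hx) = groupCohomology.π B n (cocyclesMk x hx)`;
* naturality with respect to `groupCohomology.map f φ n` (`Call.toGC_map`).

Together with `Clv.infl_mapH_bijective` and `Csm.exists_level_cl / exists_level_eq_zero` this
expresses smooth cohomology as the colimit of Mathlib's cohomology groups `Hⁿ(G ⧸ U, A^U)`.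
-/
import Fermat.Agent.S55lib.Cpx.Inflate

set_option autoImplicit false

noncomputable section

namespace Fermat.Agent.S55lib

universe u

open groupCohomology CategoryTheory

variable {k Γ : Type u} [CommRing k] [Group Γ] (B : Rep.{u} k Γ)

namespace Call

/-- The Mathlib cocycle attached to a cocycle of `Call B`. -/
def mkCocycle {n : ℕ} (x : (Call B).X n) (hx : (Call B).d n x = 0) : cocycles B n :=
  cocyclesMk (A := B) x hx

lemma iCocycles_mkCocycle {n : ℕ} (x : (Call B).X n) (hx : (Call B).d n x = 0) :
    iCocycles B n (mkCocycle B x hx) = x := iCocycles_mk (A := B) x hx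

lemma iCocycles_injective (n : ℕ) : Function.Injective (iCocycles B n) :=
  (ModuleCat.mono_iff_injective _).1 inferInstance

lemma d_iCocycles {n : ℕ} (z : cocycles B n) : (Call B).d n (iCocycles B n z) = 0 := by
  have h := (inhomogeneousCochains B).iCycles_d n (n + 1)
  have h2 := congrArg (fun φ => φ.hom z) h
  simp only [CochainComplex.of_d] at h2
  exact h2

lemma mkCocycle_iCocycles {n : ℕ} (z : cocycles B n) :
    mkCocycle B (iCocycles B n z) (d_iCocycles B z) = z :=
  iCocycles_injective B n (iCocycles_mkCocycle B _ _)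

lemma mkCocycle_add {n : ℕ} (x y : (Call B).X n) (hx : (Call B).d n x = 0)
    (hy : (Call B).d n y = 0) :
    mkCocycle B (x + y) (by rw [map_add, hx, hy, add_zero]) =
      mkCocycle B x hx + mkCocycle B y hy := by
  apply iCocycles_injective B n
  rw [iCocycles_mkCocycle]
  calc x + y = iCocycles B n (mkCocycle B x hx) + iCocycles B n (mkCocycle B y hy) :=
        (congrArg₂ (· + ·) (iCocycles_mkCocycle B x hx) (iCocycles_mkCocycle B y hy)).symm
    _ = iCocycles B n (mkCocycle B x hx + mkCocycle B y hy) := (map_add _ _ _).symm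

lemma mkCocycle_smul {n : ℕ} (c : k) (x : (Call B).X n) (hx : (Call B).d n x = 0) :
    mkCocycle B (c • x) (by rw [map_smul, hx, smul_zero]) = c • mkCocycle B x hx := by
  apply iCocycles_injective B n
  rw [iCocycles_mkCocycle]
  calc c • x = c • iCocycles B n (mkCocycle B x hx) :=
        (congrArg (c • ·) (iCocycles_mkCocycle B x hx)).symm
    _ = iCocycles B n (c • mkCocycle B x hx) := (map_smul _ _ _).symm

/-- `π (mk x) = 0` iff `x` is a coboundary. -/
lemma π_mkCocycle_eq_zero_iff {n : ℕ} (x : (Call B).X n) (hx : (Call B).d n x = 0) :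
    groupCohomology.π B n (mkCocycle B x hx) = 0 ↔ x ∈ (Call B).B n := by
  -- `π` is the cokernel of `toCycles (prev n) n`
  have key : ∀ (i : ℕ) (hi : (ComplexShape.up ℕ).prev n = i) (z : cocycles B n),
      groupCohomology.π B n z = 0 ↔ ∃ y : (Call B).X i, toCocycles B i n y = z := by
    intro i hi z
    have hex := (ShortComplex.mk _ _
      ((inhomogeneousCochains B).toCycles_comp_homologyπ i n)).exact_of_g_is_cokernel
      ((inhomogeneousCochains B).homologyIsCokernel i n hi)
    have this : LinearMap.range (toCocycles B i n).hom =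
        LinearMap.ker (groupCohomology.π B n).hom := hex.moduleCat_range_eq_ker
    constructor
    · intro hz
      have hz' : z ∈ LinearMap.ker (groupCohomology.π B n).hom := hz
      rw [← this] at hz'
      exact hz'
    · rintro ⟨y, rfl⟩
      have hz' : toCocycles B i n y ∈ LinearMap.range (toCocycles B i n).hom := ⟨y, rfl⟩
      rw [this] at hz'
      exact hz'
  cases n with
  | zero =>
    rw [key 0 CochainComplex.prev_nat_zero, Cpx.mem_B_zero]
    constructor
    · rintro ⟨y, hy⟩
      have h1 := congrArg (iCocycles B 0) hy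
      rw [iCocycles_mkCocycle] at h1
      rw [← h1]
      have h2 := congrArg (fun φ => φ.hom y) ((inhomogeneousCochains B).toCycles_i 0 0)
      have h3 : (inhomogeneousCochains B).d 0 0 = 0 :=
        (inhomogeneousCochains B).shape 0 0 (by simp)
      rw [h3] at h2
      exact h2
    · rintro rfl
      refine ⟨(0 : (inhomogeneousCochains B).X 0), ?_⟩
      apply iCocycles_injective B 0
      rw [iCocycles_mkCocycle, map_zero, map_zero]
      rfl
  | succ m =>
    rw [key m (CochainComplex.prev_nat_succ m), Cpx.mem_B_succ]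
    have h2 : ∀ y : (Call B).X m, iCocycles B (m + 1) (toCocycles B m (m + 1) y) =
        (Call B).d m y := by
      intro y
      have h := congrArg (fun φ => φ.hom y) ((inhomogeneousCochains B).toCycles_i m (m + 1))
      simp only [CochainComplex.of_d] at h
      exact h
    constructor
    · rintro ⟨y, hy⟩
      refine ⟨y, ?_⟩
      rw [← h2, hy, iCocycles_mkCocycle]
    · rintro ⟨y, hy⟩
      refine ⟨y, ?_⟩
      apply iCocycles_injective B (m + 1)
      rw [h2, hy, iCocycles_mkCocycle]

/-- The linear map `Zⁿ → Hⁿ(Γ, B)` (Mathlib's). -/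
def zToGC (n : ℕ) : (Call B).Z n →ₗ[k] groupCohomology B n where
  toFun x := groupCohomology.π B n (mkCocycle B x.1 ((Call B).mem_Z.1 x.2))
  map_add' x y := by
    rw [← map_add, ← mkCocycle_add]
    rfl
  map_smul' c x := by
    rw [RingHom.id_apply, ← map_smul, ← mkCocycle_smul]
    rfl

/-- The comparison map `(Call B).H n → groupCohomology B n`. -/
def toGCHom (n : ℕ) : (Call B).H n →ₗ[k] groupCohomology B n :=
  Submodule.liftQ _ (zToGC B n) (by
    intro x hx
    rw [LinearMap.mem_ker]
    exact (π_mkCocycle_eq_zero_iff B x.1 _).2 hx)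

lemma toGCHom_cl {n : ℕ} (x : (Call B).X n) (hx : (Call B).d n x = 0) :
    toGCHom B n ((Call B).cl x hx) = groupCohomology.π B n (mkCocycle B x hx) := rfl

lemma toGCHom_bijective (n : ℕ) : Function.Bijective (toGCHom B n) := by
  constructor
  · rw [← LinearMap.ker_eq_bot, LinearMap.ker_eq_bot']
    intro x hx
    obtain ⟨a, ha, rfl⟩ := (Call B).exists_rep x
    rw [toGCHom_cl, π_mkCocycle_eq_zero_iff] at hx
    exact Cpx.cl_eq_zero_iff.2 hx
  · intro y
    induction y using groupCohomology_induction_on with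
    | h z =>
      refine ⟨(Call B).cl (iCocycles B n z) (d_iCocycles B z), ?_⟩
      rw [toGCHom_cl, mkCocycle_iCocycles]

/-- `(Call B).H n ≃ₗ groupCohomology B n`. -/
def toGC (n : ℕ) : (Call B).H n ≃ₗ[k] groupCohomology B n :=
  LinearEquiv.ofBijective (toGCHom B n) (toGCHom_bijective B n)

@[simp] lemma toGC_cl {n : ℕ} (x : (Call B).X n) (hx : (Call B).d n x = 0) :
    toGC B n ((Call B).cl x hx) = groupCohomology.π B n (mkCocycle B x hx) := rfl

end Call

/-! ### Naturality -/

section naturality

variable {Γ' : Type u} [Group Γ'] {B} {B' : Rep.{u} k Γ'} (f : Γ' →* Γ) (φ : Rep.res f B ⟶ B')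

/-- The map of `Cpx`'s induced by Mathlib's `cochainsMap`. -/
def Call.map : Cpx.Hom (Call B) (Call B') where
  f := fun n => ((cochainsMap f φ).f n).hom
  comm := by
    intro n x
    have := (cochainsMap f φ).comm n (n + 1)
    simp only [CochainComplex.of_d] at this
    have h := congrArg (fun ψ => ψ.hom x) this
    exact h.symm

lemma Call.map_apply (n : ℕ) (x : (Call B).X n) (g : Fin n → Γ') :
    (Call.map f φ).f n x g = φ.hom (x (f ∘ g)) := rfl

/-- Naturality of the comparison with Mathlib's `groupCohomology.map`. -/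
theorem Call.toGC_map (n : ℕ) (x : (Call B).H n) :
    Call.toGC B' n ((Call.map f φ).mapH n x) = groupCohomology.map f φ n (Call.toGC B n x) := by
  obtain ⟨a, ha, rfl⟩ := (Call B).exists_rep x
  rw [Cpx.Hom.mapH_cl, Call.toGC_cl, Call.toGC_cl]
  have h1 := congrArg (fun ψ => ψ.hom (Call.mkCocycle B a ha))
    (HomologicalComplex.homologyπ_naturality (cochainsMap f φ) n)
  refine Eq.trans ?_ h1.symm
  show groupCohomology.π B' n _ = groupCohomology.π B' n _
  congr 1
  apply Call.iCocycles_injective B' n
  rw [Call.iCocycles_mkCocycle]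
  have h2 := congrArg (fun ψ => ψ.hom (Call.mkCocycle B a ha))
    (HomologicalComplex.cyclesMap_i (cochainsMap f φ) n)
  refine Eq.trans ?_ h2.symm
  show _ = ((cochainsMap f φ).f n).hom (iCocycles B n (Call.mkCocycle B a ha))
  rw [Call.iCocycles_mkCocycle]
  rfl

end naturality

/-! ### Low degrees: compatibility with Mathlib's `H1π`, `H2π` -/

section low

lemma Call.d_one_of_cocycles₁ (c : cocycles₁ B) :
    (Call B).d 1 ((cochainsIso₁ B).inv c.1) = 0 := by
  have h := congrArg (fun φ => φ.hom c.1) (eq_d₁₂_comp_inv B)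
  refine Eq.trans h ?_
  show (cochainsIso₂ B).inv.hom ((d₁₂ B).hom c.1) = 0
  have h0 : (d₁₂ B).hom c.1 = 0 := cocycles₁.d₁₂_apply c
  rw [h0, map_zero]

/-- the class of a Mathlib `1`-cocycle -/
theorem Call.toGC_one (c : cocycles₁ B) :
    Call.toGC B 1 ((Call B).cl ((cochainsIso₁ B).inv c.1) (Call.d_one_of_cocycles₁ B c)) =
      H1π B c := by
  rw [Call.toGC_cl]
  show groupCohomology.π B 1 _ = groupCohomology.π B 1 ((isoCocycles₁ B).inv c)
  congr 1
  exact cocyclesMk₁_eq B c

lemma Call.d_two_of_cocycles₂ (c : cocycles₂ B) :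
    (Call B).d 2 ((cochainsIso₂ B).inv c.1) = 0 := by
  have h := congrArg (fun φ => φ.hom c.1) (eq_d₂₃_comp_inv B)
  refine Eq.trans h ?_
  show (cochainsIso₃ B).inv.hom ((d₂₃ B).hom c.1) = 0
  have h0 : (d₂₃ B).hom c.1 = 0 := cocycles₂.d₂₃_apply c
  rw [h0, map_zero]

/-- the class of a Mathlib `2`-cocycle -/
theorem Call.toGC_two (c : cocycles₂ B) :
    Call.toGC B 2 ((Call B).cl ((cochainsIso₂ B).inv c.1) (Call.d_two_of_cocycles₂ B c)) =
      H2π B c := by
  rw [Call.toGC_cl]
  show groupCohomology.π B 2 _ = groupCohomology.π B 2 ((isoCocycles₂ B).inv c)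
  congr 1
  exact cocyclesMk₂_eq B c

end low

end Fermat.Agent.S55lib
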