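/-
S55lib / Cpx / InfRes  (helper7) — shared hub of the Poitou–Tate sprint.

Two topologies on the same group: `𝒰` coarser than `𝒱`.  The inclusion of smooth cochain complexes
`Csm 𝒰 Y → Csm 𝒱 Y` ("inflation from the quotient by `⋂ 𝒰`") is

* injective on `H¹` (always),
* bijective on `H¹` and injective on `H²` as soon as `H¹(U, Y) = 0` for a cofinal family of `U ∈ 𝒰`
  (cocycle form `H1Vanishes 𝒱 Y U`: inflation–restriction in degrees 1 and 2).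
-/
import Fermat.Agent.S55lib.Cpx.LowDegree

set_option autoImplicit false

noncomputable section

namespace Fermat.Agent.S55lib

universe u

variable {k G : Type u} [CommRing k] [Group G]

namespace Csm

/-- `𝒰` is coarser than `𝒱`. -/
def Coarser (𝒰 𝒱 : OpenBasis G) : Prop := ∀ U ∈ 𝒰.sets, ∃ V ∈ 𝒱.sets, V ≤ U

variable {𝒰 𝒱 : OpenBasis G}

lemma isSmCochain_of_coarser (h : Coarser 𝒰 𝒱) {A : Rep.{u} k G} {n : ℕ} {f : (Fin n → G) → A}
    (hf : IsSmCochain 𝒰 A f) : IsSmCochain 𝒱 A f := by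
  obtain ⟨U, hU, h1, h2⟩ := hf
  obtain ⟨V, hV, hVU⟩ := h U hU
  exact ⟨V, hV, h1.mono hVU, fun g s hs => h2 g s (hVU hs)⟩

/-- The inclusion `Csm 𝒰 A → Csm 𝒱 A` for `𝒰` coarser than `𝒱`. -/
def coarsen (h : Coarser 𝒰 𝒱) (A : Rep.{u} k G) : Cpx.Hom (Csm 𝒰 A) (Csm 𝒱 A) where
  f := fun n => (LinearMap.id : ((Fin n → G) → A) →ₗ[k] _).restrict (p := smC 𝒰 A n)
    (q := smC 𝒱 A n) fun _ hf => isSmCochain_of_coarser h hf
  comm := fun _ _ => rfl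

lemma coarsen_val (h : Coarser 𝒰 𝒱) (A : Rep.{u} k G) (n : ℕ) (x : (Csm 𝒰 A).X n) :
    ((coarsen h A).f n x).1 = x.1 := rfl

@[simp] lemma fn₀_coarsen (h : Coarser 𝒰 𝒱) (A : Rep.{u} k G) (x : (Csm 𝒰 A).X 0) :
    fn₀ ((coarsen h A).f 0 x) = fn₀ x := rfl

@[simp] lemma fn₁_coarsen (h : Coarser 𝒰 𝒱) (A : Rep.{u} k G) (x : (Csm 𝒰 A).X 1) :
    fn₁ ((coarsen h A).f 1 x) = fn₁ x := rfl

@[simp] lemma fn₂_coarsen (h : Coarser 𝒰 𝒱) (A : Rep.{u} k G) (x : (Csm 𝒰 A).X 2) :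
    fn₂ ((coarsen h A).f 2 x) = fn₂ x := rfl

/-- "`H¹(U, Y) = 0`" in cocycle form: every `𝒱`-smooth `1`-cochain on `G` whose restriction to `U`
is a cocycle is, on `U`, the coboundary of a `𝒱`-smooth element. -/
def H1Vanishes (𝒱 : OpenBasis G) (Y : Rep.{u} k G) (U : Subgroup G) : Prop :=
  ∀ c : G → Y, IsSm₁ 𝒱 Y c → (∀ s ∈ U, ∀ t ∈ U, c (s * t) = Y.ρ s (c t) + c s) →
    ∃ y : Y, IsSm₀ 𝒱 Y y ∧ ∀ s ∈ U, c s = Y.ρ s y - y

variable (h : Coarser 𝒰 𝒱) (Y : Rep.{u} k G)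

/-- `H⁰` does not depend on the topology. -/
theorem coarsen_H0_bijective : Function.Bijective ((coarsen h Y).mapH 0) := by
  constructor
  · rw [← LinearMap.ker_eq_bot, LinearMap.ker_eq_bot']
    intro x hx
    obtain ⟨a, ha, rfl⟩ := (Csm 𝒰 Y).exists_rep x
    rw [Cpx.Hom.mapH_cl, Cpx.cl_zero_eq_zero_iff] at hx
    rw [Cpx.cl_zero_eq_zero_iff]
    apply Subtype.ext
    have := congrArg Subtype.val hx
    exact this
  · intro x
    obtain ⟨a, ha, rfl⟩ := (Csm 𝒱 Y).exists_rep x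
    have hinv := (d_zero_eq_zero_iff a).1 ha
    obtain ⟨U, hU⟩ := 𝒰.nonempty
    let a' : (Csm 𝒰 Y).X 0 := mk₀ (fn₀ a) ⟨U, hU, fun s _ => hinv s⟩
    have ha' : (Csm 𝒰 Y).d 0 a' = 0 := (d_zero_eq_zero_iff a').2 hinv
    refine ⟨(Csm 𝒰 Y).cl a' ha', ?_⟩
    rw [Cpx.Hom.mapH_cl]
    exact Cpx.cl_congr (Csm 𝒱 Y) (ext₀ (x := (coarsen h Y).f 0 a') (y := a) rfl) _

/-- Inflation is injective on `H¹`. -/
theorem coarsen_H1_injective : Function.Injective ((coarsen h Y).mapH 1) := by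
  rw [← LinearMap.ker_eq_bot, LinearMap.ker_eq_bot']
  intro x hx
  obtain ⟨c, hc, rfl⟩ := (Csm 𝒰 Y).exists_rep x
  rw [Cpx.Hom.mapH_cl, Cpx.cl_succ_eq_zero_iff] at hx
  obtain ⟨y, hy⟩ := hx
  rw [Cpx.cl_succ_eq_zero_iff]
  -- `fn₁ c g = g y - y`
  have hcy : ∀ g, fn₁ c g = Y.ρ g (fn₀ y) - fn₀ y := by
    intro g
    rw [← fn₁_d, hy, fn₁_coarsen]
  obtain ⟨U, hU, h1, _⟩ := isSm₁_fn₁ c
  have hfix : ∀ s ∈ U, Y.ρ s (fn₀ y) = fn₀ y := by
    intro s hs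
    have e1 : fn₁ c (1 * s) = fn₁ c 1 := h1 1 s hs
    rw [one_mul, hcy, hcy, map_one, Module.End.one_apply, sub_self, sub_eq_zero] at e1
    exact e1
  refine ⟨mk₀ (fn₀ y) ⟨U, hU, hfix⟩, ext₁ ?_⟩
  funext g
  rw [fn₁_d, fn₀_mk₀, hcy]

variable {Y}

/-- Key construction: a `𝒱`-smooth cochain `β` which vanishes on `U ∈ 𝒰` and satisfies the two
"semi-cocycle" identities is `𝒰`-smooth. -/
lemma isSm₁_of_vanish {U : Subgroup G} (hU : U ∈ 𝒰.sets) {β : G → Y}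
    (hA : ∀ g, ∀ s ∈ U, β (g * s) = β g) (hB : ∀ g, ∀ s ∈ U, β (s * g) = Y.ρ s (β g)) :
    IsSm₁ 𝒰 Y β := by
  have hN := 𝒰.normal U hU
  refine ⟨U, hU, hA, fun g s hs => ?_⟩
  rw [← hB g s hs]
  have e : s * g = g * (g⁻¹ * s * g⁻¹⁻¹) := by group
  rw [e]
  exact hA g _ (hN.conj_mem s hs g⁻¹)

variable (Y)

/-- Inflation is surjective on `H¹` if `H¹(U, Y) = 0` for some `U ∈ 𝒰`. -/
theorem coarsen_H1_surjective (hH90 : ∃ U ∈ 𝒰.sets, H1Vanishes 𝒱 Y U) :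
    Function.Surjective ((coarsen h Y).mapH 1) := by
  intro x
  obtain ⟨c, hc, rfl⟩ := (Csm 𝒱 Y).exists_rep x
  obtain ⟨U, hU, hvan⟩ := hH90
  have hcoc := (d_one_eq_zero_iff c).1 hc
  obtain ⟨y, hy, hcy⟩ := hvan (fn₁ c) (isSm₁_fn₁ c) (fun s _ t _ => hcoc s t)
  -- `β = c - d y`
  let β : G → Y := fun g => fn₁ c g - (Y.ρ g y - y)
  have hβcoc : ∀ g g', β (g * g') = Y.ρ g (β g') + β g := by
    intro g g'
    simp only [β]
    rw [hcoc g g', map_sub, map_sub, map_mul, Module.End.mul_apply]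
    abel
  have hβU : ∀ s ∈ U, β s = 0 := fun s hs => by
    simp only [β]; rw [hcy s hs, sub_self]
  have hβsm : IsSm₁ 𝒰 Y β := by
    refine isSm₁_of_vanish hU (fun g s hs => ?_) (fun g s hs => ?_)
    · rw [hβcoc, hβU s hs, map_zero, zero_add]
    · rw [hβcoc, hβU s hs, add_zero]
  let b : (Csm 𝒰 Y).X 1 := mk₁ β hβsm
  have hb : (Csm 𝒰 Y).d 1 b = 0 := (d_one_eq_zero_iff b).2 hβcoc
  refine ⟨(Csm 𝒰 Y).cl b hb, ?_⟩
  rw [Cpx.Hom.mapH_cl, Cpx.cl_eq_cl_iff, Cpx.mem_B_succ]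
  refine ⟨-(mk₀ y hy), ext₁ ?_⟩
  funext g
  rw [fn₁_d, fn₀_neg, fn₀_mk₀, fn₁_sub, Pi.sub_apply, fn₁_coarsen, fn₁_mk₁]
  simp only [β]
  rw [map_neg]
  abel

/-- Inflation is injective on `H²` if `H¹(U, Y) = 0` for a cofinal family of `U ∈ 𝒰`. -/
theorem coarsen_H2_injective
    (hH90 : ∀ U ∈ 𝒰.sets, ∃ U' ∈ 𝒰.sets, U' ≤ U ∧ H1Vanishes 𝒱 Y U') :
    Function.Injective ((coarsen h Y).mapH 2) := by
  rw [← LinearMap.ker_eq_bot, LinearMap.ker_eq_bot']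
  intro x hx
  obtain ⟨z, hz, rfl⟩ := (Csm 𝒰 Y).exists_rep x
  rw [Cpx.Hom.mapH_cl, Cpx.cl_succ_eq_zero_iff] at hx
  obtain ⟨b, hb⟩ := hx
  rw [Cpx.cl_succ_eq_zero_iff]
  -- notation
  set Z := fn₂ z with hZ
  set β := fn₁ b with hβ
  have hZβ : ∀ g g', Z (g, g') = Y.ρ g (β g') - β (g * g') + β g := by
    intro g g'
    rw [hZ, ← fn₂_coarsen h Y z, ← hb, fn₂_d]
  have hcoc := (d_two_eq_zero_iff z).1 hz
  obtain ⟨U₀, hU₀, hinv₀, hfix₀⟩ := isSm₂_fn₂ z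
  obtain ⟨U, hU, hUU₀, hvan⟩ := hH90 U₀ hU₀
  have hinv : ∀ g g', ∀ s ∈ U, ∀ t ∈ U, Z (g * s, g' * t) = Z (g, g') :=
    fun g g' s hs t ht => hinv₀ g g' s (hUU₀ hs) t (hUU₀ ht)
  have hfix : ∀ g g', ∀ s ∈ U, Y.ρ s (Z (g, g')) = Z (g, g') :=
    fun g g' s hs => hfix₀ g g' s (hUU₀ hs)
  set a := Z (1, 1) with ha
  have hafix : ∀ s ∈ U, Y.ρ s a = a := fun s hs => hfix 1 1 s hs
  -- `Z (1, g) = a`, `Z (g, 1) = g a`
  have hZ1g : ∀ g, Z (1, g) = a := by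
    intro g
    have := hcoc 1 1 g
    rw [map_one, Module.End.one_apply, one_mul, one_mul] at this
    exact add_left_cancel this
  have hZg1 : ∀ g, Z (g, 1) = Y.ρ g a := by
    intro g
    have := hcoc g 1 1
    rw [mul_one, mul_one] at this
    exact (add_right_cancel this).symm
  -- `β - a` is a cocycle on `U`
  have hcocU : ∀ s ∈ U, ∀ t ∈ U, (fun g => β g - a) (s * t) =
      Y.ρ s ((fun g => β g - a) t) + (fun g => β g - a) s := by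
    intro s hs t ht
    have e1 : Z (s, t) = a := by
      have := hinv 1 1 s hs t ht
      rwa [one_mul, one_mul] at this
    have e2 := hZβ s t
    rw [e1] at e2
    show β (s * t) - a = Y.ρ s (β t - a) + (β s - a)
    rw [map_sub, hafix s hs]
    have : β (s * t) = Y.ρ s (β t) + β s - a := by
      rw [e2]; abel
    rw [this]; abel
  have hsm' : IsSm₁ 𝒱 Y (fun g => β g - a) := by
    obtain ⟨V, hV, h1, h2⟩ := isSm₁_fn₁ b
    rw [← hβ] at h1 h2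
    obtain ⟨V', hV', hV'U⟩ := h U hU
    obtain ⟨W, hW, hle⟩ := 𝒱.directed V hV V' hV'
    refine ⟨W, hW, fun g s hs => ?_, fun g s hs => ?_⟩
    · show β (g * s) - a = β g - a
      rw [h1 g s ((hle.trans inf_le_left) hs)]
    · show Y.ρ s (β g - a) = β g - a
      rw [map_sub, h2 g s ((hle.trans inf_le_left) hs),
        hafix s (hV'U ((hle.trans inf_le_right) hs))]
  obtain ⟨y, hy, hβy⟩ := hvan _ hsm' hcocU
  -- `β₁ = β - a - d y`
  let β₁ : G → Y := fun g => β g - a - (Y.ρ g y - y)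
  have hA : ∀ g, ∀ s ∈ U, β₁ (g * s) = β₁ g := by
    intro g s hs
    have e1 : Z (g, s) = Y.ρ g a := by
      have := hinv g 1 1 (one_mem U) s hs
      rw [mul_one, one_mul] at this
      rw [this, hZg1]
    have e2 := hZβ g s
    rw [e1] at e2
    have e3 : β s = Y.ρ s y - y + a := by
      have := hβy s hs
      rw [← this]; abel
    have e4 : β (g * s) = Y.ρ g (β s) + β g - Y.ρ g a := by
      rw [e2]; abel
    simp only [β₁]
    rw [e4, e3, map_add, map_sub, map_mul, Module.End.mul_apply]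
    abel
  have hB : ∀ g, ∀ s ∈ U, β₁ (s * g) = Y.ρ s (β₁ g) := by
    intro g s hs
    have e1 : Z (s, g) = a := by
      have := hinv 1 g s hs 1 (one_mem U)
      rw [one_mul, mul_one] at this
      rw [this, hZ1g]
    have e2 := hZβ s g
    rw [e1] at e2
    have e3 : β s = Y.ρ s y - y + a := by
      have := hβy s hs
      rw [← this]; abel
    have e4 : β (s * g) = Y.ρ s (β g) + β s - a := by
      rw [e2]; abel
    simp only [β₁]
    rw [e4, e3, map_sub, map_sub, map_sub, hafix s hs, map_mul, Module.End.mul_apply]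
    abel
  have hβ₁sm : IsSm₁ 𝒰 Y β₁ := isSm₁_of_vanish hU hA hB
  have hβ₂sm : IsSm₁ 𝒰 Y (fun g => β₁ g + a) := by
    obtain ⟨W, hW, h1, h2⟩ := hβ₁sm
    obtain ⟨W', hW', hle⟩ := 𝒰.directed W hW U hU
    refine ⟨W', hW', fun g s hs => ?_, fun g s hs => ?_⟩
    · show β₁ (g * s) + a = β₁ g + a
      rw [h1 g s ((hle.trans inf_le_left) hs)]
    · show Y.ρ s (β₁ g + a) = β₁ g + a
      rw [map_add, h2 g s ((hle.trans inf_le_left) hs), hafix s ((hle.trans inf_le_right) hs)]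
  refine ⟨mk₁ _ hβ₂sm, ext₂ ?_⟩
  funext ⟨g, g'⟩
  rw [fn₂_d, fn₁_mk₁]
  show Y.ρ g (β₁ g' + a) - (β₁ (g * g') + a) + (β₁ g + a) = Z (g, g')
  rw [hZβ g g']
  simp only [β₁]
  rw [map_add, map_sub, map_sub, map_sub, map_mul, Module.End.mul_apply]
  abel

end Csm

end Fermat.Agent.S55lib
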