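/-
S55lib / Cpx / H90  (helper7).

* `hilbert90_dedekind` : Hilbert's Theorem 90 in relative, "profinite" form, by Dedekind's independence
  of characters: a group `G` acting on a field `Ω`, subgroups `U₁ ≤ U` with `[U : U₁] < ∞`, and a
  multiplicative subset `L ⊆ Ω` fixed pointwise by `U₁` and separating `U/U₁`; every `1`-cocycle
  `c : U → Ωˣ` which is right-`U₁`-invariant is a coboundary.
* `Csm.H1Vanishes.linHom` : `H¹(U, Y) = 0 ⇒ H¹(U, Hom(P, Y)) = 0` for `P` free of finite rank with trivial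
  `U`-action.
-/
import Fermat.Agent.S55lib.Cpx.InfRes
import Fermat.Agent.S55lib.Cpx.HomRep

set_option autoImplicit false

noncomputable section

namespace Fermat.Agent.S55lib

open scoped BigOperators

/-- **Hilbert 90** (Dedekind independence form). -/
theorem hilbert90_dedekind {Ω : Type*} [Field Ω] {G : Type*} [Group G] [MulSemiringAction G Ω]
    (U U₁ : Subgroup G) [hfin : (U₁.subgroupOf U).FiniteIndex]
    (L : Submonoid Ω)
    (hfix : ∀ u ∈ U₁, ∀ x ∈ L, u • x = x)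
    (hsep : ∀ s ∈ U, (∀ x ∈ L, s • x = x) → s ∈ U₁)
    (c : G → Ω) (hc0 : ∀ s ∈ U, c s ≠ 0)
    (hc : ∀ s ∈ U, ∀ t ∈ U, c (s * t) = c s * s • c t)
    (hinv : ∀ s ∈ U, ∀ u ∈ U₁, u ∈ U → c (s * u) = c s) :
    ∃ b : Ω, b ≠ 0 ∧ ∀ t ∈ U, c t * t • b = b := by
  classical
  let H : Subgroup U := U₁.subgroupOf U
  let _ : Fintype (U ⧸ H) := Subgroup.fintypeQuotientOfFiniteIndex
  let rep : U ⧸ H → U := fun κ => Quotient.out κ
  have hrep : ∀ κ : U ⧸ H, ((rep κ : U) : U ⧸ H) = κ := fun κ => QuotientGroup.out_eq' κ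
  -- the characters
  let χ : U → (L →* Ω) := fun s =>
    { toFun := fun x => (s : G) • (x : Ω)
      map_one' := by simp
      map_mul' := fun x y => by simp [smul_mul'] }
  have hχinj : Function.Injective (fun κ : U ⧸ H => χ (rep κ)) := by
    intro κ κ' h
    rw [← hrep κ, ← hrep κ', QuotientGroup.eq]
    show (((rep κ)⁻¹ * rep κ' : U) : G) ∈ U₁
    apply hsep _ ((rep κ)⁻¹ * rep κ' : U).2
    intro x hx
    have h1 : ((rep κ : U) : G) • x = ((rep κ' : U) : G) • x :=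
      congrArg (fun f : L →* Ω => f ⟨x, hx⟩) h
    show ((((rep κ : U) : G))⁻¹ * ((rep κ' : U) : G)) • x = x
    rw [mul_smul, ← h1, inv_smul_smul]
  have hli : LinearIndependent Ω (fun κ : U ⧸ H => (χ (rep κ) : L → Ω)) :=
    (linearIndependent_monoidHom L Ω).comp _ hχinj
  -- a point where the Poincaré series does not vanish
  have hne : (∑ κ : U ⧸ H, c (rep κ) • (χ (rep κ) : L → Ω)) ≠ 0 := by
    intro h0
    have := Fintype.linearIndependent_iff.1 hli (fun κ => c (rep κ)) h0 ((1 : U) : U ⧸ H)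
    exact hc0 _ (rep ((1 : U) : U ⧸ H)).2 this
  obtain ⟨x, hx⟩ : ∃ x : L, (∑ κ : U ⧸ H, c (rep κ) • (χ (rep κ) : L → Ω)) x ≠ 0 := by
    by_contra hcon
    simp only [not_exists, not_not] at hcon
    exact hne (funext hcon)
  let F : U → Ω := fun s => c s * (s : G) • (x : Ω)
  have hFH : ∀ (s : U) (h : H), F (s * h) = F s := fun s h => by
    show c ((s : G) * (h : U)) * ((s : G) * ((h : U) : G)) • (x : Ω) = c s * (s : G) • (x : Ω)
    have hh : ((h : U) : G) ∈ U₁ := h.2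
    rw [hinv s s.2 _ hh (h : U).2, mul_smul, hfix _ hh _ x.2]
  have hFrep : ∀ s : U, F (rep (s : U ⧸ H)) = F s := fun s => by
    obtain ⟨h, hh⟩ := QuotientGroup.mk_out_eq_mul H s
    show F (Quotient.out (s : U ⧸ H)) = F s
    rw [hh, hFH]
  have hb : (∑ κ : U ⧸ H, c (rep κ) • (χ (rep κ) : L → Ω)) x = ∑ κ : U ⧸ H, F (rep κ) := by
    rw [Finset.sum_apply]
    rfl
  refine ⟨∑ κ : U ⧸ H, F (rep κ), by rwa [← hb], fun t ht => ?_⟩
  have h1 : ∀ κ : U ⧸ H, c t * t • F (rep κ) = F (rep ((⟨t, ht⟩ : U) • κ)) := fun κ => by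
    have e : (⟨t, ht⟩ : U) • κ = (((⟨t, ht⟩ : U) * rep κ : U) : U ⧸ H) := by
      conv_lhs => rw [← hrep κ]
      rfl
    rw [e, hFrep]
    show c t * t • (c (rep κ) * ((rep κ : U) : G) • (x : Ω)) =
      c (t * ((rep κ : U) : G)) * (t * ((rep κ : U) : G)) • (x : Ω)
    rw [hc t ht _ (rep κ).2, smul_mul', mul_smul, mul_assoc]
  rw [Finset.smul_sum, Finset.mul_sum]
  rw [Finset.sum_congr rfl (fun κ _ => h1 κ)]
  exact Equiv.sum_comp (MulAction.toPerm (⟨t, ht⟩ : U)) (fun κ => F (rep κ))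

namespace Csm

universe u

variable {k G : Type u} [CommRing k] [Group G]

/-- `H¹(U, Y) = 0 ⇒ H¹(U, Hom(P, Y)) = 0` for `P` free of finite rank with trivial `U`-action -/
theorem H1Vanishes.linHom {𝒱 : OpenBasis G} {P Y : Rep.{u} k G} [Module.Finite k P]
    [Module.Free k P] (hPsm : IsSm 𝒱 P) (hYsm : IsSm 𝒱 Y) {U : Subgroup G}
    (hPU : ∀ s ∈ U, ∀ x : P, P.ρ s x = x) (hvan : H1Vanishes 𝒱 Y U) :
    H1Vanishes 𝒱 (homRep P Y) U := by
  classical
  intro c hc hcoc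
  let b : Module.Basis (Module.Free.ChooseBasisIndex k P) k P := Module.Free.chooseBasis k P
  obtain ⟨U₁, hU₁, hc1, hc2⟩ := hc
  have key : ∀ j, ∃ y : Y, IsSm₀ 𝒱 Y y ∧
      ∀ s ∈ U, (c s : P →ₗ[k] Y) (b j) = Y.ρ s y - y := by
    intro j
    apply hvan (fun g => (c g : P →ₗ[k] Y) (b j))
    · obtain ⟨U₂, hU₂, hbj⟩ := hPsm (b j)
      obtain ⟨W, hW, hle⟩ := 𝒱.directed U₁ hU₁ U₂ hU₂
      refine ⟨W, hW, fun g s hs => ?_, fun g s hs => ?_⟩
      · show (c (g * s) : P →ₗ[k] Y) (b j) = (c g : P →ₗ[k] Y) (b j)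
        rw [hc1 g s ((hle.trans inf_le_left) hs)]
      · have h2 := congrArg (fun φ : P →ₗ[k] Y => φ (b j)) (hc2 g s ((hle.trans inf_le_left) hs))
        have h3 : P.ρ s⁻¹ (b j) = b j := hbj s⁻¹ (inv_mem ((hle.trans inf_le_right) hs))
        have h4 : ((homRep P Y).ρ s (c g) : P →ₗ[k] Y) (b j) = (c g : P →ₗ[k] Y) (b j) := h2
        rw [homRep.ρ_apply, h3] at h4
        exact h4
    · intro s hs t ht
      have h2 := congrArg (fun φ : P →ₗ[k] Y => φ (b j)) (hcoc s hs t ht)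
      have h3 : P.ρ s⁻¹ (b j) = b j := hPU s⁻¹ (inv_mem hs) _
      have h4 : (c (s * t) : P →ₗ[k] Y) (b j) =
          ((homRep P Y).ρ s (c t) : P →ₗ[k] Y) (b j) + (c s : P →ₗ[k] Y) (b j) := h2
      rw [homRep.ρ_apply, h3] at h4
      exact h4
  choose y hy0 hy using key
  refine ⟨b.constr k y, homRep.isSm 𝒱 hPsm hYsm _, fun s hs => ?_⟩
  apply b.ext
  intro j
  have h3 : P.ρ s⁻¹ (b j) = b j := hPU s⁻¹ (inv_mem hs) _
  show (c s : P →ₗ[k] Y) (b j) =
    ((homRep P Y).ρ s (b.constr k y) : P →ₗ[k] Y) (b j) - (b.constr k y) (b j)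
  rw [homRep.ρ_apply, h3, Module.Basis.constr_basis, hy j s hs]

end Csm

end Fermat.Agent.S55lib
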