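/-
S55lib / Cpx / Resolve  (helper7).

Two-term resolutions `0 → P₁ → P₀ → N → 0` of a finite smooth `ℤ[G]`-module `N` by smooth, finitely
generated free `ℤ`-modules (`P₀ = ℤ[(G/U) × N]` for an open normal `U` acting trivially on `N`,
`P₁ = ker`): `TwoTermRes 𝒰 N`, `exists_twoTermRes`.
-/
import Fermat.Agent.S55lib.Cpx.HomRep

set_option autoImplicit false

noncomputable section

namespace Fermat.Agent.S55lib

open groupCohomology

universe u

variable {k G : Type u} [CommRing k] [Group G]

/-- a two-term resolution of `N` by smooth finitely generated free `k`-modules -/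
structure TwoTermRes (𝒰 : OpenBasis G) (N : Rep.{u} k G) where
  /-- degree 0 -/
  P0 : Rep.{u} k G
  /-- degree 1 -/
  P1 : Rep.{u} k G
  /-- the differential -/
  d : P1 ⟶ P0
  /-- the augmentation -/
  q : P0 ⟶ N
  fin0 : Module.Finite k P0
  free0 : Module.Free k P0
  fin1 : Module.Finite k P1
  free1 : Module.Free k P1
  sm0 : IsSm 𝒰 P0
  sm1 : IsSm 𝒰 P1
  d_inj : Function.Injective d.hom
  q_surj : Function.Surjective q.hom
  exact : ∀ x : P0, q.hom x = 0 ↔ ∃ y, d.hom y = x

attribute [instance] TwoTermRes.fin0 TwoTermRes.free0 TwoTermRes.fin1 TwoTermRes.free1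

namespace Resolve

variable (U : Subgroup G) (X : Type u)

/-- `G` acts on `(G/U) × X` through the first factor -/
@[reducible] def prodAct : MulAction G ((G ⧸ U) × X) where
  smul g x := (g • x.1, x.2)
  one_smul x := Prod.ext (one_smul G x.1) rfl
  mul_smul g h x := Prod.ext (mul_smul g h x.1) rfl

lemma prodAct_smul (g : G) (x : (G ⧸ U) × X) :
    (prodAct U X).smul g x = (g • x.1, x.2) := rfl

variable {U} (N : Rep.{u} k G) (hU : U.Normal) (htriv : ∀ s ∈ U, ∀ n : N, N.ρ s n = n)

include htriv in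
/-- the action on `N` only depends on the class mod `U` -/
lemma ρ_eq_of_mk_eq {a b : G} (h : (a : G ⧸ U) = (b : G ⧸ U)) (n : N) : N.ρ a n = N.ρ b n := by
  have hab : a⁻¹ * b ∈ U := QuotientGroup.eq.1 h
  have e : b = a * (a⁻¹ * b) := by group
  rw [e, map_mul, Module.End.mul_apply, htriv _ hab]

/-- the permutation representation on `k[(G/U) × N]` -/
def permRep : Representation k G ((G ⧸ U) × N →₀ k) where
  toFun g := Finsupp.lmapDomain k k fun x : (G ⧸ U) × N => ((g • x.1, x.2) : (G ⧸ U) × N)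
  map_one' := by
    apply Finsupp.lhom_ext
    intro x c
    simp [Finsupp.lmapDomain_apply, Finsupp.mapDomain_single]
  map_mul' g h := by
    apply Finsupp.lhom_ext
    intro x c
    simp [Finsupp.lmapDomain_apply, Finsupp.mapDomain_single, mul_smul]

/-- `P₀ = k[(G/U) × N]` -/
abbrev P0 : Rep.{u} k G := Rep.of (permRep (U := U) N)

lemma P0_ρ_single (g : G) (x : (G ⧸ U) × N) (c : k) :
    (P0 (U := U) N).ρ g (Finsupp.single x c : (G ⧸ U) × N →₀ k) =
      (Finsupp.single ((g • x.1, x.2) : (G ⧸ U) × N) c : (G ⧸ U) × N →₀ k) := by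
  show Finsupp.lmapDomain k k _ _ = _
  rw [Finsupp.lmapDomain_apply, Finsupp.mapDomain_single]

/-- the augmentation on basis vectors -/
def qFun (x : (G ⧸ U) × N) : N := N.ρ (Quotient.out x.1) x.2

/-- the augmentation `ℤ[(G/U) × N] → N`, as a linear map -/
def qLin : ((G ⧸ U) × N →₀ k) →ₗ[k] N := Finsupp.linearCombination k (qFun (U := U) N)

lemma qLin_single (x : (G ⧸ U) × N) (c : k) :
    qLin (U := U) N (Finsupp.single x c) = c • qFun (U := U) N x := by
  unfold qLin
  rw [Finsupp.linearCombination_single]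

include htriv in
lemma qFun_smul (g : G) (x : (G ⧸ U) × N) :
    qFun (U := U) N ((g • x.1, x.2) : (G ⧸ U) × N) = N.ρ g (qFun (U := U) N x) := by
  unfold qFun
  rw [← Module.End.mul_apply, ← map_mul]
  refine ρ_eq_of_mk_eq N htriv ?_ _
  show ((Quotient.out (g • x.1) : G) : G ⧸ U) = ((g * Quotient.out x.1 : G) : G ⧸ U)
  rw [QuotientGroup.out_eq']
  exact (MulAction.Quotient.mk_smul_out (H := U) g x.1).symm

include htriv in
/-- the augmentation as a morphism of representations -/
def q : P0 (U := U) N ⟶ N :=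
  Rep.ofHom
    { toLinearMap := qLin (U := U) N
      isIntertwining' := by
        intro g
        apply Finsupp.lhom_ext
        intro x c
        show qLin (U := U) N ((P0 (U := U) N).ρ g (Finsupp.single x c)) =
          N.ρ g (qLin (U := U) N (Finsupp.single x c))
        rw [P0_ρ_single, qLin_single, qLin_single, qFun_smul N htriv, map_smul] }

lemma q_hom_apply (x : (G ⧸ U) × N →₀ k) :
    (q N htriv).hom (x : P0 (U := U) N) = qLin (U := U) N x := rfl

include htriv in
lemma ker_stable (g : G) : LinearMap.ker (qLin (U := U) N) ≤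
    (LinearMap.ker (qLin (U := U) N)).comap ((P0 (U := U) N).ρ g) := by
  intro x hx
  rw [Submodule.mem_comap, LinearMap.mem_ker] at *
  have := Rep.hom_comm_apply (q N htriv) g x
  rw [q_hom_apply, q_hom_apply, hx, map_zero] at this
  exact this

/-- `P₁ = ker (P₀ → N)` -/
abbrev P1 : Rep.{u} k G :=
  Rep.subrepresentation (P0 (U := U) N) (LinearMap.ker (qLin (U := U) N)) (ker_stable N htriv)

/-- the inclusion `P₁ → P₀` -/
abbrev d : P1 N htriv ⟶ P0 (U := U) N :=
  Rep.subtype (P0 (U := U) N) (LinearMap.ker (qLin (U := U) N)) (ker_stable N htriv)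

include htriv in
lemma q_surjective : Function.Surjective (q N htriv).hom := by
  intro n
  refine ⟨(Finsupp.single (((1 : G) : G ⧸ U), n) 1 : (G ⧸ U) × N →₀ k), ?_⟩
  rw [q_hom_apply, qLin_single, one_smul]
  unfold qFun
  have := ρ_eq_of_mk_eq N htriv (QuotientGroup.out_eq' ((1 : G) : G ⧸ U)) n
  rw [this, map_one, Module.End.one_apply]

include hU in
lemma P0_ρ_of_mem {s : G} (hs : s ∈ U) (x : P0 (U := U) N) : (P0 (U := U) N).ρ s x = x := by
  have : (P0 (U := U) N).ρ s = LinearMap.id := by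
    apply Finsupp.lhom_ext
    intro y c
    rw [P0_ρ_single]
    show Finsupp.single _ c = Finsupp.single y c
    congr 1
    refine Prod.ext ?_ rfl
    obtain ⟨a, ha⟩ := QuotientGroup.mk_surjective y.1
    show s • y.1 = y.1
    rw [← ha]
    show ((s * a : G) : G ⧸ U) = (a : G ⧸ U)
    rw [QuotientGroup.eq]
    have e : (s * a)⁻¹ * a = a⁻¹ * s⁻¹ * a⁻¹⁻¹ := by group
    rw [e]
    exact hU.conj_mem _ (U.inv_mem hs) _
  rw [this]; rfl

end Resolve

/-- every finite smooth module has a two-term resolution by smooth finitely generated free modules -/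
theorem exists_twoTermRes [IsDomain k] [IsPrincipalIdealRing k] (𝒰 : OpenBasis G)
    (N : Rep.{u} k G) [Finite N] (hN : IsSm 𝒰 N) : Nonempty (TwoTermRes 𝒰 N) := by
  choose V hV hVfix using hN
  obtain ⟨U, hU, hle⟩ := 𝒰.exists_le_of_finite (T := (Set.univ : Set N)) Set.finite_univ V
    (fun n _ => ⟨V n, hV n, le_rfl⟩)
  have hN' : U.Normal := 𝒰.normal U hU
  have hfi : U.FiniteIndex := 𝒰.finiteIndex U hU
  have htriv : ∀ s ∈ U, ∀ n : N, N.ρ s n = n := fun s hs n => hVfix n s (hle n (Set.mem_univ n) hs)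
  have : Finite (G ⧸ U) := Subgroup.finite_quotient_of_finiteIndex
  have hsm0 : IsSm 𝒰 (Resolve.P0 (U := U) N) := fun x =>
    ⟨U, hU, fun s hs => Resolve.P0_ρ_of_mem N hN' hs x⟩
  exact ⟨{
    P0 := Resolve.P0 (U := U) N
    P1 := Resolve.P1 N htriv
    d := Resolve.d N htriv
    q := Resolve.q N htriv
    fin0 := inferInstanceAs (Module.Finite k ((G ⧸ U) × N →₀ k))
    free0 := inferInstanceAs (Module.Free k ((G ⧸ U) × N →₀ k))
    fin1 := inferInstanceAs (Module.Finite k (LinearMap.ker (Resolve.qLin (U := U) N)))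
    free1 := Module.Free.of_basis (Submodule.basisOfPid
      (Finsupp.basisSingleOne : Module.Basis ((G ⧸ U) × N) k ((G ⧸ U) × N →₀ k))
      (LinearMap.ker (Resolve.qLin (U := U) N))).2
    sm0 := hsm0
    sm1 := fun x => ⟨U, hU, fun s hs => Subtype.ext (Resolve.P0_ρ_of_mem N hN' hs x.1)⟩
    d_inj := Subtype.val_injective
    q_surj := Resolve.q_surjective N htriv
    exact := fun x => ⟨fun h => ⟨⟨x, h⟩, rfl⟩, by rintro ⟨y, rfl⟩; exact y.2⟩ }⟩

end Fermat.Agent.S55lib
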