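/-
S55lib / Cpx / Pi  (helper7).

Products of complexes: `Cpx.pi K` for a family `K : I → Cpx k`, projections, lifting, products of
morphisms; cohomology of a product (elementwise injectivity / surjectivity criteria); the fibre of a
product of morphisms is the product of the fibres (`Fib.piHom`, degreewise bijective).
-/
import Fermat.Agent.S55lib.Cpx.Inflate

set_option autoImplicit false

noncomputable section

namespace Fermat.Agent.S55lib

universe u

namespace Cpx

variable {k : Type u} [CommRing k] {I : Type u}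

/-- the product of a family of complexes -/
def pi (K : I → Cpx k) : Cpx k where
  X := fun n => ∀ i, (K i).X n
  d := fun n => LinearMap.pi fun i => ((K i).d n).comp (LinearMap.proj i)
  d_d := fun n x => funext fun i => (K i).d_d n (x i)

namespace pi

variable (K : I → Cpx k)

lemma d_apply (n : ℕ) (x : (pi K).X n) (i : I) : (pi K).d n x i = (K i).d n (x i) := rfl

/-- the projections -/
def proj (i : I) : Hom (pi K) (K i) where
  f := fun _ => LinearMap.proj i
  comm := fun _ _ => rfl

lemma proj_f (i : I) (n : ℕ) (x : (pi K).X n) : (proj K i).f n x = x i := rfl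

/-- the class of a family of cocycles -/
lemma d_eq_zero_iff {n : ℕ} (x : (pi K).X n) : (pi K).d n x = 0 ↔ ∀ i, (K i).d n (x i) = 0 := by
  constructor
  · intro h i
    exact congrFun h i
  · intro h
    funext i
    exact h i

lemma proj_mapH_cl {n : ℕ} (x : (pi K).X n) (hx : (pi K).d n x = 0) (i : I) :
    (proj K i).mapH n ((pi K).cl x hx) = (K i).cl (x i) ((d_eq_zero_iff K x).1 hx i) := rfl

/-- a class of the product vanishes as soon as all its components vanish -/
theorem eq_zero_of_proj (n : ℕ) (x : (pi K).H n) (h : ∀ i, (proj K i).mapH n x = 0) : x = 0 := by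
  obtain ⟨x0, hx0, rfl⟩ := (pi K).exists_rep x
  cases n with
  | zero =>
    rw [cl_zero_eq_zero_iff]
    funext i
    have := h i
    rwa [proj_mapH_cl, cl_zero_eq_zero_iff] at this
  | succ n =>
    rw [cl_succ_eq_zero_iff]
    have h' : ∀ i, ∃ y, (K i).d n y = x0 i := fun i => by
      have := h i
      rwa [proj_mapH_cl, cl_succ_eq_zero_iff] at this
    choose y hy using h'
    exact ⟨y, funext hy⟩

/-- every family of classes comes from a class of the product -/
theorem exists_proj_eq (n : ℕ) (y : ∀ i, (K i).H n) :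
    ∃ x : (pi K).H n, ∀ i, (proj K i).mapH n x = y i := by
  choose y0 hy0 hy using fun i => (K i).exists_rep (y i)
  refine ⟨(pi K).cl y0 ((d_eq_zero_iff K y0).2 hy0), fun i => ?_⟩
  rw [proj_mapH_cl]
  exact hy i

end pi

/-- the morphism into a product given by its components -/
def Hom.pi {L : Cpx k} {K : I → Cpx k} (φ : ∀ i, Hom L (K i)) : Hom L (Cpx.pi K) where
  f := fun n => LinearMap.pi fun i => (φ i).f n
  comm := fun n x => funext fun i => (φ i).comm n x

lemma Hom.pi_f {L : Cpx k} {K : I → Cpx k} (φ : ∀ i, Hom L (K i)) (n : ℕ) (x : L.X n) (i : I) :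
    (Hom.pi φ).f n x i = (φ i).f n x := rfl

lemma Hom.proj_pi_mapH {L : Cpx k} {K : I → Cpx k} (φ : ∀ i, Hom L (K i)) (i : I) (n : ℕ)
    (x : L.H n) : (pi.proj K i).mapH n ((Hom.pi φ).mapH n x) = (φ i).mapH n x := by
  obtain ⟨x0, hx0, rfl⟩ := L.exists_rep x
  rfl

theorem Hom.pi_mapH_injective {L : Cpx k} {K : I → Cpx k} (φ : ∀ i, Hom L (K i)) (n : ℕ)
    (h : ∀ x : L.H n, (∀ i, (φ i).mapH n x = 0) → x = 0) :
    Function.Injective ((Hom.pi φ).mapH n) := by
  rw [← LinearMap.ker_eq_bot, LinearMap.ker_eq_bot']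
  intro x hx
  refine h x fun i => ?_
  rw [← Hom.proj_pi_mapH, hx, map_zero]

theorem Hom.pi_mapH_surjective {L : Cpx k} {K : I → Cpx k} (φ : ∀ i, Hom L (K i)) (n : ℕ)
    (h : ∀ y : ∀ i, (K i).H n, ∃ x : L.H n, ∀ i, (φ i).mapH n x = y i) :
    Function.Surjective ((Hom.pi φ).mapH n) := by
  intro y
  obtain ⟨x, hx⟩ := h fun i => (pi.proj K i).mapH n y
  refine ⟨x, ?_⟩
  rw [← sub_eq_zero]
  refine pi.eq_zero_of_proj K n _ fun i => ?_
  rw [map_sub, Hom.proj_pi_mapH, hx i, sub_self]

/-- the product of a family of morphisms -/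
def Hom.piMap {K L : I → Cpx k} (φ : ∀ i, Hom (K i) (L i)) : Hom (Cpx.pi K) (Cpx.pi L) :=
  Hom.pi fun i => (φ i).comp (pi.proj K i)

lemma Hom.piMap_f {K L : I → Cpx k} (φ : ∀ i, Hom (K i) (L i)) (n : ℕ) (x : (Cpx.pi K).X n)
    (i : I) : (Hom.piMap φ).f n x i = (φ i).f n (x i) := rfl

/-! ### The fibre of a product -/

namespace Fib

variable {K L : I → Cpx k} (φ : ∀ i, Hom (K i) (L i))

/-- the component maps `Fib (∏ φ) → Fib (φ i)` -/
def piProj (i : I) : Hom (Fib (Hom.piMap φ)) (Fib (φ i)) :=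
  Fib.map (pi.proj K i) (pi.proj L i) fun _ _ => rfl

/-- `Fib (∏ φ) → ∏ Fib φ` -/
def piHom : Hom (Fib (Hom.piMap φ)) (Cpx.pi fun i => Fib (φ i)) :=
  Hom.pi (piProj φ)

lemma piHom_bijective (n : ℕ) : Function.Bijective ((piHom φ).f n) := by
  cases n with
  | zero =>
    constructor
    · rintro ⟨a, b⟩ ⟨a', b'⟩ h
      refine Prod.ext ?_ (Subsingleton.elim _ _)
      funext i
      exact congrArg Prod.fst (congrFun h i)
    · intro y
      refine ⟨((fun i => (y i).1 : ∀ i, (K i).X 0), (PUnit.unit : (sh (Cpx.pi L)).X 0)), ?_⟩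
      funext i
      exact Prod.ext rfl (Subsingleton.elim _ _)
  | succ n =>
    constructor
    · rintro ⟨a, b⟩ ⟨a', b'⟩ h
      refine Prod.ext ?_ ?_
      · funext i
        exact congrArg Prod.fst (congrFun h i)
      · show (b : ∀ i, (L i).X n) = b'
        funext i
        exact congrArg Prod.snd (congrFun h i)
    · intro y
      refine ⟨((fun i => (y i).1 : ∀ i, (K i).X (n + 1)),
        ((fun i => (y i).2 : ∀ i, (L i).X n) : (sh (Cpx.pi L)).X (n + 1))), ?_⟩
      funext i
      rfl

theorem piHom_mapH_bijective (n : ℕ) : Function.Bijective ((piHom φ).mapH n) :=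
  Hom.mapH_bijective_of_bijective (piHom φ) (piHom_bijective φ) n

/-- a class of `Fib (∏ φ)` vanishes as soon as all its components vanish -/
theorem eq_zero_of_piProj (n : ℕ) (x : (Fib (Hom.piMap φ)).H n)
    (h : ∀ i, (piProj φ i).mapH n x = 0) : x = 0 := by
  apply (piHom_mapH_bijective φ n).1
  rw [map_zero]
  refine pi.eq_zero_of_proj _ n _ fun i => ?_
  unfold piHom
  rw [Hom.proj_pi_mapH]
  exact h i

/-- every family of classes of the `Fib (φ i)` comes from a class of `Fib (∏ φ)` -/
theorem exists_piProj_eq (n : ℕ) (y : ∀ i, (Fib (φ i)).H n) :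
    ∃ x : (Fib (Hom.piMap φ)).H n, ∀ i, (piProj φ i).mapH n x = y i := by
  obtain ⟨z, hz⟩ := pi.exists_proj_eq (fun i => Fib (φ i)) n y
  obtain ⟨x, rfl⟩ := (piHom_mapH_bijective φ n).2 z
  refine ⟨x, fun i => ?_⟩
  rw [← hz i]
  unfold piHom
  rw [Hom.proj_pi_mapH]

end Fib

end Cpx

end Fermat.Agent.S55lib
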