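/-
S55lib / Cpx / ShapiroExt  (helper7).

Shapiro's lemma and change of topology at the level of the `Ext` complexes `ExtC 𝒰 d X`:

* `SmCoind.hom S P hP` : if `J` is the smooth coinduction of the `Y i`, then `Hom(P, J)` is the smooth
  coinduction of the `Hom(res P, Y i)` (for `P` smooth, finitely generated);
* `SmCoind.extSh S d i : ExtC 𝒰 d J ⟶ ExtC (𝒰.comap (r i)) (res d) (Y i)`, with
  `extSh_H1_injective`, `extSh_H1_surjective`, `extSh_H2_injective` (family statements);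
* `ExtC.coarsen h d Y : ExtC 𝒰 d Y ⟶ ExtC 𝒱 d Y` for `Coarser 𝒰 𝒱`, bijective on `H¹` and injective on
  `H²` under the Hilbert-90 type hypothesis `H1Vanishes` for `Hom(P₀, Y)`.
-/
import Fermat.Agent.S55lib.Cpx.Shapiro
import Fermat.Agent.S55lib.Cpx.HomRep
import Fermat.Agent.S55lib.Cpx.InfRes
import Fermat.Agent.S55lib.Cpx.Pi

set_option autoImplicit false

noncomputable section

namespace Fermat.Agent.S55lib

universe u

open groupCohomology

variable {k G : Type u} [CommRing k] [Group G] {𝒰 : OpenBasis G} {I : Type u}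
  {D : I → Type u} [∀ i, Group (D i)] {r : ∀ i, D i →* G} {Y : ∀ i, Rep.{u} k (D i)}
  {J : Rep.{u} k G}

/-- restriction of a morphism of representations -/
abbrev resHom {D : Type u} [Group D] (r : D →* G) {A B : Rep.{u} k G} (f : A ⟶ B) :
    Rep.res r A ⟶ Rep.res r B := (Rep.resFunctor r).map f

lemma resHom_apply {D : Type u} [Group D] (r : D →* G) {A B : Rep.{u} k G} (f : A ⟶ B) (a : A) :
    (resHom r f).hom (a : Rep.res r A) = f.hom a := rfl

namespace SmCoind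

variable (S : SmCoind 𝒰 D r Y J)

/-- evaluation `Hom(P, J) → Hom(res P, Y i)` -/
def homEv (P : Rep.{u} k G) (i : I) :
    Rep.res (r i) (homRep P J) ⟶ homRep (Rep.res (r i) P) (Y i) :=
  Rep.ofHom
    { toLinearMap :=
        { toFun := fun φ => (S.ev i).hom.toLinearMap ∘ₗ (φ : P →ₗ[k] J)
          map_add' := fun φ ψ => by
            apply LinearMap.ext; intro x
            exact map_add (S.ev i).hom ((φ : P →ₗ[k] J) x) ((ψ : P →ₗ[k] J) x)
          map_smul' := fun c φ => by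
            apply LinearMap.ext; intro x
            exact map_smul (S.ev i).hom c ((φ : P →ₗ[k] J) x) }
      isIntertwining' := by
        intro d
        apply LinearMap.ext
        intro φ
        apply LinearMap.ext
        intro x
        show (S.ev i).hom (J.ρ (r i d) ((φ : P →ₗ[k] J) (P.ρ (r i d)⁻¹ x))) =
          (Y i).ρ d ((S.ev i).hom ((φ : P →ₗ[k] J) (P.ρ (r i d⁻¹) x)))
        rw [map_inv (r i) d]
        exact Rep.hom_comm_apply (S.ev i) d ((φ : P →ₗ[k] J) (P.ρ (r i d)⁻¹ x)) }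

lemma homEv_apply (P : Rep.{u} k G) (i : I) (φ : P →ₗ[k] J) (x : P) :
    (((S.homEv P i).hom (φ : Rep.res (r i) (homRep P J))) : P →ₗ[k] Y i) x =
      (S.ev i).hom ((φ x : J) : Rep.res (r i) J) := rfl

/-- `Hom(P, J)` is the smooth coinduction of the `Hom(res P, Y i)`. -/
def hom (P : Rep.{u} k G) [Module.Finite k P] (hP : IsSm 𝒰 P) :
    SmCoind 𝒰 D r (fun i => homRep (Rep.res (r i) P) (Y i)) (homRep P J) where
  ev := S.homEv P
  sm := homRep.isSm 𝒰 hP S.sm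
  inj := by
    intro φ h
    apply LinearMap.ext
    intro x
    refine S.inj _ fun i g => ?_
    have h1 := congrArg (fun ψ : P →ₗ[k] Y i => ψ (P.ρ g x)) (h i g)
    have h2 : (S.ev i).hom (J.ρ g ((φ : P →ₗ[k] J) (P.ρ g⁻¹ (P.ρ g x)))) = 0 := h1
    rwa [← Module.End.mul_apply, ← map_mul, inv_mul_cancel, map_one, Module.End.one_apply] at h2
  surj := by
    intro F hF hU
    obtain ⟨U, hU, hFU⟩ := hU
    have hF' : ∀ i d g (y : P), (F i (r i d * g) : P →ₗ[k] Y i) y =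
        (Y i).ρ d ((F i g : P →ₗ[k] Y i) (P.ρ (r i d⁻¹) y)) := fun i d g y =>
      congrArg (fun ψ : P →ₗ[k] Y i => ψ y) (hF i d g)
    have hequiv : ∀ (x : P) i d g, (F i (r i d * g) : P →ₗ[k] Y i) (P.ρ (r i d * g) x) =
        (Y i).ρ d ((F i g : P →ₗ[k] Y i) (P.ρ g x)) := fun x i d g => by
      rw [hF', ← Module.End.mul_apply, ← map_mul, ← mul_assoc, ← map_mul, inv_mul_cancel,
        map_one, one_mul]
    have hsmooth : ∀ x : P, ∃ U' ∈ 𝒰.sets, ∀ i g, ∀ u ∈ U',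
        (F i (g * u) : P →ₗ[k] Y i) (P.ρ (g * u) x) = (F i g : P →ₗ[k] Y i) (P.ρ g x) := fun x => by
      obtain ⟨V, hV, hVx⟩ := hP x
      obtain ⟨W, hW, hle⟩ := 𝒰.directed U hU V hV
      refine ⟨W, hW, fun i g u hu => ?_⟩
      rw [hFU i g u ((hle.trans inf_le_left) hu), map_mul, Module.End.mul_apply,
        hVx u ((hle.trans inf_le_right) hu)]
    let φ0 : P → J := fun x => S.ofFn (fun i g => (F i g : P →ₗ[k] Y i) (P.ρ g x))
      (hequiv x) (hsmooth x)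
    have hφ0 : ∀ x i g, S.fn i (φ0 x) g = (F i g : P →ₗ[k] Y i) (P.ρ g x) :=
      fun x i g => S.fn_ofFn _ _ _ i g
    let φ : P →ₗ[k] J :=
      { toFun := φ0
        map_add' := fun x y => S.ext fun i g => by
          rw [fn_add, hφ0, hφ0, hφ0, map_add, map_add]
        map_smul' := fun c x => S.ext fun i g => by
          rw [fn_smul, hφ0, hφ0, map_smul, map_smul]; rfl }
    refine ⟨φ, fun i g => ?_⟩
    apply LinearMap.ext
    intro x
    show (S.ev i).hom (J.ρ g (φ0 (P.ρ g⁻¹ x))) = (F i g : P →ₗ[k] Y i) x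
    have := hφ0 (P.ρ g⁻¹ x) i g
    rw [fn_def] at this
    rw [this, ← Module.End.mul_apply, ← map_mul, mul_inv_cancel, map_one, Module.End.one_apply]

/-! ### The Shapiro maps on `Ext` complexes -/

section ext

variable {P0 P1 : Rep.{u} k G} [Module.Finite k P0] [Module.Finite k P1] (hP0 : IsSm 𝒰 P0)
  (hP1 : IsSm 𝒰 P1) (d : P1 ⟶ P0)

/-- the Shapiro map `Ext(d, J) → Ext(res d, Y i)` -/
def extSh (i : I) :
    Cpx.Hom (ExtC 𝒰 d J) (ExtC (𝒰.comap (r i)) (resHom (r i) d) (Y i)) :=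
  Cpx.Fib.map ((S.hom P0 hP0).sh i) ((S.hom P1 hP1).sh i) (fun _ _ => rfl)

/-- the Shapiro maps of all `i` together -/
def extShPi :
    Cpx.Hom (ExtC 𝒰 d J) (Cpx.Fib (Cpx.Hom.piMap fun i =>
      Csm.map (𝒰.comap (r i)) (homRep.mapL (resHom (r i) d) (Y i)))) :=
  Cpx.Fib.map (Cpx.Hom.pi fun i => (S.hom P0 hP0).sh i) (Cpx.Hom.pi fun i => (S.hom P1 hP1).sh i)
    (fun _ _ => rfl)

lemma piProj_extShPi (i : I) (n : ℕ) (x : (ExtC 𝒰 d J).H n) :
    (Cpx.Fib.piProj (fun i => Csm.map (𝒰.comap (r i)) (homRep.mapL (resHom (r i) d) (Y i))) i).mapH n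
      ((S.extShPi hP0 hP1 d).mapH n x) = (S.extSh hP0 hP1 d i).mapH n x := by
  obtain ⟨x0, hx0, rfl⟩ := (ExtC 𝒰 d J).exists_rep x
  rw [Cpx.Hom.mapH_cl, Cpx.Hom.mapH_cl, Cpx.Hom.mapH_cl]
  refine Cpx.cl_congr _ ?_ _
  cases n with
  | zero => exact Prod.ext rfl (Subsingleton.elim _ _)
  | succ n => rfl

variable [Finite I]

theorem extShPi_H1_bijective : Function.Bijective ((S.extShPi hP0 hP1 d).mapH 1) := by
  constructor
  · refine Cpx.Fib.map_mapH_injective_succ _ _ _ 0 ?_ ?_ ?_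
    · exact Cpx.Hom.pi_mapH_surjective _ 0 (S.hom P0 hP0).sh_H0_surjective
    · exact Cpx.Hom.pi_mapH_injective _ 0 (S.hom P1 hP1).sh_H0_injective
    · exact Cpx.Hom.pi_mapH_injective _ 1 (S.hom P0 hP0).sh_H1_injective
  · refine Cpx.Fib.map_mapH_surjective_succ _ _ _ 0 ?_ ?_ ?_
    · exact Cpx.Hom.pi_mapH_surjective _ 0 (S.hom P1 hP1).sh_H0_surjective
    · exact Cpx.Hom.pi_mapH_surjective _ 1 (S.hom P0 hP0).sh_H1_surjective
    · exact Cpx.Hom.pi_mapH_injective _ 1 (S.hom P1 hP1).sh_H1_injective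

theorem extShPi_H2_injective : Function.Injective ((S.extShPi hP0 hP1 d).mapH 2) := by
  refine Cpx.Fib.map_mapH_injective_succ _ _ _ 1 ?_ ?_ ?_
  · exact Cpx.Hom.pi_mapH_surjective _ 1 (S.hom P0 hP0).sh_H1_surjective
  · exact Cpx.Hom.pi_mapH_injective _ 1 (S.hom P1 hP1).sh_H1_injective
  · exact Cpx.Hom.pi_mapH_injective _ 2 (S.hom P0 hP0).sh_H2_injective

/-- `Ext¹(d, J) → ∏ Ext¹(res d, Y i)` is injective -/
theorem extSh_H1_injective (x : (ExtC 𝒰 d J).H 1)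
    (h : ∀ i, (S.extSh hP0 hP1 d i).mapH 1 x = 0) : x = 0 := by
  apply (S.extShPi_H1_bijective hP0 hP1 d).1
  rw [map_zero]
  refine Cpx.Fib.eq_zero_of_piProj _ 1 _ fun i => ?_
  rw [piProj_extShPi]
  exact h i

/-- `Ext¹(d, J) → ∏ Ext¹(res d, Y i)` is surjective -/
theorem extSh_H1_surjective
    (y : ∀ i, (ExtC (𝒰.comap (r i)) (resHom (r i) d) (Y i)).H 1) :
    ∃ x : (ExtC 𝒰 d J).H 1, ∀ i, (S.extSh hP0 hP1 d i).mapH 1 x = y i := by
  obtain ⟨z, hz⟩ := Cpx.Fib.exists_piProj_eq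
    (fun i => Csm.map (𝒰.comap (r i)) (homRep.mapL (resHom (r i) d) (Y i))) 1 y
  obtain ⟨x, rfl⟩ := (S.extShPi_H1_bijective hP0 hP1 d).2 z
  refine ⟨x, fun i => ?_⟩
  rw [← piProj_extShPi]
  exact hz i

/-- `Ext²(d, J) → ∏ Ext²(res d, Y i)` is injective -/
theorem extSh_H2_injective (x : (ExtC 𝒰 d J).H 2)
    (h : ∀ i, (S.extSh hP0 hP1 d i).mapH 2 x = 0) : x = 0 := by
  apply S.extShPi_H2_injective hP0 hP1 d
  rw [map_zero]
  refine Cpx.Fib.eq_zero_of_piProj _ 2 _ fun i => ?_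
  rw [piProj_extShPi]
  exact h i

end ext

end SmCoind

/-! ### Change of topology on `Ext` complexes -/

namespace ExtC

variable {𝒱 : OpenBasis G} (h : Csm.Coarser 𝒰 𝒱) {P0 P1 : Rep.{u} k G} (d : P1 ⟶ P0)
  (X : Rep.{u} k G)

/-- the comparison map for a finer topology -/
def coarsen : Cpx.Hom (ExtC 𝒰 d X) (ExtC 𝒱 d X) :=
  Cpx.Fib.map (Csm.coarsen h (homRep P0 X)) (Csm.coarsen h (homRep P1 X)) (fun _ _ => rfl)

theorem coarsen_H1_bijective (hv : ∃ U ∈ 𝒰.sets, Csm.H1Vanishes 𝒱 (homRep P0 X) U) :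
    Function.Bijective ((coarsen h d X).mapH 1) := by
  constructor
  · refine Cpx.Fib.map_mapH_injective_succ _ _ _ 0 ?_ ?_ ?_
    · exact (Csm.coarsen_H0_bijective h _).2
    · exact (Csm.coarsen_H0_bijective h _).1
    · exact Csm.coarsen_H1_injective h _
  · refine Cpx.Fib.map_mapH_surjective_succ _ _ _ 0 ?_ ?_ ?_
    · exact (Csm.coarsen_H0_bijective h _).2
    · exact Csm.coarsen_H1_surjective h _ hv
    · exact Csm.coarsen_H1_injective h _

theorem coarsen_H2_injective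
    (hv : ∀ U ∈ 𝒰.sets, ∃ U' ∈ 𝒰.sets, U' ≤ U ∧ Csm.H1Vanishes 𝒱 (homRep P0 X) U') :
    Function.Injective ((coarsen h d X).mapH 2) := by
  refine Cpx.Fib.map_mapH_injective_succ _ _ _ 1 ?_ ?_ ?_
  · obtain ⟨U, hU⟩ := 𝒰.nonempty
    obtain ⟨U', hU', -, hvan⟩ := hv U hU
    exact Csm.coarsen_H1_surjective h _ ⟨U', hU', hvan⟩
  · exact Csm.coarsen_H1_injective h _
  · exact Csm.coarsen_H2_injective h _ hv

end ExtC

end Fermat.Agent.S55lib
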