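/-
S55lib / Cpx / FourTerm  (helper7).

The abstract Poitou–Tate four-term sequence.  Data: a smooth short exact sequence
`0 → E → J → C → 0` of `G`-modules, `J` the smooth coinduction of a finite family `Y i` of
`D i`-modules (`S : SmCoind 𝒰 D r Y J`), finer topologies `𝒱 i` on the `D i` for which
`H¹(U', Hom(P₀, Y i)) = 0` cofinally (Hilbert 90), and a two-term resolution `0 → P₁ → P₀ → N → 0`
such that every `P₁ → E`, `P₁ → Y i` extends to `P₀` (`N` killed by `p`, `E`, `Y i` `p`-divisible).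
Then
  `∏ H¹(D i, Hom(N, Y i)) --a--> Ext¹(N, C) --δ--> H²(G, Hom(N, E)) --loc--> ∏ H²(D i, Hom(N, Y i))`
is exact at the two middle terms (`FourTerm.exact_X`, `FourTerm.exact_H2`).
-/
import Fermat.Agent.S55lib.Cpx.ShapiroExt

set_option autoImplicit false
set_option linter.unusedSectionVars false

noncomputable section

namespace Fermat.Agent.S55lib

universe u

namespace Cpx

variable {k : Type u} [CommRing k]

lemma Hom.mapH_congr {K L : Cpx k} {φ ψ : Hom K L} (h : ∀ n x, φ.f n x = ψ.f n x) (n : ℕ)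
    (x : K.H n) : φ.mapH n x = ψ.mapH n x := by
  obtain ⟨x0, hx0, rfl⟩ := K.exists_rep x
  rw [Hom.mapH_cl, Hom.mapH_cl]
  exact cl_congr _ (h n x0) _

/-- naturality of `Fib.ofKer` -/
lemma Fib.map_ofKer {K L K' L' K₀ K₀' : Cpx k} {φ : Hom K L} {φ' : Hom K' L'}
    (i : Hom K₀ K) (h0 : ∀ n x, φ.f n (i.f n x) = 0)
    (i' : Hom K₀' K') (h0' : ∀ n x, φ'.f n (i'.f n x) = 0)
    (α₀ : Hom K₀ K₀') (α : Hom K K') (β : Hom L L')
    (h : ∀ n x, φ'.f n (α.f n x) = β.f n (φ.f n x))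
    (hi : ∀ n x, i'.f n (α₀.f n x) = α.f n (i.f n x)) (n : ℕ) (x : K₀.H n) :
    (Fib.map α β h).mapH n ((Fib.ofKer φ i h0).mapH n x) =
      (Fib.ofKer φ' i' h0').mapH n (α₀.mapH n x) := by
  obtain ⟨x0, hx0, rfl⟩ := K₀.exists_rep x
  rw [Hom.mapH_cl, Hom.mapH_cl, Hom.mapH_cl, Hom.mapH_cl]
  refine cl_congr _ ?_ _
  show ((α.f n (i.f n x0)), (shMap β).f n 0) = (i'.f n (α₀.f n x0), (0 : (sh L').X n))
  rw [hi, map_zero]

end Cpx

namespace FourTerm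

variable {k G : Type u} [CommRing k] [Group G] {𝒰 : OpenBasis G} {I : Type u}
  {D : I → Type u} [∀ i, Group (D i)] {r : ∀ i, D i →* G} {Y : ∀ i, Rep.{u} k (D i)}
  {J : Rep.{u} k G} (S : SmCoind 𝒰 D r Y J)
  {𝒱 : ∀ i, OpenBasis (D i)} (hco : ∀ i, Csm.Coarser (𝒰.comap (r i)) (𝒱 i))
  {E C : Rep.{u} k G} (ι : E ⟶ J) (π : J ⟶ C)
  {N P0 P1 : Rep.{u} k G} [Module.Finite k P0] [Module.Finite k P1]
  (hP0 : IsSm 𝒰 P0) (hP1 : IsSm 𝒰 P1) (d : P1 ⟶ P0) (q : P0 ⟶ N)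
  (hq : ∀ x, q.hom (d.hom x) = 0)

/-- the coefficient map `Hom(N, E) → Hom(res N, Y i)`, `φ ↦ ev_i ∘ ι ∘ φ` -/
def coef (N : Rep.{u} k G) (i : I) :
    Rep.res (r i) (homRep N E) ⟶ homRep (Rep.res (r i) N) (Y i) :=
  CategoryTheory.CategoryStruct.comp (resHom (r i) (homRep.mapR N ι)) (S.homEv N i)

lemma coef_apply (N : Rep.{u} k G) (i : I) (φ : N →ₗ[k] E) (x : N) :
    (((coef S ι N i).hom (φ : Rep.res (r i) (homRep N E))) : N →ₗ[k] Y i) x =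
      (S.ev i).hom ((ι.hom (φ x) : J) : Rep.res (r i) J) := rfl

/-- localisation `C(G, Hom(N, E)) → C(D i, Hom(N, Y i))` (for the finer topology `𝒱 i`) -/
def locE (N : Rep.{u} k G) (i : I) :
    Cpx.Hom (Csm 𝒰 (homRep N E)) (Csm (𝒱 i) (homRep (Rep.res (r i) N) (Y i))) :=
  (Csm.coarsen (hco i) _).comp (Csm.mapG (𝒰.isCont_comap (r i)) (coef S ι N i))

/-- Shapiro + change of topology on `Ext(d, J)` -/
def PhiJ (i : I) : Cpx.Hom (ExtC 𝒰 d J) (ExtC (𝒱 i) (resHom (r i) d) (Y i)) :=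
  (ExtC.coarsen (hco i) (resHom (r i) d) (Y i)).comp (S.extSh hP0 hP1 d i)

variable (r) in
/-- `C(D i, Hom(N, Y i)) → Ext(res d, Y i)` -/
def ocY (𝒱 : ∀ i, OpenBasis (D i)) (Y : ∀ i, Rep.{u} k (D i)) (i : I) :
    Cpx.Hom (Csm (𝒱 i) (homRep (Rep.res (r i) N) (Y i)))
      (ExtC (𝒱 i) (resHom (r i) d) (Y i)) :=
  ExtC.ofCoker (𝒱 i) (resHom (r i) d) (resHom (r i) q) hq (Y i)

/-- `C(G, Hom(N, E)) → Ext(d, E)` -/
def ocE (𝒰 : OpenBasis G) (E : Rep.{u} k G) : Cpx.Hom (Csm 𝒰 (homRep N E)) (ExtC 𝒰 d E) :=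
  ExtC.ofCoker 𝒰 d q hq E

/-- the basic commutative square -/
lemma square (i : I) (n : ℕ) (x : (Csm 𝒰 (homRep N E)).H n) :
    (PhiJ S hco hP0 hP1 d i).mapH n ((ExtC.mapR 𝒰 d ι).mapH n ((ocE d q hq 𝒰 E).mapH n x)) =
      (ocY r d q hq 𝒱 Y i).mapH n ((locE S hco ι N i).mapH n x) := by
  obtain ⟨x0, hx0, rfl⟩ := (Csm 𝒰 (homRep N E)).exists_rep x
  simp only [Cpx.Hom.mapH_cl]
  refine Cpx.cl_congr _ ?_ _
  refine Prod.ext ?_ ?_
  · apply Subtype.ext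
    funext g
    apply LinearMap.ext
    intro y
    rfl
  · cases n with
    | zero => exact Subsingleton.elim _ _
    | succ n =>
      show (Csm.coarsen (hco i) _).f n (((S.hom P1 hP1).sh i).f n
        ((Csm.map 𝒰 (homRep.mapR P1 ι)).f n 0)) = 0
      rw [map_zero, map_zero, map_zero]

section exactness

variable [Finite I]
  (h90 : ∀ i, ∀ U ∈ (𝒰.comap (r i)).sets, ∃ U' ∈ (𝒰.comap (r i)).sets, U' ≤ U ∧
    Csm.H1Vanishes (𝒱 i) (homRep (Rep.res (r i) P0) (Y i)) U')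

include h90 in
lemma PhiJ_H1_injective (x : (ExtC 𝒰 d J).H 1)
    (h : ∀ i, (PhiJ S hco hP0 hP1 d i).mapH 1 x = 0) : x = 0 := by
  refine S.extSh_H1_injective hP0 hP1 d x fun i => ?_
  have hv : ∃ U ∈ (𝒰.comap (r i)).sets,
      Csm.H1Vanishes (𝒱 i) (homRep (Rep.res (r i) P0) (Y i)) U := by
    obtain ⟨U, hU⟩ := (𝒰.comap (r i)).nonempty
    obtain ⟨U', hU', -, hvan⟩ := h90 i U hU
    exact ⟨U', hU', hvan⟩
  apply (ExtC.coarsen_H1_bijective (hco i) (resHom (r i) d) (Y i) hv).1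
  rw [map_zero, ← h i]
  exact (Cpx.Hom.mapH_comp _ _ 1 x).symm

include h90 in
lemma PhiJ_H1_surjective (y : ∀ i, (ExtC (𝒱 i) (resHom (r i) d) (Y i)).H 1) :
    ∃ x : (ExtC 𝒰 d J).H 1, ∀ i, (PhiJ S hco hP0 hP1 d i).mapH 1 x = y i := by
  have hv : ∀ i, ∃ U ∈ (𝒰.comap (r i)).sets,
      Csm.H1Vanishes (𝒱 i) (homRep (Rep.res (r i) P0) (Y i)) U := fun i => by
    obtain ⟨U, hU⟩ := (𝒰.comap (r i)).nonempty
    obtain ⟨U', hU', -, hvan⟩ := h90 i U hU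
    exact ⟨U', hU', hvan⟩
  choose y' hy' using fun i =>
    (ExtC.coarsen_H1_bijective (hco i) (resHom (r i) d) (Y i) (hv i)).2 (y i)
  obtain ⟨x, hx⟩ := S.extSh_H1_surjective hP0 hP1 d y'
  refine ⟨x, fun i => ?_⟩
  rw [← hy' i, ← hx i]
  exact Cpx.Hom.mapH_comp _ _ 1 x

include h90 in
lemma PhiJ_H2_injective (x : (ExtC 𝒰 d J).H 2)
    (h : ∀ i, (PhiJ S hco hP0 hP1 d i).mapH 2 x = 0) : x = 0 := by
  refine S.extSh_H2_injective hP0 hP1 d x fun i => ?_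
  apply ExtC.coarsen_H2_injective (hco i) (resHom (r i) d) (Y i) (h90 i)
  rw [map_zero, ← h i]
  exact (Cpx.Hom.mapH_comp _ _ 2 x).symm

/-- `Ext¹(d, J) ≃ ∏ Ext¹(res d, Y i)` -/
def PhiEquiv :
    (ExtC 𝒰 d J).H 1 ≃ₗ[k] (∀ i, (ExtC (𝒱 i) (resHom (r i) d) (Y i)).H 1) :=
  LinearEquiv.ofBijective (LinearMap.pi fun i => (PhiJ S hco hP0 hP1 d i).mapH 1)
    ⟨by
      rw [← LinearMap.ker_eq_bot, LinearMap.ker_eq_bot']
      intro x hx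
      exact PhiJ_H1_injective S hco hP0 hP1 d h90 x fun i => congrFun hx i,
     fun y => by
      obtain ⟨x, hx⟩ := PhiJ_H1_surjective S hco hP0 hP1 d h90 y
      exact ⟨x, funext hx⟩⟩

lemma PhiEquiv_apply (x : (ExtC 𝒰 d J).H 1) (i : I) :
    PhiEquiv S hco hP0 hP1 d h90 x i = (PhiJ S hco hP0 hP1 d i).mapH 1 x := rfl

/-- the map `∏ H¹(D i, Hom(N, Y i)) → Ext¹(d, C)` -/
def a : (∀ i, (Csm (𝒱 i) (homRep (Rep.res (r i) N) (Y i))).H 1) →ₗ[k] (ExtC 𝒰 d C).H 1 :=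
  ((ExtC.mapR 𝒰 d π).mapH 1).comp
    ((PhiEquiv S hco hP0 hP1 d h90).symm.toLinearMap.comp
      (LinearMap.pi fun i => ((ocY r d q hq 𝒱 Y i).mapH 1).comp (LinearMap.proj i)))

lemma a_eq (y : ∀ i, (Csm (𝒱 i) (homRep (Rep.res (r i) N) (Y i))).H 1) (η : (ExtC 𝒰 d J).H 1)
    (h : ∀ i, (PhiJ S hco hP0 hP1 d i).mapH 1 η = (ocY r d q hq 𝒱 Y i).mapH 1 (y i)) :
    a S hco π hP0 hP1 d q hq h90 y = (ExtC.mapR 𝒰 d π).mapH 1 η := by
  show (ExtC.mapR 𝒰 d π).mapH 1 ((PhiEquiv S hco hP0 hP1 d h90).symm _) = _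
  congr 1
  rw [LinearEquiv.symm_apply_eq]
  funext i
  exact (h i).symm

lemma exists_of_a (y : ∀ i, (Csm (𝒱 i) (homRep (Rep.res (r i) N) (Y i))).H 1) :
    ∃ η : (ExtC 𝒰 d J).H 1,
      (∀ i, (PhiJ S hco hP0 hP1 d i).mapH 1 η = (ocY r d q hq 𝒱 Y i).mapH 1 (y i)) ∧
      a S hco π hP0 hP1 d q hq h90 y = (ExtC.mapR 𝒰 d π).mapH 1 η := by
  obtain ⟨η, hη⟩ := PhiJ_H1_surjective S hco hP0 hP1 d h90
    (fun i => (ocY r d q hq 𝒱 Y i).mapH 1 (y i))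
  exact ⟨η, hη, a_eq S hco π hP0 hP1 d q hq h90 y η hη⟩

/-- `a` as a plain function (no instance on the product is needed to state things about it) -/
def aFun (y : ∀ i, (Csm (𝒱 i) (homRep (Rep.res (r i) N) (Y i))).H 1) : (ExtC 𝒰 d C).H 1 :=
  a S hco π hP0 hP1 d q hq h90 y

lemma aFun_add (y y' : ∀ i, (Csm (𝒱 i) (homRep (Rep.res (r i) N) (Y i))).H 1) :
    aFun S hco π hP0 hP1 d q hq h90 (fun i => y i + y' i) =
      aFun S hco π hP0 hP1 d q hq h90 y + aFun S hco π hP0 hP1 d q hq h90 y' :=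
  map_add (a S hco π hP0 hP1 d q hq h90) y y'

lemma aFun_zero : aFun S hco π hP0 hP1 d q hq h90 (fun _ => 0) = 0 :=
  map_zero (a S hco π hP0 hP1 d q hq h90)

lemma aFun_eq (y : ∀ i, (Csm (𝒱 i) (homRep (Rep.res (r i) N) (Y i))).H 1)
    (η : (ExtC 𝒰 d J).H 1)
    (h : ∀ i, (PhiJ S hco hP0 hP1 d i).mapH 1 η = (ocY r d q hq 𝒱 Y i).mapH 1 (y i)) :
    aFun S hco π hP0 hP1 d q hq h90 y = (ExtC.mapR 𝒰 d π).mapH 1 η :=
  a_eq S hco π hP0 hP1 d q hq h90 y η h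

lemma exists_of_aFun (y : ∀ i, (Csm (𝒱 i) (homRep (Rep.res (r i) N) (Y i))).H 1) :
    ∃ η : (ExtC 𝒰 d J).H 1,
      (∀ i, (PhiJ S hco hP0 hP1 d i).mapH 1 η = (ocY r d q hq 𝒱 Y i).mapH 1 (y i)) ∧
      aFun S hco π hP0 hP1 d q hq h90 y = (ExtC.mapR 𝒰 d π).mapH 1 η :=
  exists_of_a S hco π hP0 hP1 d q hq h90 y

variable [Module.Projective k P0] [Module.Projective k P1]
  (hι : Function.Injective ι.hom) (hπ : Function.Surjective π.hom)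
  (hex : ∀ b : J, π.hom b = 0 ↔ ∃ a, ι.hom a = b)
  (hqs : Function.Surjective q.hom) (hqex : ∀ x : P0, q.hom x = 0 ↔ ∃ y, d.hom y = x)
  (hE : IsSm 𝒰 E) (hextE : Function.Surjective (homRep.mapL d E).hom)
  (hY : ∀ i, IsSm (𝒱 i) (Y i))
  (hextY : ∀ i, Function.Surjective (homRep.mapL (resHom (r i) d) (Y i)).hom)

include S hP0 hP1 hι hπ hex in
/-- the short exact sequence of `Ext` complexes -/
lemma ses : Cpx.IsSES (ExtC.mapR 𝒰 d ι) (ExtC.mapR 𝒰 d π) :=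
  ExtC.mapR_isSES 𝒰 d hP0 hP1 ι π S.sm hι hπ hex

include hP0 hqs hqex hE hextE in
lemma ocE_bijective (n : ℕ) :
    Function.Bijective ((ocE d q (fun x => (hqex _).2 ⟨x, rfl⟩) 𝒰 E).mapH n) :=
  ExtC.ofCoker_bijective 𝒰 d hP0 q hqs hqex hE hextE n

include hco hqs hqex hY hextY hP0 in
lemma ocY_bijective (i : I) (n : ℕ) :
    Function.Bijective ((ocY r d q (fun x => (hqex _).2 ⟨x, rfl⟩) 𝒱 Y i).mapH n) := by
  have hP0' : IsSm (𝒱 i) (Rep.res (r i) P0) := fun x => by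
    obtain ⟨U, hU, hx⟩ := hP0 x
    obtain ⟨V, hV, hle⟩ := hco i (U.comap (r i)) (𝒰.comap_mem_comap (r i) hU)
    exact ⟨V, hV, fun s hs => hx (r i s) (hle hs)⟩
  have : Module.Finite k (Rep.res (r i) P0) := inferInstanceAs (Module.Finite k P0)
  exact ExtC.ofCoker_bijective (𝒱 i) (resHom (r i) d) hP0' (resHom (r i) q) hqs hqex (hY i)
    (hextY i) n

/-- the connecting map `Ext¹(d, C) → H²(G, Hom(N, E))` -/
def δ : (ExtC 𝒰 d C).H 1 →ₗ[k] (Csm 𝒰 (homRep N E)).H 2 :=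
  (LinearEquiv.ofBijective _
    (ocE_bijective hP0 d q hqs hqex hE hextE 2)).symm.toLinearMap.comp
    ((ses S ι π hP0 hP1 d hι hπ hex).δ 1)

lemma ocE_δ (ξ : (ExtC 𝒰 d C).H 1) :
    (ocE d q (fun x => (hqex _).2 ⟨x, rfl⟩) 𝒰 E).mapH 2
      (δ S ι π hP0 hP1 d q hι hπ hex hqs hqex hE hextE ξ) =
      (ses S ι π hP0 hP1 d hι hπ hex).δ 1 ξ :=
  LinearEquiv.apply_symm_apply (LinearEquiv.ofBijective _
    (ocE_bijective hP0 d q hqs hqex hE hextE 2)) _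

include hY hextY in
/-- exactness at `Ext¹(d, C)` -/
theorem exact_X (ξ : (ExtC 𝒰 d C).H 1) :
    δ S ι π hP0 hP1 d q hι hπ hex hqs hqex hE hextE ξ = 0 ↔
      ∃ y, a S hco π hP0 hP1 d q (fun x => (hqex _).2 ⟨x, rfl⟩) h90 y = ξ := by
  have hδ : δ S ι π hP0 hP1 d q hι hπ hex hqs hqex hE hextE ξ = 0 ↔
      (ses S ι π hP0 hP1 d hι hπ hex).δ 1 ξ = 0 := by
    rw [← ocE_δ S ι π hP0 hP1 d q hι hπ hex hqs hqex hE hextE ξ]
    constructor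
    · intro h; rw [h, map_zero]
    · intro h
      apply (ocE_bijective hP0 d q hqs hqex hE hextE 2).1
      rw [h, map_zero]
  rw [hδ, (ses S ι π hP0 hP1 d hι hπ hex).exact_right 1 ξ]
  constructor
  · rintro ⟨η, rfl⟩
    choose y hy using fun i =>
      (ocY_bijective hco hP0 d q hqs hqex hY hextY i 1).2 ((PhiJ S hco hP0 hP1 d i).mapH 1 η)
    exact ⟨y, a_eq S hco π hP0 hP1 d q _ h90 y η fun i => (hy i).symm⟩
  · rintro ⟨y, rfl⟩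
    obtain ⟨η, -, hη⟩ := exists_of_a S hco π hP0 hP1 d q (fun x => (hqex _).2 ⟨x, rfl⟩) h90 y
    exact ⟨η, hη.symm⟩

include hY hextY in
/-- exactness at `Ext¹(d, C)`, in terms of `aFun` -/
theorem exact_X' (ξ : (ExtC 𝒰 d C).H 1) :
    δ S ι π hP0 hP1 d q hι hπ hex hqs hqex hE hextE ξ = 0 ↔
      ∃ y, aFun S hco π hP0 hP1 d q (fun x => (hqex _).2 ⟨x, rfl⟩) h90 y = ξ :=
  exact_X S hco ι π hP0 hP1 d q h90 hι hπ hex hqs hqex hE hextE hY hextY ξ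

include hY hextY h90 in
/-- exactness at `H²(G, Hom(N, E))` -/
theorem exact_H2 (x : (Csm 𝒰 (homRep N E)).H 2) :
    (∀ i, (locE S hco ι N i).mapH 2 x = 0) ↔
      ∃ ξ, δ S ι π hP0 hP1 d q hι hπ hex hqs hqex hE hextE ξ = x := by
  have hq0 : ∀ x, q.hom (d.hom x) = 0 := fun x => (hqex _).2 ⟨x, rfl⟩
  have h1 : (∀ i, (locE S hco ι N i).mapH 2 x = 0) ↔
      (ExtC.mapR 𝒰 d ι).mapH 2 ((ocE d q hq0 𝒰 E).mapH 2 x) = 0 := by
    constructor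
    · intro h
      refine PhiJ_H2_injective S hco hP0 hP1 d h90 _ fun i => ?_
      rw [square S hco ι hP0 hP1 d q hq0 i 2 x, h i, map_zero]
    · intro h i
      apply (ocY_bijective hco hP0 d q hqs hqex hY hextY i 2).1
      rw [← square S hco ι hP0 hP1 d q hq0 i 2 x, h, map_zero, map_zero]
  rw [h1, (ses S ι π hP0 hP1 d hι hπ hex).exact_left 1]
  constructor
  · rintro ⟨ξ, hξ⟩
    refine ⟨ξ, ?_⟩
    apply (ocE_bijective hP0 d q hqs hqex hE hextE 2).1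
    rw [ocE_δ, hξ]
  · rintro ⟨ξ, rfl⟩
    exact ⟨ξ, (ocE_δ S ι π hP0 hP1 d q hι hπ hex hqs hqex hE hextE ξ).symm⟩

end exactness

end FourTerm

end Fermat.Agent.S55lib
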