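/-
S55lib / Cpx / PairNat  (helper7).

Naturality of helper8's pairing `α¹ : Ext¹(d, C) × H²(FC d) → H²(G, C)`:
* in the coefficient module `C` (`alpha1_mapR`);
* under a change of group / topology / coefficients (`pair12_nat`, `alpha1_PhiJ`: Shapiro);
* the abstract compatibility `FourTerm.alpha1_aFun` between the map `a` of the four-term sequence and
  the local pairings.
-/
import Fermat.Agent.S55lib.Cpx.FourTerm
import Fermat.Agent.S55lib.CFDual.Pair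

set_option autoImplicit false

noncomputable section

namespace Fermat.Agent.S55lib

universe u

open Csm Cpx CFDual

namespace Cpx

/-- naturality of `Fib.toCokerH` -/
lemma Fib.toCokerH_map {k : Type u} [CommRing k] {K L M K' L' M' : Cpx k} {φ : Hom K L}
    {q : Hom L M} {φ' : Hom K' L'} {q' : Hom L' M'} (α : Hom K K') (β : Hom L L') (γ : Hom M M')
    (h : ∀ n x, φ'.f n (α.f n x) = β.f n (φ.f n x))
    (hγ : ∀ n x, q'.f n (β.f n x) = γ.f n (q.f n x))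
    (hq : ∀ n x, q.f n (φ.f n x) = 0) (hq' : ∀ n x, q'.f n (φ'.f n x) = 0) (n : ℕ)
    (x : (Fib φ).H (n + 1)) :
    Fib.toCokerH φ' q' hq' n ((Fib.map α β h).mapH (n + 1) x) =
      γ.mapH n (Fib.toCokerH φ q hq n x) := by
  obtain ⟨a, b, ha, hab, rfl⟩ := Fib.exists_rep_succ φ x
  rw [Fib.map_clS, Fib.toCokerH_clS, Fib.toCokerH_clS, Hom.mapH_cl]
  exact cl_congr _ (hγ n b) _

end Cpx

namespace CFDual

/-! ### Cup products and change of group -/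

section cups

variable {k G G' : Type u} [CommRing k] [Group G] [Group G'] {𝒰 : OpenBasis G}
  {𝒰' : OpenBasis G'} (f : G' →* G) {A B C : Rep.{u} k G} {A' B' C' : Rep.{u} k G'}
  (P : EqBilin A B C) (P' : EqBilin A' B' C')
  (α : Rep.res f A ⟶ A') (β : Rep.res f B ⟶ B') (γ : Rep.res f C ⟶ C')
  (hP : ∀ (a : A) (b : B), P'.β (α.hom (a : Rep.res f A)) (β.hom (b : Rep.res f B)) =
    γ.hom ((P.β a b : C) : Rep.res f C))

include hP in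
lemma fn₂_scup11_nat (a : (Csm 𝒰 A).X 1) (a' : (Csm 𝒰' A').X 1)
    (ha : ∀ d, fn₁ a' d = α.hom ((fn₁ a (f d) : A) : Rep.res f A))
    (x : (Csm 𝒰 B).X 1) (x' : (Csm 𝒰' B').X 1)
    (hx : ∀ d, fn₁ x' d = β.hom ((fn₁ x (f d) : B) : Rep.res f B)) (d d' : G') :
    fn₂ (scup11 𝒰' P' a' x') (d, d') =
      γ.hom ((fn₂ (scup11 𝒰 P a x) (f d, f d') : C) : Rep.res f C) := by
  rw [fn₂_scup11, fn₂_scup11]
  show P'.β (fn₁ a' d) (B'.ρ d (fn₁ x' d')) = γ.hom (P.β (fn₁ a (f d)) (B.ρ (f d) (fn₁ x (f d'))))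
  rw [ha, hx, ← hP]
  congr 1
  exact (Rep.hom_comm_apply β d _).symm

include hP in
lemma fn₂_scup02_nat (a : (Csm 𝒰 A).X 0) (a' : (Csm 𝒰' A').X 0)
    (ha : fn₀ a' = α.hom ((fn₀ a : A) : Rep.res f A))
    (x : (Csm 𝒰 B).X 2) (x' : (Csm 𝒰' B').X 2)
    (hx : ∀ d d', fn₂ x' (d, d') = β.hom ((fn₂ x (f d, f d') : B) : Rep.res f B)) (d d' : G') :
    fn₂ (scup02 𝒰' P' a' x') (d, d') =
      γ.hom ((fn₂ (scup02 𝒰 P a x) (f d, f d') : C) : Rep.res f C) := by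
  rw [fn₂_scup02, fn₂_scup02]
  show P'.β (fn₀ a') (fn₂ x' (d, d')) = γ.hom (P.β (fn₀ a) (fn₂ x (f d, f d')))
  rw [ha, hx, ← hP]

end cups

/-! ### Naturality of `pair12` for a change of group -/

section pair

variable {k G G' : Type u} [CommRing k] [Group G] [Group G'] (𝒰 : OpenBasis G)
  (𝒰' : OpenBasis G') {A0 A1 B1 B0 C : Rep.{u} k G} (D : AdjData A0 A1 B1 B0 C)
  {A0' A1' B1' B0' C' : Rep.{u} k G'} (D' : AdjData A0' A1' B1' B0' C')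

/-- naturality of `pair12` with respect to cochain maps compatible with the cochain pairings -/
theorem AdjData.pair12_nat (F : Cpx.Hom (D.KC 𝒰) (D'.KC 𝒰')) (L : Cpx.Hom (D.LC 𝒰) (D'.LC 𝒰'))
    (T : Cpx.Hom (Csm 𝒰 C) (Csm 𝒰' C'))
    (h : ∀ κ l, D'.p12 𝒰' (F.f 1 κ) (L.f 2 l) = T.f 2 (D.p12 𝒰 κ l))
    (e : (D.KC 𝒰).H 1) (y : (D.LC 𝒰).H 2) :
    D'.pair12 𝒰' (F.mapH 1 e) (L.mapH 2 y) = T.mapH 2 (D.pair12 𝒰 e y) := by
  obtain ⟨κ, hκ, rfl⟩ := (D.KC 𝒰).exists_rep e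
  obtain ⟨l, hl, rfl⟩ := (D.LC 𝒰).exists_rep y
  rw [Hom.mapH_cl, Hom.mapH_cl, AdjData.pair12_cl, AdjData.pair12_cl, Hom.mapH_cl]
  exact cl_congr _ (h κ l) _

/-- the cochain identity for maps of fibres built from componentwise maps -/
lemma AdjData.p12_fibMap (Fa0 : Cpx.Hom (Csm 𝒰 A0) (Csm 𝒰' A0'))
    (Fa1 : Cpx.Hom (Csm 𝒰 A1) (Csm 𝒰' A1')) (Fb1 : Cpx.Hom (Csm 𝒰 B1) (Csm 𝒰' B1'))
    (Fb0 : Cpx.Hom (Csm 𝒰 B0) (Csm 𝒰' B0')) (T : Cpx.Hom (Csm 𝒰 C) (Csm 𝒰' C'))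
    (hK : ∀ n x, (Csm.map 𝒰' D'.φ).f n (Fa0.f n x) = Fa1.f n ((Csm.map 𝒰 D.φ).f n x))
    (hL : ∀ n x, (Csm.map 𝒰' D'.ψ).f n (Fb1.f n x) = Fb0.f n ((Csm.map 𝒰 D.ψ).f n x))
    (h1 : ∀ a x, scup11 𝒰' D'.β0 (Fa0.f 1 a) (Fb0.f 1 x) = T.f 2 (scup11 𝒰 D.β0 a x))
    (h2 : ∀ b y, scup02 𝒰' D'.β1 (Fa1.f 0 b) (Fb1.f 2 y) = T.f 2 (scup02 𝒰 D.β1 b y))
    (κ : (D.KC 𝒰).X 1) (l : (D.LC 𝒰).X 2) :
    D'.p12 𝒰' ((Fib.map Fa0 Fa1 hK).f 1 κ) ((Fib.map Fb1 Fb0 hL).f 2 l) =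
      T.f 2 (D.p12 𝒰 κ l) := by
  obtain ⟨a, b⟩ := κ
  obtain ⟨y, x⟩ := l
  show D'.p12 𝒰' ((Fa0.f 1 a, Fa1.f 0 b) : (Csm 𝒰' A0').X 1 × (Csm 𝒰' A1').X 0)
      ((Fb1.f 2 y, Fb0.f 1 x) : (Csm 𝒰' B1').X 2 × (Csm 𝒰' B0').X 1) =
    T.f 2 (D.p12 𝒰 ((a, b) : (Csm 𝒰 A0).X 1 × (Csm 𝒰 A1).X 0)
      ((y, x) : (Csm 𝒰 B1).X 2 × (Csm 𝒰 B0).X 1))
  rw [AdjData.p12_apply, AdjData.p12_apply, h1, h2, map_add]

end pair

/-! ### Naturality of `α¹` in the coefficient module -/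

section mapR

variable {k G : Type u} [CommRing k] [Group G] (𝒰 : OpenBasis G) {P0 P1 : Rep.{u} k G}
  (d : P1 ⟶ P0) {C C' : Rep.{u} k G} (f : C ⟶ C')

theorem alpha1_mapR (e : ExtH 𝒰 d C 1) (x : (FC 𝒰 d).H 2) :
    alpha1 𝒰 d C' ((ExtC.mapR 𝒰 d f).mapH 1 e) x = (Csm.map 𝒰 f).mapH 2 (alpha1 𝒰 d C e x) := by
  have hc : ∀ (κ : ((pairData d C).KC 𝒰).X 1) (l : ((pairData d C).LC 𝒰).X 2),
      (pairData d C').p12 𝒰 ((ExtC.mapR 𝒰 d f).f 1 κ) ((Cpx.Hom.id _).f 2 l) =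
        (Csm.map 𝒰 f).f 2 ((pairData d C).p12 𝒰 κ l) := by
    rintro ⟨a, b⟩ ⟨y, x⟩
    show (pairData d C').p12 𝒰
        (((Csm.map 𝒰 (homRep.mapR P0 f)).f 1 a, (Csm.map 𝒰 (homRep.mapR P1 f)).f 0 b) :
          (Csm 𝒰 (homRep P0 C')).X 1 × (Csm 𝒰 (homRep P1 C')).X 0)
        ((y, x) : (Csm 𝒰 P1).X 2 × (Csm 𝒰 P0).X 1) =
      (Csm.map 𝒰 f).f 2 ((pairData d C).p12 𝒰
        ((a, b) : (Csm 𝒰 (homRep P0 C)).X 1 × (Csm 𝒰 (homRep P1 C)).X 0)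
        ((y, x) : (Csm 𝒰 P1).X 2 × (Csm 𝒰 P0).X 1))
    rw [AdjData.p12_apply, AdjData.p12_apply, map_add]
    congr 1
  have h := AdjData.pair12_nat 𝒰 𝒰 (pairData d C) (pairData d C') (ExtC.mapR 𝒰 d f)
    (Cpx.Hom.id _) (Csm.map 𝒰 f) hc e x
  have h2 : (Cpx.Hom.id (FC 𝒰 d)).mapH 2 x = x := Hom.mapH_id 2 x
  calc alpha1 𝒰 d C' ((ExtC.mapR 𝒰 d f).mapH 1 e) x
      = alpha1 𝒰 d C' ((ExtC.mapR 𝒰 d f).mapH 1 e) ((Cpx.Hom.id (FC 𝒰 d)).mapH 2 x) := by rw [h2]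
    _ = _ := h

/-- `α¹` after a change of coefficients `f : C ⟶ C'` -/
def alpha1Cmp : ExtH 𝒰 d C 1 →ₗ[k] (FC 𝒰 d).H 2 →ₗ[k] (Csm 𝒰 C').H 2 :=
  (alpha1 𝒰 d C').comp ((ExtC.mapR 𝒰 d f).mapH 1)

lemma alpha1Cmp_apply (e : ExtH 𝒰 d C 1) (x : (FC 𝒰 d).H 2) :
    alpha1Cmp 𝒰 d f e x = (Csm.map 𝒰 f).mapH 2 (alpha1 𝒰 d C e x) :=
  alpha1_mapR 𝒰 d f e x

lemma alpha1Cmp_bijective (h1 : Function.Bijective (alpha1 𝒰 d C'))
    (h2 : Function.Bijective ((ExtC.mapR 𝒰 d f).mapH 1)) :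
    Function.Bijective (alpha1Cmp 𝒰 d f) :=
  h1.comp h2

end mapR

end CFDual

/-! ### Shapiro: `α¹` and the localisation maps of the four-term sequence -/

namespace FourTerm

variable {k G : Type u} [CommRing k] [Group G] {𝒰 : OpenBasis G} {I : Type u}
  {D : I → Type u} [∀ i, Group (D i)] {r : ∀ i, D i →* G} {Y : ∀ i, Rep.{u} k (D i)}
  {J : Rep.{u} k G} (S : SmCoind 𝒰 D r Y J)
  {𝒱 : ∀ i, OpenBasis (D i)} (hco : ∀ i, Csm.Coarser (𝒰.comap (r i)) (𝒱 i))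
  {E C : Rep.{u} k G} (ι : E ⟶ J) (π : J ⟶ C)
  {N P0 P1 : Rep.{u} k G} [Module.Finite k P0] [Module.Finite k P1]
  (hP0 : IsSm 𝒰 P0) (hP1 : IsSm 𝒰 P1) (d : P1 ⟶ P0) (q : P0 ⟶ N)
  (hq : ∀ x, q.hom (d.hom x) = 0)

/-- restriction to `D i` (with the finer topology `𝒱 i`) on cochains -/
def resC (P : Rep.{u} k G) (i : I) : Cpx.Hom (Csm 𝒰 P) (Csm (𝒱 i) (Rep.res (r i) P)) :=
  (Csm.coarsen (hco i) _).comp
    (Csm.mapG (𝒰.isCont_comap (r i)) (CategoryTheory.CategoryStruct.id (Rep.res (r i) P)))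

lemma fn₀_resC (P : Rep.{u} k G) (i : I) (x : (Csm 𝒰 P).X 0) :
    fn₀ ((resC hco P i).f 0 x) = fn₀ x :=
  Csm.fn₀_mapG (𝒰.isCont_comap (r i)) (CategoryTheory.CategoryStruct.id (Rep.res (r i) P)) x

lemma fn₁_resC (P : Rep.{u} k G) (i : I) (x : (Csm 𝒰 P).X 1) (g : D i) :
    fn₁ ((resC hco P i).f 1 x) g = fn₁ x (r i g) := rfl

lemma fn₂_resC (P : Rep.{u} k G) (i : I) (x : (Csm 𝒰 P).X 2) (g h : D i) :
    fn₂ ((resC hco P i).f 2 x) (g, h) = fn₂ x (r i g, r i h) :=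
  Csm.fn₂_mapG (𝒰.isCont_comap (r i)) (CategoryTheory.CategoryStruct.id (Rep.res (r i) P)) x g h

/-- restriction to `D i` on the complexes `FC` -/
def resFC (i : I) : Cpx.Hom (FC 𝒰 d) (FC (𝒱 i) (resHom (r i) d)) :=
  Fib.map (resC hco P1 i) (resC hco P0 i) (fun _ _ => rfl)

/-- the Shapiro map followed by the change of topology, on `C(G, J)` -/
def locJ (i : I) : Cpx.Hom (Csm 𝒰 J) (Csm (𝒱 i) (Y i)) :=
  (Csm.coarsen (hco i) (Y i)).comp (S.sh i)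

lemma fn₂_locJ (i : I) (x : (Csm 𝒰 J).X 2) (g h : D i) :
    fn₂ ((locJ S hco i).f 2 x) (g, h) = (S.ev i).hom (fn₂ x (r i g, r i h) : J) :=
  Csm.fn₂_mapG (𝒰.isCont_comap (r i)) (S.ev i) x g h

/-- the cochain identity behind `alpha1_PhiJ` -/
lemma p12_PhiJ (i : I) (κ : ((pairData d J).KC 𝒰).X 1) (l : ((pairData d J).LC 𝒰).X 2) :
    (pairData (resHom (r i) d) (Y i)).p12 (𝒱 i) ((PhiJ S hco hP0 hP1 d i).f 1 κ)
      ((resFC hco d i).f 2 l) = (locJ S hco i).f 2 ((pairData d J).p12 𝒰 κ l) := by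
  obtain ⟨a, b⟩ := κ
  obtain ⟨y, x⟩ := l
  show (pairData (resHom (r i) d) (Y i)).p12 (𝒱 i)
      (((Csm.coarsen (hco i) _).f 1 (((S.hom P0 hP0).sh i).f 1 a),
        (Csm.coarsen (hco i) _).f 0 (((S.hom P1 hP1).sh i).f 0 b)) :
        (Csm (𝒱 i) (homRep (Rep.res (r i) P0) (Y i))).X 1 ×
          (Csm (𝒱 i) (homRep (Rep.res (r i) P1) (Y i))).X 0)
      (((resC hco P1 i).f 2 y, (resC hco P0 i).f 1 x) :
        (Csm (𝒱 i) (Rep.res (r i) P1)).X 2 × (Csm (𝒱 i) (Rep.res (r i) P0)).X 1) =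
    (locJ S hco i).f 2 ((pairData d J).p12 𝒰
      ((a, b) : (Csm 𝒰 (homRep P0 J)).X 1 × (Csm 𝒰 (homRep P1 J)).X 0)
      ((y, x) : (Csm 𝒰 P1).X 2 × (Csm 𝒰 P0).X 1))
  rw [AdjData.p12_apply, AdjData.p12_apply, map_add]
  have h1 : scup11 (𝒱 i) (pairData (resHom (r i) d) (Y i)).β0
      ((Csm.coarsen (hco i) _).f 1 (((S.hom P0 hP0).sh i).f 1 a)) ((resC hco P0 i).f 1 x) =
      (locJ S hco i).f 2 (scup11 𝒰 (pairData d J).β0 a x) := by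
    apply ext₂
    funext ⟨g, h⟩
    rw [fn₂_locJ]
    exact fn₂_scup11_nat (r i) (evalBilin P0 J) (evalBilin (Rep.res (r i) P0) (Y i))
      (S.homEv P0 i) (CategoryTheory.CategoryStruct.id (Rep.res (r i) P0)) (S.ev i)
      (fun _ _ => rfl) a ((Csm.coarsen (hco i) _).f 1 (((S.hom P0 hP0).sh i).f 1 a))
      (fun _ => rfl) x ((resC hco P0 i).f 1 x) (fun _ => rfl) g h
  have h2 : scup02 (𝒱 i) (pairData (resHom (r i) d) (Y i)).β1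
      ((Csm.coarsen (hco i) _).f 0 (((S.hom P1 hP1).sh i).f 0 b)) ((resC hco P1 i).f 2 y) =
      (locJ S hco i).f 2 (scup02 𝒰 (pairData d J).β1 b y) := by
    apply ext₂
    funext ⟨g, h⟩
    rw [fn₂_locJ]
    exact fn₂_scup02_nat (r i) (evalBilin P1 J) (evalBilin (Rep.res (r i) P1) (Y i))
      (S.homEv P1 i) (CategoryTheory.CategoryStruct.id (Rep.res (r i) P1)) (S.ev i)
      (fun _ _ => rfl) b ((Csm.coarsen (hco i) _).f 0 (((S.hom P1 hP1).sh i).f 0 b))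
      (Csm.fn₀_mapG (𝒰.isCont_comap (r i)) ((S.hom P1 hP1).ev i) b) y ((resC hco P1 i).f 2 y)
      (fun g' h' => fn₂_resC hco P1 i y g' h') g h
  rw [h1, h2]

/-- **Shapiro for `α¹`.** -/
theorem alpha1_PhiJ (i : I) (η : (ExtC 𝒰 d J).H 1) (x : (FC 𝒰 d).H 2) :
    alpha1 (𝒱 i) (resHom (r i) d) (Y i) ((PhiJ S hco hP0 hP1 d i).mapH 1 η)
      ((resFC hco d i).mapH 2 x) = (locJ S hco i).mapH 2 (alpha1 𝒰 d J η x) :=
  AdjData.pair12_nat 𝒰 (𝒱 i) (pairData d J) (pairData (resHom (r i) d) (Y i))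
    (PhiJ S hco hP0 hP1 d i) (resFC hco d i) (locJ S hco i) (p12_PhiJ S hco hP0 hP1 d i) η x

/-- `H²(FC d) → H¹(G, N)` is compatible with restriction -/
lemma toCokerH_resFC (i : I) (x : (FC 𝒰 d).H 2) :
    Fib.toCokerH (Csm.map (𝒱 i) (resHom (r i) d)) (Csm.map (𝒱 i) (resHom (r i) q))
        (fun _ x => Subtype.ext (funext fun g => hq (x.1 g))) 1 ((resFC hco d i).mapH 2 x) =
      (resC hco N i).mapH 1 (Fib.toCokerH (Csm.map 𝒰 d) (Csm.map 𝒰 q)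
        (fun _ x => Subtype.ext (funext fun g => hq (x.1 g))) 1 x) :=
  Fib.toCokerH_map (resC hco P1 i) (resC hco P0 i) (resC hco N i) (fun _ _ => rfl)
    (fun _ _ => rfl) _ _ 1 x

variable (r) in
/-- the local pairing `H¹(D i, Hom(N, Y i)) × H²(FC (res d)) → H²(D i, Y i)` -/
def alpha1Oc (𝒱 : ∀ i, OpenBasis (D i)) (Y : ∀ i, Rep.{u} k (D i)) (i : I) :
    (Csm (𝒱 i) (homRep (Rep.res (r i) N) (Y i))).H 1 →ₗ[k]
      (FC (𝒱 i) (resHom (r i) d)).H 2 →ₗ[k] (Csm (𝒱 i) (Y i)).H 2 :=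
  (alpha1 (𝒱 i) (resHom (r i) d) (Y i)).comp ((ocY r d q hq 𝒱 Y i).mapH 1)

lemma alpha1Oc_apply (i : I) (y : (Csm (𝒱 i) (homRep (Rep.res (r i) N) (Y i))).H 1)
    (x : (FC (𝒱 i) (resHom (r i) d)).H 2) :
    alpha1Oc r d q hq 𝒱 Y i y x =
      alpha1 (𝒱 i) (resHom (r i) d) (Y i) ((ocY r d q hq 𝒱 Y i).mapH 1 y) x := rfl

lemma alpha1Oc_bijective (i : I)
    (h1 : Function.Bijective (alpha1 (𝒱 i) (resHom (r i) d) (Y i)))
    (h2 : Function.Bijective ((ocY r d q hq 𝒱 Y i).mapH 1)) :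
    Function.Bijective (alpha1Oc r d q hq 𝒱 Y i) :=
  h1.comp h2

section compat

variable [Finite I]
  (h90 : ∀ i, ∀ U ∈ (𝒰.comap (r i)).sets, ∃ U' ∈ (𝒰.comap (r i)).sets, U' ≤ U ∧
    Csm.H1Vanishes (𝒱 i) (homRep (Rep.res (r i) P0) (Y i)) U')

/-- **Abstract compatibility**: the pairing of `a(y)` with a global class `x` is the image under
`π : J → C` of a class in `H²(G, J)` whose local components are the local pairings of `y i` with the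
restrictions of `x`. -/
theorem alpha1_aFun (y : ∀ i, (Csm (𝒱 i) (homRep (Rep.res (r i) N) (Y i))).H 1)
    (x : (FC 𝒰 d).H 2) :
    ∃ z : (Csm 𝒰 J).H 2,
      alpha1 𝒰 d C (aFun S hco π hP0 hP1 d q hq h90 y) x = (Csm.map 𝒰 π).mapH 2 z ∧
      (∀ i, (locJ S hco i).mapH 2 z =
        alpha1 (𝒱 i) (resHom (r i) d) (Y i) ((ocY r d q hq 𝒱 Y i).mapH 1 (y i))
          ((resFC hco d i).mapH 2 x)) ∧
      ∀ n : ℕ, n • x = 0 → n • z = 0 := by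
  obtain ⟨η, hη, ha⟩ := exists_of_aFun S hco π hP0 hP1 d q hq h90 y
  refine ⟨alpha1 𝒰 d J η x, ?_, fun i => ?_, fun n hn => ?_⟩
  · rw [ha, alpha1_mapR]
  · rw [← alpha1_PhiJ S hco hP0 hP1 d i η x, hη i]
  · rw [← map_nsmul, hn, map_zero]

end compat

end FourTerm

end Fermat.Agent.S55lib
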