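/-
S55lib / Cpx / Baer  (helper7).

Extension of homomorphisms into `p`-divisible groups: if `d : P₁ → P₀` is an injective homomorphism of
abelian groups with `p P₀ ⊆ d P₁` and `X` is `p`-divisible, every `ψ : P₁ → X` extends along `d`
(`Ext¹_ℤ(P₀/P₁, X) = 0`).  Consequence for the `Ext` complexes: the hypothesis `hext` of
`ExtC.ofCoker_bijective`.
-/
import Fermat.Agent.S55lib.Cpx.HomRep

set_option autoImplicit false
set_option linter.style.haveILetI false

noncomputable section

namespace Fermat.Agent.S55lib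

open Finsupp

/-- **Extension into a `p`-divisible group.** -/
theorem exists_extension_of_pDivisible {P0 P1 X : Type*} [AddCommGroup P0] [AddCommGroup P1]
    [AddCommGroup X] (p : ℕ) [hp : Fact p.Prime] (d : P1 →+ P0) (hd : Function.Injective d)
    (hpd : ∀ x : P0, ∃ y, d y = p • x) (hX : ∀ x : X, ∃ y, p • y = x) (ψ : P1 →+ X) :
    ∃ φ : P0 →+ X, ∀ y, φ (d y) = ψ y := by
  classical
  -- the quotient `N = P₀ / d P₁` is an `𝔽_p`-vector space
  let R : AddSubgroup P0 := d.range
  have hR : ∀ x : P0, p • x ∈ R := fun x => by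
    obtain ⟨y, hy⟩ := hpd x
    exact ⟨y, hy⟩
  obtain ⟨inst⟩ : Nonempty (Module (ZMod p) (P0 ⧸ R)) := ⟨QuotientAddGroup.zmodModule hR⟩
  let b := Module.Basis.ofVectorSpace (ZMod p) (P0 ⧸ R)
  -- lifts of the basis vectors
  have hlift : ∀ i : Module.Basis.ofVectorSpaceIndex (ZMod p) (P0 ⧸ R),
      ∃ e : P0, (QuotientAddGroup.mk e : P0 ⧸ R) = b i := fun i =>
    QuotientAddGroup.mk_surjective (b i)
  choose e he using hlift
  choose y hy using fun i => hpd (e i)
  choose x hx using fun i => hX (ψ (y i))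
  -- the presentation `P₁ × ℤ^(ι) → P₀`
  let sE : (Module.Basis.ofVectorSpaceIndex (ZMod p) (P0 ⧸ R) →₀ ℤ) →+ P0 :=
    (Finsupp.linearCombination ℤ e).toAddMonoidHom
  let sX : (Module.Basis.ofVectorSpaceIndex (ZMod p) (P0 ⧸ R) →₀ ℤ) →+ X :=
    (Finsupp.linearCombination ℤ x).toAddMonoidHom
  let s : P1 × (Module.Basis.ofVectorSpaceIndex (ZMod p) (P0 ⧸ R) →₀ ℤ) →+ P0 :=
    AddMonoidHom.coprod d sE
  let Φ : P1 × (Module.Basis.ofVectorSpaceIndex (ZMod p) (P0 ⧸ R) →₀ ℤ) →+ X :=
    AddMonoidHom.coprod ψ sX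
  -- reduction of `sE` modulo `R`
  have hmk : ∀ a : Module.Basis.ofVectorSpaceIndex (ZMod p) (P0 ⧸ R) →₀ ℤ,
      (QuotientAddGroup.mk (sE a) : P0 ⧸ R) =
        Finsupp.linearCombination (ZMod p) b (a.mapRange (Int.cast : ℤ → ZMod p) Int.cast_zero) := by
    intro a
    induction a using Finsupp.induction_linear with
    | zero => simp [sE]
    | add f g hf hg =>
      rw [map_add, QuotientAddGroup.mk_add, hf, hg, Finsupp.mapRange_add (by intro u v; push_cast; rfl),
        map_add]
    | single i c =>
      show (QuotientAddGroup.mk (Finsupp.linearCombination ℤ e (Finsupp.single i c)) : P0 ⧸ R) = _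
      rw [Finsupp.linearCombination_single, Finsupp.mapRange_single,
        Finsupp.linearCombination_single, QuotientAddGroup.mk_zsmul, he, Int.cast_smul_eq_zsmul]
  -- `s` is surjective
  have hs : Function.Surjective s := by
    intro z
    obtain ⟨c, hc⟩ : ∃ c : Module.Basis.ofVectorSpaceIndex (ZMod p) (P0 ⧸ R) →₀ ZMod p,
        Finsupp.linearCombination (ZMod p) b c = (QuotientAddGroup.mk z : P0 ⧸ R) :=
      ⟨b.repr _, b.linearCombination_repr _⟩
    let a : Module.Basis.ofVectorSpaceIndex (ZMod p) (P0 ⧸ R) →₀ ℤ :=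
      c.mapRange (ZMod.cast : ZMod p → ℤ) (by simp)
    have ha : a.mapRange (Int.cast : ℤ → ZMod p) Int.cast_zero = c := by
      ext i
      simp [a]
    have h1 : (QuotientAddGroup.mk (z - sE a) : P0 ⧸ R) = 0 := by
      rw [QuotientAddGroup.mk_sub, hmk, ha, hc, sub_self]
    rw [QuotientAddGroup.eq_zero_iff] at h1
    obtain ⟨w, hw⟩ := h1
    refine ⟨(w, a), ?_⟩
    show d w + sE a = z
    rw [hw]; abel
  -- the kernel of `s` is killed by `Φ`
  have hker : s.ker ≤ Φ.ker := by
    rintro ⟨w, a⟩ hwa
    rw [AddMonoidHom.mem_ker] at hwa ⊢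
    have hwa' : d w + sE a = 0 := hwa
    -- all coefficients of `a` are divisible by `p`
    have h0 : (QuotientAddGroup.mk (sE a) : P0 ⧸ R) = 0 := by
      rw [QuotientAddGroup.eq_zero_iff]
      refine ⟨-w, ?_⟩
      rw [map_neg]
      exact neg_eq_of_add_eq_zero_right hwa'
    rw [hmk] at h0
    have h1 : a.mapRange (Int.cast : ℤ → ZMod p) Int.cast_zero = 0 := by
      have hli := b.linearIndependent
      rw [linearIndependent_iff] at hli
      exact hli _ h0
    have hdiv : ∀ i, (p : ℤ) ∣ a i := fun i => by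
      have := congrArg (fun f => f i) h1
      simp only [Finsupp.mapRange_apply, Finsupp.coe_zero, Pi.zero_apply] at this
      exact (ZMod.intCast_zmod_eq_zero_iff_dvd (a i) p).1 this
    let c : Module.Basis.ofVectorSpaceIndex (ZMod p) (P0 ⧸ R) →₀ ℤ :=
      a.mapRange (fun z => z / (p : ℤ)) (by simp)
    have hac : a = (p : ℤ) • c := by
      ext i
      simp only [c, Finsupp.smul_apply, Finsupp.mapRange_apply, smul_eq_mul]
      exact (Int.mul_ediv_cancel' (hdiv i)).symm
    -- express everything through `c`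
    let sY : (Module.Basis.ofVectorSpaceIndex (ZMod p) (P0 ⧸ R) →₀ ℤ) →+ P1 :=
      (Finsupp.linearCombination ℤ y).toAddMonoidHom
    have h2 : sE ((p : ℤ) • c) = d (sY c) := by
      induction c using Finsupp.induction_linear with
      | zero => simp [sE, sY]
      | add f g hf hg => rw [smul_add, map_add, map_add, map_add, hf, hg]
      | single i z =>
        show Finsupp.linearCombination ℤ e ((p : ℤ) • Finsupp.single i z) =
          d (Finsupp.linearCombination ℤ y (Finsupp.single i z))
        rw [Finsupp.smul_single, Finsupp.linearCombination_single,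
          Finsupp.linearCombination_single, map_zsmul, hy, smul_eq_mul, mul_comm, mul_smul,
          natCast_zsmul]
    have h3 : sX ((p : ℤ) • c) = ψ (sY c) := by
      induction c using Finsupp.induction_linear with
      | zero => simp [sX, sY]
      | add f g hf hg => rw [smul_add, map_add, map_add, map_add, hf, hg]
      | single i z =>
        show Finsupp.linearCombination ℤ x ((p : ℤ) • Finsupp.single i z) =
          ψ (Finsupp.linearCombination ℤ y (Finsupp.single i z))
        rw [Finsupp.smul_single, Finsupp.linearCombination_single,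
          Finsupp.linearCombination_single, map_zsmul, ← hx, smul_eq_mul, mul_comm, mul_smul,
          natCast_zsmul]
    have h4 : w = -sY c := by
      apply hd
      rw [map_neg, ← h2, ← hac]
      exact eq_neg_of_add_eq_zero_left hwa'
    show ψ w + sX a = 0
    rw [hac, h3, h4, map_neg, neg_add_cancel]
  refine ⟨AddMonoidHom.liftOfRightInverse s (Function.surjInv hs)
    (Function.rightInverse_surjInv hs) ⟨Φ, hker⟩, fun w => ?_⟩
  have : d w = s (w, 0) := by
    show d w = d w + sE 0
    rw [map_zero, add_zero]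
  rw [this, AddMonoidHom.liftOfRightInverse_comp_apply]
  show ψ w + sX 0 = ψ w
  rw [map_zero, add_zero]

universe u

/-- every additive map `P → X` is `k`-linear (automatic for `k = ℤ`) -/
def AddLin {k G : Type u} [CommRing k] [Group G] (P X : Rep.{u} k G) : Prop :=
  ∀ (f : P →+ X) (c : k) (x : P), f (c • x) = c • f x

lemma addLin_int {G : Type} [Group G] (P X : Rep.{0} ℤ G) : AddLin P X := by
  intro f c x
  have := @map_intCast_smul P X _ _ (P →+ X) _ _ f ℤ ℤ _ _ P.hV2 X.hV2 c x
  simpa using this

/-- the hypothesis `hext` of `ExtC.ofCoker_bijective`, for `p`-divisible coefficients -/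
theorem homRep.mapL_surjective_of_pDivisible {k G : Type u} [CommRing k] [Group G]
    {P0 P1 X : Rep.{u} k G} (hlin : AddLin P0 X) (p : ℕ)
    [Fact p.Prime] (d : P1 ⟶ P0) (hd : Function.Injective d.hom)
    (hpd : ∀ x : P0, ∃ y, d.hom y = p • x) (hX : ∀ x : X, ∃ y, p • y = x) :
    Function.Surjective (homRep.mapL d X).hom := by
  intro ψ
  obtain ⟨φ₀, hφ₀⟩ := exists_extension_of_pDivisible p
    (d.hom.toLinearMap.toAddMonoidHom) hd hpd hX ((ψ : P1 →ₗ[k] X).toAddMonoidHom)
  let φ : P0 →ₗ[k] X :=
    { toFun := φ₀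
      map_add' := map_add φ₀
      map_smul' := fun c x => hlin φ₀ c x }
  refine ⟨φ, ?_⟩
  apply LinearMap.ext
  intro y
  exact hφ₀ y

end Fermat.Agent.S55lib
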